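import Fermat.Agent.Pic.Cech.Divisor

/-!
# Duals, units and base change

A chart map extends to the base change; a base change of data gives one of the duals; the structure
sheaf, the divisor and its canonical section are natural.
-/

noncomputable section

open TensorProduct

namespace Fermat.Agent.Pic.Cech

universe u

variable {k : Type u} [Field k]

section Chart

variable {R R' : Type u} [CommRing R] [CommRing R'] [Algebra k R] [Algebra k R'] [Algebra R R']
  [IsScalarTower k R R'] {B : Type u} [CommRing B] [Algebra k B]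

variable (k R R' B) in
/-- Base change of a chart ring. -/
abbrev chartMap : R ⊗[k] B →ₐ[k] R' ⊗[k] B :=
  Algebra.TensorProduct.map (IsScalarTower.toAlgHom k R R') (AlgHom.id k B)

theorem cancelBaseChange_tmul_eq (a : R') (t : R ⊗[k] B) :
    AlgebraTensorModule.cancelBaseChange k R R' R' B (a ⊗ₜ t) =
      (a ⊗ₜ[k] (1 : B)) * (chartMap k R R' B) t := by
  induction t using TensorProduct.induction_on with
  | zero => simp
  | tmul r b =>
    rw [AlgebraTensorModule.cancelBaseChange_tmul, Algebra.TensorProduct.map_tmul,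
      Algebra.TensorProduct.tmul_mul_tmul, AlgHom.id_apply, one_mul, Algebra.smul_def, mul_comm]
    rfl
  | add u v hu hv => rw [tmul_add, map_add, map_add, hu, hv, mul_add]

theorem smul_eq_tmul_mul (a : R') (t : R' ⊗[k] B) : a • t = (a ⊗ₜ[k] (1 : B)) * t := by
  induction t using TensorProduct.induction_on with
  | zero => simp
  | tmul r b => simp [smul_tmul']
  | add u v hu hv => rw [smul_add, hu, hv, mul_add]

variable {N N' : Type u} [AddCommGroup N] [Module R N] [Module (R ⊗[k] B) N]
  [IsScalarTower R (R ⊗[k] B) N] [AddCommGroup N'] [Module R' N'] [Module (R' ⊗[k] B) N']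
  [IsScalarTower R' (R' ⊗[k] B) N'] (b : N →ₛₗ[((chartMap k R R' B)).toRingHom] N')
  (he : ∃ e : R' ⊗[R] N ≃ₗ[R'] N', ∀ x, e (1 ⊗ₜ x) = b x)

omit [Module R N] [IsScalarTower R (R ⊗[k] B) N] in
theorem smul_b_eq_tmul_smul (a : R') (x : N) : a • b x = (a ⊗ₜ[k] (1 : B)) • b x := by
  rw [← algebraMap_smul (R' ⊗[k] B) a (b x)]
  rfl

omit [Module R N] [IsScalarTower R (R ⊗[k] B) N] in
/-- A semilinear map applied after scaling, scaled by a simple tensor. -/
theorem tmul_smul_smul_b (c a : R') (β : B) (x : N) :
    (c ⊗ₜ[k] β) • a • b x = (c * a) • b (((1 : R) ⊗ₜ[k] β) • x) := by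
  rw [map_smulₛₗ, smul_b_eq_tmul_smul b a x, ← smul_assoc, smul_eq_mul,
    ← algebraMap_smul (R' ⊗[k] B) (c * a), ← smul_assoc]
  congr 1
  show _ = ((c * a) ⊗ₜ[k] (1 : B)) * chartMap k R R' B ((1 : R) ⊗ₜ[k] β)
  simp

/-- A chart map is linear over the map of base rings. -/
theorem chartMap_smul (r : R) (x : N) : b (r • x) = algebraMap R R' r • b x := by
  rw [← algebraMap_smul (R ⊗[k] B) r x, map_smulₛₗ]
  show Algebra.TensorProduct.map _ _ (r ⊗ₜ[k] (1 : B)) • b x = _
  rw [Algebra.TensorProduct.map_tmul, AlgHom.id_apply, IsScalarTower.coe_toAlgHom']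
  exact algebraMap_smul (R' ⊗[k] B) (algebraMap R R' r) (b x)

/-- The extension of a chart map to the base change, additively. -/
def liftChartAdd : R' ⊗[R] N →+ N' :=
  TensorProduct.liftAddHom
    ({ toFun := fun a => AddMonoidHom.mk' (fun x => a • b x) fun x y => by rw [map_add, smul_add]
       map_zero' := by ext x; exact zero_smul R' (b x)
       map_add' := fun a a' => by ext x; exact add_smul a a' (b x) } : R' →+ N →+ N')
    fun r a x => show (r • a) • b x = a • b (r • x) by
      rw [chartMap_smul, Algebra.smul_def, smul_smul, mul_comm]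

/-- The extension of a chart map to the base change. -/
def liftChart : R' ⊗[R] N →ₗ[R'] N' :=
  { liftChartAdd b with
    map_smul' := fun a z => by
      show liftChartAdd b (a • z) = a • liftChartAdd b z
      induction z using TensorProduct.induction_on with
      | zero => simp
      | tmul a' x =>
        show (a * a') • b x = a • a' • b x
        rw [mul_smul]
      | add u v hu hv => rw [smul_add, map_add, map_add, smul_add, hu, hv] }

theorem liftChart_tmul (a : R') (x : N) : liftChart b (a ⊗ₜ x) = a • b x := rfl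

include he in
/-- A functional on a chart extends to its base change. -/
theorem exists_dualChart (ψ : Module.Dual (R ⊗[k] B) N) :
    ∃ χ : Module.Dual (R' ⊗[k] B) N', ∀ x, χ (b x) = (chartMap k R R' B) (ψ x) := by
  obtain ⟨e, he⟩ := he
  have he' : ∀ (a : R') (x : N), e (a ⊗ₜ x) = a • b x := fun a x => by
    rw [← he x, ← map_smul, smul_tmul', smul_eq_mul, mul_one]
  let Ψ : N' →ₗ[R'] R' ⊗[k] B :=
    (AlgebraTensorModule.cancelBaseChange k R R' R' B).toLinearMap ∘ₗ
      (ψ.restrictScalars R).baseChange R' ∘ₗ e.symm.toLinearMap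
  have hΨ : ∀ (a : R') (x : N), Ψ (a • b x) = (a ⊗ₜ[k] (1 : B)) * (chartMap k R R' B) (ψ x) :=
      fun a x => by
    show AlgebraTensorModule.cancelBaseChange k R R' R' B
      ((ψ.restrictScalars R).baseChange R' (e.symm (a • b x))) = _
    rw [← he', e.symm_apply_apply]
    exact cancelBaseChange_tmul_eq a (ψ x)
  refine ⟨{ toFun := Ψ, map_add' := map_add Ψ, map_smul' := fun s z => ?_ }, fun x => ?_⟩
  · show Ψ (s • z) = s * Ψ z
    obtain ⟨w, rfl⟩ := e.surjective z
    induction w using TensorProduct.induction_on with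
    | zero => rw [map_zero, smul_zero, map_zero, mul_zero]
    | tmul a x =>
      rw [he', hΨ]
      induction s using TensorProduct.induction_on with
      | zero => rw [zero_smul, map_zero, zero_mul]
      | tmul c β =>
        rw [tmul_smul_smul_b, hΨ, map_smul, smul_eq_mul, map_mul, ← mul_assoc, ← mul_assoc]
        congr 1
        simp
      | add u v hu hv => rw [add_smul, map_add, hu, hv, add_mul]
    | add u v hu hv => rw [map_add, smul_add, map_add, map_add, hu, hv, mul_add]
  · show Ψ (b x) = _
    have h := hΨ 1 x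
    rwa [one_smul, ← Algebra.TensorProduct.one_def, one_mul] at h

include he in
omit [IsScalarTower R (R ⊗[k] B) N] in
/-- Functionals on a base changed chart are determined on the original one. -/
theorem dual_ext_chart {χ χ' : Module.Dual (R' ⊗[k] B) N'} (h : ∀ x, χ (b x) = χ' (b x)) :
    χ = χ' := by
  obtain ⟨e, he⟩ := he
  refine LinearMap.ext fun z => ?_
  obtain ⟨w, rfl⟩ := e.surjective z
  induction w using TensorProduct.induction_on with
  | zero => simp
  | tmul a x =>
    rw [show e (a ⊗ₜ x) = a • b x by rw [← he x, ← map_smul, smul_tmul', smul_eq_mul, mul_one],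
      LinearMap.map_smul_of_tower, LinearMap.map_smul_of_tower, h]
  | add u v hu hv => rw [map_add, map_add, map_add, hu, hv]

/-- The base change of functionals on a chart. -/
def dualChart : Module.Dual (R ⊗[k] B) N →ₛₗ[((chartMap k R R' B)).toRingHom] Module.Dual
    (R' ⊗[k] B) N' where
  toFun ψ := (exists_dualChart b he ψ).choose
  map_add' ψ ψ' := dual_ext_chart b he fun x => by
    rw [LinearMap.add_apply, (exists_dualChart b he _).choose_spec,
      (exists_dualChart b he ψ).choose_spec, (exists_dualChart b he ψ').choose_spec,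
      LinearMap.add_apply, map_add]
  map_smul' a ψ := dual_ext_chart b he fun x => by
    rw [LinearMap.smul_apply, (exists_dualChart b he _).choose_spec,
      (exists_dualChart b he ψ).choose_spec, LinearMap.smul_apply, smul_eq_mul, smul_eq_mul,
      map_mul]
    rfl

@[simp] theorem dualChart_apply (ψ : Module.Dual (R ⊗[k] B) N) (x : N) :
    dualChart b he ψ (b x) = (chartMap k R R' B) (ψ x) := (exists_dualChart b he ψ).choose_spec x

/-- Functionals commute with base change for finite projective charts. -/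
theorem exists_dualChart_equiv [Module.Finite (R ⊗[k] B) N] [Module.Projective (R ⊗[k] B) N] :
    ∃ E : R' ⊗[R] Module.Dual (R ⊗[k] B) N ≃ₗ[R'] Module.Dual (R' ⊗[k] B) N',
      ∀ ψ, E (1 ⊗ₜ ψ) = dualChart b he ψ := by
  obtain ⟨n, p, g, -, -, hpg⟩ := Module.Finite.exists_comp_eq_id_of_projective (R ⊗[k] B) N
  let D := dualChart b he
  let F : R' ⊗[R] Module.Dual (R ⊗[k] B) N →ₗ[R'] Module.Dual (R' ⊗[k] B) N' := liftChart D
  have hF : ∀ (a : R') ψ, F (a ⊗ₜ ψ) = a • D ψ := fun a ψ => rfl
  let ψb : Fin n → Module.Dual (R ⊗[k] B) N := fun l => LinearMap.proj l ∘ₗ g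
  let Q : Fin n → (R' ⊗[k] B →ₗ[R'] R' ⊗[R] Module.Dual (R ⊗[k] B) N) := fun l =>
    ((LinearMap.toSpanSingleton (R ⊗[k] B) _ (ψb l)).restrictScalars R).baseChange R' ∘ₗ
      (AlgebraTensorModule.cancelBaseChange k R R' R' B).symm.toLinearMap
  let G : Module.Dual (R' ⊗[k] B) N' → R' ⊗[R] Module.Dual (R ⊗[k] B) N :=
    fun χ => ∑ l, Q l (χ (b (p (Pi.single l 1))))
  have hexp : ∀ x : N, x = ∑ l, ψb l x • p (Pi.single l 1) := fun x => by
    simp only [← map_smul, ← map_sum]
    show x = p (∑ l, g x l • Pi.single l 1)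
    rw [← pi_eq_sum_univ' (g x)]
    exact (LinearMap.congr_fun hpg x).symm
  have hsum : ∀ ψ : Module.Dual (R ⊗[k] B) N, ψ = ∑ l, ψ (p (Pi.single l 1)) • ψb l := fun ψ =>
    LinearMap.ext fun x => by
      conv_lhs => rw [hexp x]
      simp [mul_comm]
  have hQ : ∀ l (a : R') (t : R ⊗[k] B), Q l ((a ⊗ₜ[k] (1 : B)) * (chartMap k R R' B) t) = a ⊗ₜ
      (t • ψb l) := by
    intro l a t
    show ((LinearMap.toSpanSingleton (R ⊗[k] B) _ (ψb l)).restrictScalars R).baseChange R'
      ((AlgebraTensorModule.cancelBaseChange k R R' R' B).symm _) = _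
    rw [← cancelBaseChange_tmul_eq, LinearEquiv.symm_apply_apply]
    rfl
  have hGF : ∀ w, G (F w) = w := fun w => by
    induction w using TensorProduct.induction_on with
    | zero => simp [G]
    | tmul a ψ =>
      simp only [G, hF, LinearMap.smul_apply, D, dualChart_apply, smul_eq_tmul_mul, hQ]
      rw [← tmul_sum, ← hsum]
    | add u v hu hv =>
      have : ∀ χ χ', G (χ + χ') = G χ + G χ' := fun χ χ' => by
        simp [G, Finset.sum_add_distrib]
      rw [map_add, this, hu, hv]
  have hFG : ∀ χ, F (G χ) = χ := fun χ => dual_ext_chart b he fun x => by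
    have hFQ : ∀ l s, F (Q l s) = s • D (ψb l) := fun l s => by
      induction s using TensorProduct.induction_on with
      | zero => simp
      | tmul a β =>
        rw [show a ⊗ₜ[k] β = (a ⊗ₜ[k] (1 : B)) * (chartMap k R R' B) ((1 : R) ⊗ₜ[k] β) by simp, hQ,
            hF, map_smulₛₗ,
          ← algebraMap_smul (R' ⊗[k] B) a, ← smul_assoc]
        rfl
      | add u v hu hv => rw [map_add, map_add, hu, hv, add_smul]
    simp only [G, map_sum, hFQ, LinearMap.sum_apply, LinearMap.smul_apply, D, dualChart_apply,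
      smul_eq_mul]
    conv_rhs => rw [hexp x, map_sum, map_sum]
    refine Finset.sum_congr rfl fun l _ => ?_
    rw [map_smulₛₗ, map_smul, smul_eq_mul, mul_comm]
    rfl
  exact ⟨LinearEquiv.ofBijective F
    ⟨Function.LeftInverse.injective hGF, Function.RightInverse.surjective hFG⟩,
    fun ψ => (hF 1 ψ).trans (one_smul _ _)⟩

end Chart

variable {C : Cover k}

/-- The overlap is finite projective if the first chart is. -/
theorem Pre.finite_projective01 {R : Type u} [CommRing R] [Algebra k R] (P : Pre C R)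
    [Module.Finite (C.RB0 R) P.N0] [Module.Projective (C.RB0 R) P.N0] :
    Module.Finite (C.RB01 R) P.N01 ∧ Module.Projective (C.RB01 R) P.N01 := by
  obtain ⟨n, p, g, -, -, hpg⟩ := Module.Finite.exists_comp_eq_id_of_projective (C.RB0 R) P.N0
  let v : Fin n → P.N01 := fun i => P.f0 (p (Pi.single i 1))
  let F : (Fin n → C.RB01 R) →ₗ[C.RB01 R] P.N01 := Fintype.linearCombination (C.RB01 R) v
  let G : P.N01 →ₗ[C.RB01 R] (Fin n → C.RB01 R) :=
    LinearMap.pi fun i => (P.exists_extend0 (LinearMap.proj i ∘ₗ g)).choose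
  have hG : ∀ (i : Fin n) (x : P.N0), G (P.f0 x) i = C.ρ0 R (g x i) := fun i x => by
    exact (P.exists_extend0 ((LinearMap.proj i : (Fin n → C.RB0 R) →ₗ[C.RB0 R] C.RB0 R) ∘ₗ
        g)).choose_spec x
  have hFG : F ∘ₗ G = LinearMap.id := by
    refine LinearMap.ext fun z => ?_
    obtain ⟨m, x, hx⟩ := P.surj0 z
    have hz : z = C.T' R ^ m • P.f0 x := by rw [← hx, smul_smul, C.T'_pow_mul_T_pow, one_smul]
    rw [hz, LinearMap.id_apply, LinearMap.comp_apply, map_smul, map_smul]
    congr 1
    simp only [F, Fintype.linearCombination_apply, hG, v, ← P.f0_smul_chart, ← map_sum,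
      ← map_smul]
    rw [← pi_eq_sum_univ' (g x)]
    exact congrArg P.f0 (LinearMap.congr_fun hpg x)
  exact ⟨Module.Finite.of_surjective F fun z => ⟨G z, LinearMap.congr_fun hFG z⟩,
    Module.Projective.of_split G F hFG⟩

variable {R R' : Type u} [CommRing R] [Algebra k R] [CommRing R'] [Algebra k R']
  [Algebra R R'] [IsScalarTower k R R']

theorem BaseChange.dual_ext0 {P : Pre C R} {P' : Pre C R'} (h : BaseChange P P')
    {χ χ' : Module.Dual (C.RB01 R') P'.N01}
    (hx : ∀ x, χ (P'.f0 (h.b0 x)) = χ' (P'.f0 (h.b0 x))) : χ = χ' :=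
  P'.dual_ext01 fun z => by
    obtain ⟨w, rfl⟩ := h.e0.surjective z
    induction w using TensorProduct.induction_on with
    | zero => rw [map_zero, map_zero P'.f0, map_zero, map_zero]
    | tmul a x => rw [h.e0_tmul, P'.f0_smul, LinearMap.map_smul_of_tower,
        LinearMap.map_smul_of_tower, hx]
    | add u v hu hv => rw [map_add, map_add, map_add, map_add, hu, hv]

theorem BaseChange.dual_ext1 {P : Pre C R} {P' : Pre C R'} (h : BaseChange P P')
    {χ χ' : Module.Dual (C.RB01 R') P'.N01}
    (hx : ∀ x, χ (P'.f1 (h.b1 x)) = χ' (P'.f1 (h.b1 x))) : χ = χ' :=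
  P'.dual_ext01' fun z => by
    obtain ⟨w, rfl⟩ := h.e1.surjective z
    induction w using TensorProduct.induction_on with
    | zero => rw [map_zero, map_zero P'.f1, map_zero, map_zero]
    | tmul a x => rw [h.e1_tmul, P'.f1_smul, LinearMap.map_smul_of_tower,
        LinearMap.map_smul_of_tower, hx]
    | add u v hu hv => rw [map_add, map_add, map_add, map_add, hu, hv]

/-- Base change passes to duals. -/
def BaseChange.dual {L : Datum C R} {L' : Datum C R'} (h : BaseChange L.toPre L'.toPre) :
    BaseChange L.dual.toPre L'.dual.toPre where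
  b0 := dualChart h.b0 h.exists_e0
  b1 := dualChart h.b1 h.exists_e1
  b01 := dualChart h.b01 h.exists_e01
  comm0 ψ := h.dual_ext0 fun x => by
    refine (congrArg (dualChart h.b01 h.exists_e01 (L.toPre.dualF0 ψ)) (h.comm0 x).symm).trans ?_
    refine (dualChart_apply h.b01 h.exists_e01 (L.toPre.dualF0 ψ) (L.f0 x)).trans ?_
    refine (congrArg (C.bc01 R R') (L.toPre.dualF0_apply ψ x)).trans ?_
    refine (bc01_ρ0 (R' := R') _).trans ?_
    exact ((L'.toPre.dualF0_apply (dualChart h.b0 h.exists_e0 ψ) (h.b0 x)).trans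
      (congrArg (C.ρ0 R') (dualChart_apply h.b0 h.exists_e0 ψ x))).symm
  comm1 ψ := h.dual_ext1 fun x => by
    refine (congrArg (dualChart h.b01 h.exists_e01 (L.toPre.dualF1 ψ)) (h.comm1 x).symm).trans ?_
    refine (dualChart_apply h.b01 h.exists_e01 (L.toPre.dualF1 ψ) (L.f1 x)).trans ?_
    refine (congrArg (C.bc01 R R') (L.toPre.dualF1_apply ψ x)).trans ?_
    refine (bc01_ρ1 (R' := R') _).trans ?_
    exact ((L'.toPre.dualF1_apply (dualChart h.b1 h.exists_e1 ψ) (h.b1 x)).trans
      (congrArg (C.ρ1 R') (dualChart_apply h.b1 h.exists_e1 ψ x))).symm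
  exists_e0 := exists_dualChart_equiv h.b0 h.exists_e0
  exists_e1 := exists_dualChart_equiv h.b1 h.exists_e1
  exists_e01 := by
    obtain ⟨hfin, hproj⟩ := L.toPre.finite_projective01
    exact exists_dualChart_equiv h.b01 h.exists_e01

/-- A base change followed by an isomorphism. -/
def BaseChange.trans {P : Pre C R} {P' P'' : Pre C R'} (h : BaseChange P P') (e : P'.Equiv P'') :
    BaseChange P P'' where
  b0 :=
    { toFun := fun x => e.e0 (h.b0 x)
      map_add' := fun x y => by rw [map_add, map_add]
      map_smul' := fun a x => by rw [map_smulₛₗ, map_smul] }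
  b1 :=
    { toFun := fun x => e.e1 (h.b1 x)
      map_add' := fun x y => by rw [map_add, map_add]
      map_smul' := fun a x => by rw [map_smulₛₗ, map_smul] }
  b01 :=
    { toFun := fun x => e.e01 (h.b01 x)
      map_add' := fun x y => by rw [map_add, map_add]
      map_smul' := fun a x => by rw [map_smulₛₗ, map_smul] }
  comm0 x := (congrArg e.e01 (h.comm0 x)).trans (e.comm0 _)
  comm1 y := (congrArg e.e01 (h.comm1 y)).trans (e.comm1 _)
  exists_e0 := ⟨h.e0 ≪≫ₗ e.e0.restrictScalars R', fun x =>
    congrArg e.e0 ((h.e0_tmul 1 x).trans (one_smul _ _))⟩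
  exists_e1 := ⟨h.e1 ≪≫ₗ e.e1.restrictScalars R', fun x =>
    congrArg e.e1 ((h.e1_tmul 1 x).trans (one_smul _ _))⟩
  exists_e01 := ⟨h.e01 ≪≫ₗ e.e01.restrictScalars R', fun x =>
    congrArg e.e01 ((h.e01_tmul 1 x).trans (one_smul _ _))⟩

variable (C R R') in
/-- The structure sheaf is natural in the base. -/
def unitBaseChange : BaseChange (unitPre C R) (unitPre C R') where
  b0 :=
    { toFun := C.bc0 R R', map_add' := map_add _,
      map_smul' := fun a x => map_mul (C.bc0 R R') a x }
  b1 :=
    { toFun := C.bc1 R R', map_add' := map_add _,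
      map_smul' := fun a x => map_mul (C.bc1 R R') a x }
  b01 :=
    { toFun := C.bc01 R R', map_add' := map_add _,
      map_smul' := fun a x => map_mul (C.bc01 R R') a x }
  comm0 x := bc01_ρ0 x
  comm1 x := bc01_ρ1 x
  exists_e0 := ⟨AlgebraTensorModule.cancelBaseChange k R R' R' C.B0, fun x =>
    (cancelBaseChange_tmul_eq (1 : R') (x : C.RB0 R)).trans (by
      rw [← Algebra.TensorProduct.one_def, one_mul]; rfl)⟩
  exists_e1 := ⟨AlgebraTensorModule.cancelBaseChange k R R' R' C.B1, fun x =>
    (cancelBaseChange_tmul_eq (1 : R') (x : C.RB1 R)).trans (by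
      rw [← Algebra.TensorProduct.one_def, one_mul]; rfl)⟩
  exists_e01 := ⟨AlgebraTensorModule.cancelBaseChange k R R' R' C.B01, fun x =>
    (cancelBaseChange_tmul_eq (1 : R') (x : C.RB01 R)).trans (by
      rw [← Algebra.TensorProduct.one_def, one_mul]; rfl)⟩

section Divisor

variable {ι : Type u} [Fintype ι] [DecidableEq ι] {e : ι → C.B01} (x : Hilb.Pt k e R)
  [IsAlgClosed k] [C.SmoothCharts]

/-- The divisor is natural in the base. -/
def divisorBaseChange :
    BaseChange (divisorDatum x).toPre
      (divisorDatum (x.map (IsScalarTower.toAlgHom k R R'))).toPre :=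
  BaseChange.dual (L := idealDatum x) (L' := idealDatum (x.map (IsScalarTower.toAlgHom k R R')))
    (idealBaseChange x)

/-- The canonical section is natural in the base. -/
theorem canonicalSection_baseChange :
    (divisorBaseChange (R' := R') x).b0 (canonicalSection x).1.1 =
        (canonicalSection (x.map (IsScalarTower.toAlgHom k R R'))).1.1 ∧
      (divisorBaseChange (R' := R') x).b1 (canonicalSection x).1.2 =
        (canonicalSection (x.map (IsScalarTower.toAlgHom k R R'))).1.2 := by
  refine ⟨dual_ext_chart (idealBaseChange (R' := R') x).b0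
      (idealBaseChange x).exists_e0 fun i => ?_,
    dual_ext_chart (idealBaseChange (R' := R') x).b1 (idealBaseChange x).exists_e1 fun i => ?_⟩
  · exact dualChart_apply (idealBaseChange (R' := R') x).b0 (idealBaseChange x).exists_e0 _ i
  · exact dualChart_apply (idealBaseChange (R' := R') x).b1 (idealBaseChange x).exists_e1 _ i

end Divisor

end Fermat.Agent.Pic.Cech

end
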