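import Fermat.Agent.Pic.Cech.Euler

/-!
# Invertibility under base change

The base change of an invertible datum is invertible, so data give their own fibres.
-/

noncomputable section

open TensorProduct

namespace Fermat.Agent.Pic.Cech

universe u

variable {k : Type u} [Field k]

section Chart

variable {R R' : Type u} [CommRing R] [CommRing R'] [Algebra k R] [Algebra k R']
  [Algebra R R'] [IsScalarTower k R R'] {B : Type u} [CommRing B] [Algebra k B]
  (N : Type u) [AddCommGroup N] [Module R N] [Module (R ⊗[k] B) N]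
  [IsScalarTower R (R ⊗[k] B) N]

/-- An invertible chart stays invertible after base change. -/
theorem invertible_chart [Module.Invertible (R ⊗[k] B) N] :
    letI := chartModule (k := k) (R := R) R' (B := B) N
    Module.Invertible (R' ⊗[k] B) (R' ⊗[R] N) := by
  let := chartModule (k := k) (R := R) R' (B := B) N
  let σ : R ⊗[k] B →ₐ[k] R' ⊗[k] B :=
    Algebra.TensorProduct.map (IsScalarTower.toAlgHom k R R') (AlgHom.id k B)
  let : Algebra (R ⊗[k] B) (R' ⊗[k] B) := σ.toRingHom.toAlgebra
  let : Module (R ⊗[k] B) (R' ⊗[R] N) := Module.compHom _ σ.toRingHom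
  have : IsScalarTower (R ⊗[k] B) (R' ⊗[k] B) (R' ⊗[R] N) :=
    ⟨fun r s x => by
      show (σ r * s) • x = σ r • s • x
      rw [mul_smul]⟩
  let f : N →ₗ[R ⊗[k] B] R' ⊗[R] N :=
    { toFun := fun x => (1 : R') ⊗ₜ[R] x
      map_add' := fun x y => tmul_add _ x y
      map_smul' := fun r x => (chartAct_map R' 1 r x).symm }
  let ψ : R' →+ N →+ (R' ⊗[k] B) ⊗[R ⊗[k] B] N :=
    { toFun := fun a =>
        AddMonoidHom.mk' (fun x => (a ⊗ₜ[k] (1 : B)) ⊗ₜ[R ⊗[k] B] x) fun x y => tmul_add _ x y
      map_zero' := by ext x; simp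
      map_add' := fun a b => by ext x; simp [add_tmul] }
  have hψ : ∀ (r : R) (a : R') (x : N), ψ (r • a) x = ψ a (r • x) := fun r a x => by
    show ((r • a) ⊗ₜ[k] (1 : B)) ⊗ₜ[R ⊗[k] B] x = (a ⊗ₜ[k] (1 : B)) ⊗ₜ[R ⊗[k] B] (r • x)
    rw [← algebraMap_smul (R ⊗[k] B) r x, ← TensorProduct.smul_tmul]
    congr 1
    show _ = σ (algebraMap R (R ⊗[k] B) r) * _
    simp [σ, Algebra.TensorProduct.algebraMap_apply, Algebra.smul_def]
  let F := f.liftBaseChange (R' ⊗[k] B)
  let G := TensorProduct.liftAddHom ψ hψ
  have hF : ∀ (s : R' ⊗[k] B) (x : N), F (s ⊗ₜ x) = chartAct R' N s ((1 : R') ⊗ₜ[R] x) :=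
    fun s x => f.liftBaseChange_tmul (R' ⊗[k] B) s x
  have h1 : ∀ z, F (G z) = z := fun z => by
    induction z using TensorProduct.induction_on with
    | zero => simp
    | tmul a x =>
      show F ((a ⊗ₜ[k] (1 : B)) ⊗ₜ x) = _
      rw [hF, chartAct_tmul, mul_one, ← Algebra.TensorProduct.one_def, one_smul]
    | add u v hu hv => rw [map_add, map_add, hu, hv]
  have h2 : ∀ z, G (F z) = z := fun z => by
    induction z using TensorProduct.induction_on with
    | zero => simp
    | tmul s x =>
      induction s using TensorProduct.induction_on with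
      | zero => simp
      | tmul a b =>
        rw [hF, chartAct_tmul, mul_one]
        show (a ⊗ₜ[k] (1 : B)) ⊗ₜ[R ⊗[k] B] (((1 : R) ⊗ₜ[k] b) • x) = _
        rw [← TensorProduct.smul_tmul]
        congr 1
        show σ _ * _ = _
        simp [σ]
      | add s t hs ht => rw [add_tmul, map_add, map_add, hs, ht]
    | add u v hu hv => rw [map_add, map_add, hu, hv]
  exact Module.Invertible.congr (LinearEquiv.ofBijective F
    ⟨Function.LeftInverse.injective h2, Function.RightInverse.surjective h1⟩)

end Chart

variable {C : Cover k} {R R' : Type u} [CommRing R] [CommRing R'] [Algebra k R] [Algebra k R']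
  [Algebra R R'] [IsScalarTower k R R']

/-- The base change of an invertible datum. -/
def Datum.baseChange (L : Datum C R) (R' : Type u) [CommRing R'] [Algebra k R'] [Algebra R R']
    [IsScalarTower k R R'] : Datum C R' where
  toPre := L.toPre.baseChange R'
  invertible0 := invertible_chart L.N0
  invertible1 := invertible_chart L.N1

/-- The Euler characteristics of all fibres of an invertible datum. -/
theorem Datum.exists_chi (L : Datum C R) :
    ∃ r : PrimeSpectrum R → ℤ, IsLocallyConstant r ∧
      ∀ (K : Type u) [Field K] [Algebra k K] [Algebra R K] [IsScalarTower k R K] (M : Datum C K),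
        BaseChange L.toPre M.toPre →
          ∀ q : PrimeSpectrum K, M.toPre.chi = r (q.comap (algebraMap R K)) := by
  obtain ⟨r, hr, h⟩ := exists_chi_fibre L.toPre
  exact ⟨r, hr, fun K _ _ _ _ M hM q => h K M.toPre hM inferInstance inferInstance inferInstance
    inferInstance q⟩

end Fermat.Agent.Pic.Cech

end
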