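import Mathlib

/-!
# Two principal charts of a curve

The algebra of a cover of a proper curve by two affines `B0`, `B1`, glued along a principal
localisation `B01` of both, and its base change to a `k`-algebra `R`.
-/

noncomputable section

open TensorProduct

namespace Fermat.Agent.Pic.Cech

universe u

/-- Finitely many elements of a localisation have a common denominator. -/
theorem exists_pow_mul_forall {A S S' : Type u} [CommRing A] [CommRing S] [CommRing S']
    [Algebra A S] [Algebra A S'] (ρ : S →ₐ[A] S') {t : S} {t' : S'} (ht : ρ t = t')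
    (hloc : ∀ a : S', ∃ (n : ℕ) (b : S), t' ^ n * a = ρ b) {ι : Type u} [Fintype ι] (z : ι → S') :
    ∃ (n : ℕ) (b : ι → S), ∀ i, t' ^ n * z i = ρ (b i) := by
  choose n b hb using fun i => hloc (z i)
  refine ⟨Finset.univ.sup n, fun i => t ^ (Finset.univ.sup n - n i) * b i, fun i => ?_⟩
  rw [map_mul, map_pow, ht, ← hb i, ← mul_assoc, ← pow_add,
    Nat.sub_add_cancel (Finset.le_sup (Finset.mem_univ i))]

/-- A cover by two principal charts, with finite zero locus on the second one, finite `H¹` and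
constant `H⁰` of the structure sheaf. -/
structure Cover (k : Type u) [Field k] where
  /-- The ring of the first chart. -/
  B0 : Type u
  /-- The ring of the second chart. -/
  B1 : Type u
  /-- The ring of the overlap. -/
  B01 : Type u
  [commRing0 : CommRing B0]
  [commRing1 : CommRing B1]
  [commRing01 : CommRing B01]
  [algebra0 : Algebra k B0]
  [algebra1 : Algebra k B1]
  [algebra01 : Algebra k B01]
  /-- Restriction from the first chart. -/
  r0 : B0 →ₐ[k] B01
  /-- Restriction from the second chart. -/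
  r1 : B1 →ₐ[k] B01
  /-- The parameter on the first chart, inverted on the overlap. -/
  t0 : B0
  /-- The parameter on the second chart, inverse to `t0` on the overlap. -/
  t1 : B1
  mul_t : r0 t0 * r1 t1 = 1
  inj0 : Function.Injective r0
  inj1 : Function.Injective r1
  surj0 : ∀ z : B01, ∃ (n : ℕ) (b : B0), r0 t0 ^ n * z = r0 b
  surj1 : ∀ z : B01, ∃ (n : ℕ) (b : B1), r1 t1 ^ n * z = r1 b
  finiteType0 : Algebra.FiniteType k B0
  finiteType1 : Algebra.FiniteType k B1
  finite_zeros : Module.Finite k (B1 ⧸ Ideal.span ({t1} : Set B1))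
  finite_h1 : Module.Finite k
    (B01 ⧸ (LinearMap.range r0.toLinearMap ⊔ LinearMap.range r1.toLinearMap))
  h0_const : ∀ (b0 : B0) (b1 : B1), r0 b0 = r1 b1 → ∃ a : k, b0 = algebraMap k B0 a

attribute [instance] Cover.commRing0 Cover.commRing1 Cover.commRing01 Cover.algebra0
  Cover.algebra1 Cover.algebra01

namespace Cover

variable {k : Type u} [Field k] (C : Cover k) (R : Type u) [CommRing R] [Algebra k R]

/-- The first chart over `R`. -/
abbrev RB0 := R ⊗[k] C.B0

/-- The second chart over `R`. -/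
abbrev RB1 := R ⊗[k] C.B1

/-- The overlap over `R`. -/
abbrev RB01 := R ⊗[k] C.B01

/-- Restriction from the first chart over `R`. -/
def ρ0 : C.RB0 R →ₐ[R] C.RB01 R := Algebra.TensorProduct.map (AlgHom.id R R) C.r0

/-- Restriction from the second chart over `R`. -/
def ρ1 : C.RB1 R →ₐ[R] C.RB01 R := Algebra.TensorProduct.map (AlgHom.id R R) C.r1

@[simp] theorem ρ0_tmul (a : R) (b : C.B0) : C.ρ0 R (a ⊗ₜ[k] b) = a ⊗ₜ[k] C.r0 b := rfl

@[simp] theorem ρ1_tmul (a : R) (b : C.B1) : C.ρ1 R (a ⊗ₜ[k] b) = a ⊗ₜ[k] C.r1 b := rfl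

/-- The parameter on the first chart over `R`. -/
abbrev T0 : C.RB0 R := 1 ⊗ₜ[k] C.t0

/-- The parameter on the second chart over `R`. -/
abbrev T1 : C.RB1 R := 1 ⊗ₜ[k] C.t1

/-- The parameter on the overlap over `R`. -/
abbrev T : C.RB01 R := 1 ⊗ₜ[k] C.r0 C.t0

/-- The inverse of the parameter on the overlap over `R`. -/
abbrev T' : C.RB01 R := 1 ⊗ₜ[k] C.r1 C.t1

theorem T_mul_T' : C.T R * C.T' R = 1 := by
  rw [Algebra.TensorProduct.tmul_mul_tmul, one_mul, C.mul_t, Algebra.TensorProduct.one_def]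

theorem T'_mul_T : C.T' R * C.T R = 1 := by rw [mul_comm, C.T_mul_T']

theorem ρ0_T0 : C.ρ0 R (C.T0 R) = C.T R := rfl

theorem ρ1_T1 : C.ρ1 R (C.T1 R) = C.T' R := rfl

theorem T_pow_mul_T'_pow (n : ℕ) : C.T R ^ n * C.T' R ^ n = 1 := by
  rw [← mul_pow, C.T_mul_T', one_pow]

theorem T'_pow_mul_T_pow (n : ℕ) : C.T' R ^ n * C.T R ^ n = 1 := by
  rw [← mul_pow, C.T'_mul_T, one_pow]

/-- Up to a power of the parameter the overlap is the first chart. -/
theorem exists_T_pow_mul (z : C.RB01 R) :
    ∃ (n : ℕ) (b : C.RB0 R), C.T R ^ n * z = C.ρ0 R b := by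
  induction z using TensorProduct.induction_on with
  | zero => exact ⟨0, 0, by simp⟩
  | tmul a z =>
    obtain ⟨n, b, hb⟩ := C.surj0 z
    exact ⟨n, a ⊗ₜ b, by simp [hb]⟩
  | add x y hx hy =>
    obtain ⟨n, b, hb⟩ := hx
    obtain ⟨m, c, hc⟩ := hy
    refine ⟨n + m, C.T0 R ^ m * b + C.T0 R ^ n * c, ?_⟩
    rw [map_add, map_mul, map_mul, map_pow, map_pow, C.ρ0_T0, ← hb, ← hc]
    ring

/-- Up to a power of the inverse parameter the overlap is the second chart. -/
theorem exists_T'_pow_mul (z : C.RB01 R) :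
    ∃ (n : ℕ) (b : C.RB1 R), C.T' R ^ n * z = C.ρ1 R b := by
  induction z using TensorProduct.induction_on with
  | zero => exact ⟨0, 0, by simp⟩
  | tmul a z =>
    obtain ⟨n, b, hb⟩ := C.surj1 z
    exact ⟨n, a ⊗ₜ b, by simp [hb]⟩
  | add x y hx hy =>
    obtain ⟨n, b, hb⟩ := hx
    obtain ⟨m, c, hc⟩ := hy
    refine ⟨n + m, C.T1 R ^ m * b + C.T1 R ^ n * c, ?_⟩
    rw [map_add, map_mul, map_mul, map_pow, map_pow, C.ρ1_T1, ← hb, ← hc]
    ring

theorem ρ0_injective : Function.Injective (C.ρ0 R) :=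
  Module.Flat.lTensor_preserves_injective_linearMap (M := R) C.r0.toLinearMap C.inj0

theorem ρ1_injective : Function.Injective (C.ρ1 R) :=
  Module.Flat.lTensor_preserves_injective_linearMap (M := R) C.r1.toLinearMap C.inj1

end Cover

end Fermat.Agent.Pic.Cech

end
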