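import Fermat.Agent.Pic.Cech.Invertible

/-!
# Maps of gluing data

Maps and isomorphisms, their effect on cohomology, and their base change.
-/

noncomputable section

open TensorProduct

namespace Fermat.Agent.Pic.Cech

universe u

variable {k : Type u} [Field k] {C : Cover k} {R : Type u} [CommRing R] [Algebra k R]

/-- A map of gluing data. -/
structure Pre.Hom (P P' : Pre C R) where
  /-- The map on the first chart. -/
  φ0 : P.N0 →ₗ[C.RB0 R] P'.N0
  /-- The map on the second chart. -/
  φ1 : P.N1 →ₗ[C.RB1 R] P'.N1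
  /-- The map on the overlap. -/
  φ01 : P.N01 →ₗ[C.RB01 R] P'.N01
  comm0 : ∀ x, φ01 (P.f0 x) = P'.f0 (φ0 x)
  comm1 : ∀ y, φ01 (P.f1 y) = P'.f1 (φ1 y)

/-- An isomorphism of gluing data. -/
structure Pre.Equiv (P P' : Pre C R) where
  /-- The isomorphism on the first chart. -/
  e0 : P.N0 ≃ₗ[C.RB0 R] P'.N0
  /-- The isomorphism on the second chart. -/
  e1 : P.N1 ≃ₗ[C.RB1 R] P'.N1
  /-- The isomorphism on the overlap. -/
  e01 : P.N01 ≃ₗ[C.RB01 R] P'.N01
  comm0 : ∀ x, e01 (P.f0 x) = P'.f0 (e0 x)
  comm1 : ∀ y, e01 (P.f1 y) = P'.f1 (e1 y)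

namespace Pre

variable {P P' P'' : Pre C R}

/-- The map of cochains. -/
def Hom.prod (f : P.Hom P') : P.N0 × P.N1 →ₗ[R] P'.N0 × P'.N1 :=
  (f.φ0.restrictScalars R).prodMap (f.φ1.restrictScalars R)

@[simp] theorem Hom.prod_apply (f : P.Hom P') (q : P.N0 × P.N1) :
    f.prod q = (f.φ0 q.1, f.φ1 q.2) := rfl

theorem Hom.diff_prod (f : P.Hom P') (q : P.N0 × P.N1) :
    P'.diff (f.prod q) = f.φ01 (P.diff q) := by
  rw [Pre.diff_apply, Pre.diff_apply, map_sub, f.comm0, f.comm1]
  rfl

/-- The map on global sections. -/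
def Hom.h0 (f : P.Hom P') : P.H0 →ₗ[R] P'.H0 := f.prod.restrict fun q hq => by
  rw [LinearMap.mem_ker, f.diff_prod, LinearMap.mem_ker.mp hq, map_zero]

namespace Equiv

/-- The underlying map. -/
def toHom (e : P.Equiv P') : P.Hom P' :=
  ⟨e.e0.toLinearMap, e.e1.toLinearMap, e.e01.toLinearMap, e.comm0, e.comm1⟩

variable (P) in
/-- The identity. -/
def refl : P.Equiv P :=
  ⟨LinearEquiv.refl _ _, LinearEquiv.refl _ _, LinearEquiv.refl _ _, fun _ => rfl, fun _ => rfl⟩

/-- The inverse. -/
def symm (e : P.Equiv P') : P'.Equiv P where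
  e0 := e.e0.symm
  e1 := e.e1.symm
  e01 := e.e01.symm
  comm0 x := e.e01.injective (by rw [e.e01.apply_symm_apply, e.comm0, e.e0.apply_symm_apply])
  comm1 y := e.e01.injective (by rw [e.e01.apply_symm_apply, e.comm1, e.e1.apply_symm_apply])

/-- Composition. -/
def trans (e : P.Equiv P') (e' : P'.Equiv P'') : P.Equiv P'' where
  e0 := e.e0.trans e'.e0
  e1 := e.e1.trans e'.e1
  e01 := e.e01.trans e'.e01
  comm0 x := (congrArg e'.e01 (e.comm0 x)).trans (e'.comm0 _)
  comm1 y := (congrArg e'.e01 (e.comm1 y)).trans (e'.comm1 _)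

/-- An isomorphism of data identifies the global sections. -/
def h0 (e : P.Equiv P') : P.H0 ≃ₗ[R] P'.H0 :=
  LinearEquiv.ofBijective e.toHom.h0
    ⟨fun q q' h => Subtype.ext (Prod.ext (e.e0.injective (congrArg (fun w => w.1.1) h))
      (e.e1.injective (congrArg (fun w => w.1.2) h))), fun q => ⟨⟨e.symm.toHom.prod q.1, by
        rw [LinearMap.mem_ker, Hom.diff_prod, LinearMap.mem_ker.mp q.2, map_zero]⟩,
      Subtype.ext (Prod.ext (e.e0.apply_symm_apply _) (e.e1.apply_symm_apply _))⟩⟩

theorem diff_surjective (e : P.Equiv P') (h : Function.Surjective P.diff) :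
    Function.Surjective P'.diff := fun z => by
  obtain ⟨q, hq⟩ := h (e.e01.symm z)
  exact ⟨e.toHom.prod q, by rw [Hom.diff_prod, hq]; exact e.e01.apply_symm_apply z⟩

end Equiv

section BaseChange

variable (R' : Type u) [CommRing R'] [Algebra k R'] [Algebra R R'] [IsScalarTower k R R']

/-- A map after base change is linear for the chart actions. -/
theorem chartAct_baseChange {B : Type u} [CommRing B] [Algebra k B] {N N' : Type u}
    [AddCommGroup N] [Module R N] [Module (R ⊗[k] B) N] [IsScalarTower R (R ⊗[k] B) N]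
    [AddCommGroup N'] [Module R N'] [Module (R ⊗[k] B) N'] [IsScalarTower R (R ⊗[k] B) N']
    (φ : N →ₗ[R ⊗[k] B] N') (r : R' ⊗[k] B) (z : R' ⊗[R] N) :
    (φ.restrictScalars R).baseChange R' (chartAct R' N r z) =
      chartAct R' N' r ((φ.restrictScalars R).baseChange R' z) := by
  induction r using TensorProduct.induction_on with
  | zero => simp
  | tmul a b =>
    induction z using TensorProduct.induction_on with
    | zero => simp
    | tmul a' x => simp [chartAct_tmul]
    | add u v hu hv => simp only [map_add, hu, hv]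
  | add u v hu hv => simp only [map_add, LinearMap.add_apply, hu, hv]

/-- The base change of a map. -/
def Hom.baseChange (f : P.Hom P') : (P.baseChange R').Hom (P'.baseChange R') where
  φ0 :=
    { toFun := (f.φ0.restrictScalars R).baseChange R'
      map_add' := map_add _
      map_smul' := chartAct_baseChange R' f.φ0 }
  φ1 :=
    { toFun := (f.φ1.restrictScalars R).baseChange R'
      map_add' := map_add _
      map_smul' := chartAct_baseChange R' f.φ1 }
  φ01 :=
    { toFun := (f.φ01.restrictScalars R).baseChange R'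
      map_add' := map_add _
      map_smul' := chartAct_baseChange R' f.φ01 }
  comm0 x := by
    show (f.φ01.restrictScalars R).baseChange R' (P.g0.baseChange R' x) =
      P'.g0.baseChange R' ((f.φ0.restrictScalars R).baseChange R' x)
    change R' ⊗[R] P.N0 at x
    induction x using TensorProduct.induction_on with
    | zero => simp only [map_zero]
    | tmul a y => exact congrArg (a ⊗ₜ[R] ·) (f.comm0 y)
    | add u v hu hv => simp only [map_add, hu, hv]
  comm1 x := by
    show (f.φ01.restrictScalars R).baseChange R' (P.g1.baseChange R' x) =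
      P'.g1.baseChange R' ((f.φ1.restrictScalars R).baseChange R' x)
    change R' ⊗[R] P.N1 at x
    induction x using TensorProduct.induction_on with
    | zero => simp only [map_zero]
    | tmul a y => exact congrArg (a ⊗ₜ[R] ·) (f.comm1 y)
    | add u v hu hv => simp only [map_add, hu, hv]

omit [Algebra k R'] [IsScalarTower k R R'] in
theorem baseChange_leftInverse {M N : Type u} [AddCommGroup M] [Module R M] [AddCommGroup N]
    [Module R N] (g : N →ₗ[R] M) (f : M →ₗ[R] N) (h : ∀ x, g (f x) = x) (z : R' ⊗[R] M) :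
    g.baseChange R' (f.baseChange R' z) = z := by
  induction z using TensorProduct.induction_on with
  | zero => simp
  | tmul a x => simp [h]
  | add u v hu hv => simp only [map_add, hu, hv]

/-- The base change of an isomorphism. -/
def Equiv.baseChange (e : P.Equiv P') : (P.baseChange R').Equiv (P'.baseChange R') := by
  refine
    { e0 := LinearEquiv.ofLinearMap (e.toHom.baseChange R').φ0
        (e.symm.toHom.baseChange R').φ0 ?_ ?_
      e1 := LinearEquiv.ofLinearMap (e.toHom.baseChange R').φ1
        (e.symm.toHom.baseChange R').φ1 ?_ ?_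
      e01 := LinearEquiv.ofLinearMap (e.toHom.baseChange R').φ01
        (e.symm.toHom.baseChange R').φ01 ?_ ?_
      comm0 := (e.toHom.baseChange R').comm0
      comm1 := (e.toHom.baseChange R').comm1 }
  exacts [LinearMap.ext (baseChange_leftInverse R' _ _ e.e0.apply_symm_apply),
    LinearMap.ext (baseChange_leftInverse R' _ _ e.e0.symm_apply_apply),
    LinearMap.ext (baseChange_leftInverse R' _ _ e.e1.apply_symm_apply),
    LinearMap.ext (baseChange_leftInverse R' _ _ e.e1.symm_apply_apply),
    LinearMap.ext (baseChange_leftInverse R' _ _ e.e01.apply_symm_apply),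
    LinearMap.ext (baseChange_leftInverse R' _ _ e.e01.symm_apply_apply)]

end BaseChange

end Pre

end Fermat.Agent.Pic.Cech

end
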