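import Fermat.Agent.Pic.Cech.H1

/-!
# The negative twists of the structure sheaf

The complex of `O(-m)` over `R` is the base change of the one over `k`: its kernel is finitely
generated and its cokernel is finite free.  In particular `H⁰(O) = R`.
-/

noncomputable section

open TensorProduct

namespace Fermat.Agent.Pic.Cech

universe u

variable {k : Type u} [Field k]

namespace Cover

variable (C : Cover k) (m : ℕ)

/-- The differential of `O(-m)` over `k`. -/
def dk : C.B0 × C.B1 →ₗ[k] C.B01 :=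
  C.r0.toLinearMap.coprod (-(LinearMap.mulLeft k (C.r1 C.t1 ^ m) ∘ₗ C.r1.toLinearMap))

theorem dk_apply (q : C.B0 × C.B1) : C.dk m q = C.r0 q.1 - C.r1 C.t1 ^ m * C.r1 q.2 := by
  simp [dk, sub_eq_add_neg]

theorem ker_dk_const {q : C.B0 × C.B1} (hq : q ∈ LinearMap.ker (C.dk m)) :
    ∃ a : k, q.1 = algebraMap k C.B0 a ∧ C.t1 ^ m * q.2 = algebraMap k C.B1 a := by
  rw [LinearMap.mem_ker, dk_apply, sub_eq_zero, ← map_pow, ← map_mul] at hq
  obtain ⟨a, ha⟩ := C.h0_const _ _ hq
  refine ⟨a, ha, C.inj1 ?_⟩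
  rw [← hq, ha, AlgHom.commutes, AlgHom.commutes]

/-- The sections of `O(-m)` are finite dimensional. -/
theorem finite_ker_dk : Module.Finite k (LinearMap.ker (C.dk m)) := by
  let g : LinearMap.ker (C.dk m) →ₗ[k] LinearMap.range (Algebra.linearMap k C.B0) :=
    (LinearMap.fst k C.B0 C.B1 ∘ₗ (LinearMap.ker (C.dk m)).subtype).codRestrict _ fun q =>
      (C.ker_dk_const m q.2).elim fun a ha => ⟨a, ha.1.symm⟩
  refine Module.Finite.of_injective g ((injective_iff_map_eq_zero g).mpr fun q hq => ?_)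
  have h1 : q.1.1 = 0 := congrArg Subtype.val hq
  have h := q.2
  rw [LinearMap.mem_ker, dk_apply, h1, map_zero, zero_sub, neg_eq_zero] at h
  have h2 : C.r1 q.1.2 = 0 := by
    have := congrArg (C.r0 C.t0 ^ m * ·) h
    simpa [← mul_assoc, ← mul_pow, C.mul_t] using this
  exact Subtype.ext (Prod.ext h1 (C.inj1 (by rw [h2]; exact (map_zero C.r1).symm)))

/-- The cohomology of `O(-m)` over `k`. -/
abbrev h1k := C.B01 ⧸ LinearMap.range (C.dk m)

instance finite_h1k : Module.Finite k (C.h1k m) := by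
  obtain ⟨U, hU, hz⟩ := C.exists_rep_B01 m
  have : Module.Finite k U := Module.Finite.iff_fg.mpr hU
  refine Module.Finite.of_surjective ((LinearMap.range (C.dk m)).mkQ ∘ₗ
    LinearMap.mulLeft k (C.r1 C.t1 ^ m) ∘ₗ U.subtype) fun q => ?_
  obtain ⟨z, rfl⟩ := Submodule.mkQ_surjective _ q
  obtain ⟨u, w, h⟩ := hz (C.r0 C.t0 ^ m * z)
  refine ⟨⟨_, h⟩, (Submodule.Quotient.eq (LinearMap.range (C.dk m))).mpr ?_⟩
  refine ⟨(-u, w), ?_⟩
  simp only [dk_apply, LinearMap.comp_apply, Submodule.subtype_apply, LinearMap.mulLeft_apply,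
    map_neg]
  have h1 : C.r0 C.t0 ^ m * C.r1 C.t1 ^ m = 1 := by rw [← mul_pow, C.mul_t, one_pow]
  linear_combination (C.r0 u - z) * h1

variable (R : Type u) [CommRing R] [Algebra k R]

/-- The differential of `O(-m)` over `R`. -/
def dR : C.RB0 R × C.RB1 R →ₗ[R] C.RB01 R :=
  (C.ρ0 R).toLinearMap.coprod
    (-(LinearMap.mulLeft R (C.T' R ^ m) ∘ₗ (C.ρ1 R).toLinearMap))

theorem dR_apply (q : C.RB0 R × C.RB1 R) :
    C.dR m R q = C.ρ0 R q.1 - C.T' R ^ m * C.ρ1 R q.2 := by
  simp [dR, sub_eq_add_neg]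

theorem dR_prodRight (z : R ⊗[k] (C.B0 × C.B1)) :
    C.dR m R (TensorProduct.prodRight k R R C.B0 C.B1 z) = (C.dk m).baseChange R z := by
  induction z using TensorProduct.induction_on with
  | zero => simp
  | tmul a q =>
    simp [dR_apply, dk_apply, tmul_sub]
  | add x y hx hy => simp only [map_add, hx, hy]

/-- The classes of `O(-m)` over `R`. -/
def classR : C.RB01 R →ₗ[R] R ⊗[k] C.h1k m := (LinearMap.range (C.dk m)).mkQ.baseChange R

theorem classR_surjective : Function.Surjective (C.classR m R) :=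
  LinearMap.lTensor_surjective R (Submodule.mkQ_surjective _)

/-- The classes of `O(-m)` over `R` compute its cokernel. -/
theorem exact_dR : Function.Exact (C.dR m R) (C.classR m R) := by
  have h : Function.Exact ((C.dk m).baseChange R) (C.classR m R) :=
    lTensor_exact R (LinearMap.exact_map_mkQ_range _) (Submodule.mkQ_surjective _)
  refine fun z => (h z).trans ⟨?_, ?_⟩
  · rintro ⟨w, rfl⟩; exact ⟨_, C.dR_prodRight m R w⟩
  · rintro ⟨q, rfl⟩
    obtain ⟨w, rfl⟩ := (TensorProduct.prodRight k R R C.B0 C.B1).surjective q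
    exact ⟨w, (C.dR_prodRight m R w).symm⟩

/-- The sections of `O(-m)` commute with base change. -/
theorem ker_dR :
    LinearMap.ker (C.dR m R) = LinearMap.range
      ((TensorProduct.prodRight k R R C.B0 C.B1).toLinearMap ∘ₗ
        (LinearMap.ker (C.dk m)).subtype.baseChange R) := by
  have h : Function.Exact ((LinearMap.ker (C.dk m)).subtype.baseChange R)
      ((C.dk m).baseChange R) :=
    Module.Flat.lTensor_exact R (C.dk m).exact_subtype_ker_map
  ext q
  obtain ⟨w, rfl⟩ := (TensorProduct.prodRight k R R C.B0 C.B1).surjective q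
  rw [LinearMap.mem_ker, C.dR_prodRight m R w, h w]
  exact ⟨fun ⟨v, hv⟩ => ⟨v, congrArg _ hv⟩,
    fun ⟨v, hv⟩ => ⟨v, (TensorProduct.prodRight k R R C.B0 C.B1).injective hv⟩⟩

theorem fg_ker_dR : (LinearMap.ker (C.dR m R)).FG := by
  have := C.finite_ker_dk m
  rw [C.ker_dR m R, LinearMap.range_eq_map]
  exact Module.Finite.fg_top.map _

/-- `H⁰(O) = R`. -/
theorem exists_eq_of_ρ_eq {a : C.RB0 R} {b : C.RB1 R} (h : C.ρ0 R a = C.ρ1 R b) :
    ∃ r : R, a = algebraMap R (C.RB0 R) r ∧ b = algebraMap R (C.RB1 R) r := by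
  have hab : (a, b) ∈ LinearMap.ker (C.dR 0 R) := by
    rw [LinearMap.mem_ker, dR_apply, pow_zero, one_mul, h, sub_self]
  rw [C.ker_dR 0 R] at hab
  obtain ⟨v, hv⟩ := hab
  suffices ∀ v, ∃ r : R, (TensorProduct.prodRight k R R C.B0 C.B1)
      ((LinearMap.ker (C.dk 0)).subtype.baseChange R v) =
        (algebraMap R (C.RB0 R) r, algebraMap R (C.RB1 R) r) by
    obtain ⟨r, hr⟩ := this v
    exact ⟨r, congrArg Prod.fst (hv.symm.trans hr), congrArg Prod.snd (hv.symm.trans hr)⟩
  intro v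
  induction v using TensorProduct.induction_on with
  | zero => exact ⟨0, by simp [Prod.zero_eq_mk]⟩
  | tmul r q =>
    obtain ⟨c, h0, h1⟩ := C.ker_dk_const 0 q.2
    rw [pow_zero, one_mul] at h1
    refine ⟨c • r, ?_⟩
    simp [h0, h1, Algebra.algebraMap_eq_smul_one c, TensorProduct.smul_tmul,
      Algebra.TensorProduct.algebraMap_apply]
  | add x y hx hy =>
    obtain ⟨r, hr⟩ := hx
    obtain ⟨s, hs⟩ := hy
    exact ⟨r + s, by rw [map_add, map_add, hr, hs, map_add, map_add]; rfl⟩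

end Cover

variable {C : Cover k} {R : Type u} [CommRing R] [Algebra k R]

theorem unitPre_H0_eq (q : (unitPre C R).N0 × (unitPre C R).N1) :
    q ∈ (unitPre C R).H0 ↔
      ∃ r : R, q = (algebraMap R (C.RB0 R) r, algebraMap R (C.RB1 R) r) := by
  rw [Pre.mem_H0]
  constructor
  · intro h
    obtain ⟨r, h0, h1⟩ := C.exists_eq_of_ρ_eq R h
    exact ⟨r, Prod.ext h0 h1⟩
  · rintro ⟨r, rfl⟩
    show C.ρ0 R (algebraMap R _ r) = C.ρ1 R (algebraMap R _ r)
    rw [AlgHom.commutes, AlgHom.commutes]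

end Fermat.Agent.Pic.Cech

end
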