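import Fermat.Agent.Pic.Cech.Datum

/-!
# Base change of gluing data

A `BaseChange` is a map of data over a ring map which is a base change on every chart; the
construction `Pre.baseChange` gives one.  The complex commutes with base change, so `H¹` does.
-/

noncomputable section

open TensorProduct

namespace Fermat.Agent.Pic.Cech

universe u

variable {k : Type u} [Field k]

namespace Cover

variable (C : Cover k) (R R' : Type u) [CommRing R] [CommRing R'] [Algebra k R] [Algebra k R']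
  [Algebra R R'] [IsScalarTower k R R']

/-- Base change on the first chart. -/
def bc0 : C.RB0 R →ₐ[k] C.RB0 R' :=
  Algebra.TensorProduct.map (IsScalarTower.toAlgHom k R R') (AlgHom.id k C.B0)

/-- Base change on the second chart. -/
def bc1 : C.RB1 R →ₐ[k] C.RB1 R' :=
  Algebra.TensorProduct.map (IsScalarTower.toAlgHom k R R') (AlgHom.id k C.B1)

/-- Base change on the overlap. -/
def bc01 : C.RB01 R →ₐ[k] C.RB01 R' :=
  Algebra.TensorProduct.map (IsScalarTower.toAlgHom k R R') (AlgHom.id k C.B01)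

@[simp] theorem bc0_tmul (a : R) (b : C.B0) :
    C.bc0 R R' (a ⊗ₜ[k] b) = algebraMap R R' a ⊗ₜ[k] b := rfl

@[simp] theorem bc1_tmul (a : R) (b : C.B1) :
    C.bc1 R R' (a ⊗ₜ[k] b) = algebraMap R R' a ⊗ₜ[k] b := rfl

@[simp] theorem bc01_tmul (a : R) (b : C.B01) :
    C.bc01 R R' (a ⊗ₜ[k] b) = algebraMap R R' a ⊗ₜ[k] b := rfl

end Cover

variable {C : Cover k} {R : Type u} [CommRing R] [Algebra k R]

section

variable {R' : Type u} [CommRing R'] [Algebra k R'] [Algebra R R'] [IsScalarTower k R R']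

theorem bc01_ρ0 (b : C.RB0 R) : C.bc01 R R' (C.ρ0 R b) = C.ρ0 R' (C.bc0 R R' b) := by
  induction b using TensorProduct.induction_on with
  | zero => simp
  | tmul a b => simp
  | add u v hu hv => simp only [map_add, hu, hv]

theorem bc01_ρ1 (b : C.RB1 R) : C.bc01 R R' (C.ρ1 R b) = C.ρ1 R' (C.bc1 R R' b) := by
  induction b using TensorProduct.induction_on with
  | zero => simp
  | tmul a b => simp
  | add u v hu hv => simp only [map_add, hu, hv]

end

/-- A base change of gluing data. -/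
structure BaseChange {R' : Type u} [CommRing R'] [Algebra k R'] [Algebra R R']
    [IsScalarTower k R R'] (P : Pre C R) (P' : Pre C R') where
  /-- The map on the first chart. -/
  b0 : P.N0 →ₛₗ[(C.bc0 R R').toRingHom] P'.N0
  /-- The map on the second chart. -/
  b1 : P.N1 →ₛₗ[(C.bc1 R R').toRingHom] P'.N1
  /-- The map on the overlap. -/
  b01 : P.N01 →ₛₗ[(C.bc01 R R').toRingHom] P'.N01
  comm0 : ∀ x, b01 (P.f0 x) = P'.f0 (b0 x)
  comm1 : ∀ y, b01 (P.f1 y) = P'.f1 (b1 y)
  exists_e0 : ∃ e : R' ⊗[R] P.N0 ≃ₗ[R'] P'.N0, ∀ x, e (1 ⊗ₜ x) = b0 x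
  exists_e1 : ∃ e : R' ⊗[R] P.N1 ≃ₗ[R'] P'.N1, ∀ x, e (1 ⊗ₜ x) = b1 x
  exists_e01 : ∃ e : R' ⊗[R] P.N01 ≃ₗ[R'] P'.N01, ∀ x, e (1 ⊗ₜ x) = b01 x

namespace BaseChange

variable {R' : Type u} [CommRing R'] [Algebra k R'] [Algebra R R'] [IsScalarTower k R R']
  {P : Pre C R} {P' : Pre C R'} (h : BaseChange P P')

/-- The sections on the first chart after base change. -/
def e0 : R' ⊗[R] P.N0 ≃ₗ[R'] P'.N0 := h.exists_e0.choose

/-- The sections on the second chart after base change. -/
def e1 : R' ⊗[R] P.N1 ≃ₗ[R'] P'.N1 := h.exists_e1.choose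

/-- The sections on the overlap after base change. -/
def e01 : R' ⊗[R] P.N01 ≃ₗ[R'] P'.N01 := h.exists_e01.choose

theorem e0_tmul (a : R') (x : P.N0) : h.e0 (a ⊗ₜ x) = a • h.b0 x := by
  rw [← h.exists_e0.choose_spec x]
  show h.e0 _ = a • h.e0 _
  rw [← map_smul, smul_tmul', smul_eq_mul, mul_one]

theorem e1_tmul (a : R') (x : P.N1) : h.e1 (a ⊗ₜ x) = a • h.b1 x := by
  rw [← h.exists_e1.choose_spec x]
  show h.e1 _ = a • h.e1 _
  rw [← map_smul, smul_tmul', smul_eq_mul, mul_one]

theorem e01_tmul (a : R') (x : P.N01) : h.e01 (a ⊗ₜ x) = a • h.b01 x := by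
  rw [← h.exists_e01.choose_spec x]
  show h.e01 _ = a • h.e01 _
  rw [← map_smul, smul_tmul', smul_eq_mul, mul_one]

/-- The cochains after base change. -/
def eProd : R' ⊗[R] (P.N0 × P.N1) ≃ₗ[R'] P'.N0 × P'.N1 :=
  TensorProduct.prodRight R R' R' P.N0 P.N1 ≪≫ₗ h.e0.prodCongr h.e1

theorem eProd_tmul (a : R') (q : P.N0 × P.N1) :
    h.eProd (a ⊗ₜ q) = (a • h.b0 q.1, a • h.b1 q.2) := by
  simp [eProd, e0_tmul, e1_tmul]

/-- The differential commutes with base change. -/
theorem diff_eProd (z : R' ⊗[R] (P.N0 × P.N1)) :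
    P'.diff (h.eProd z) = h.e01 (P.diff.baseChange R' z) := by
  induction z using TensorProduct.induction_on with
  | zero => simp
  | tmul a q =>
    rw [eProd_tmul, LinearMap.baseChange_tmul, e01_tmul, Pre.diff_apply, Pre.diff_apply,
      P'.f0_smul, P'.f1_smul, ← smul_sub, map_sub, h.comm0, h.comm1]
  | add x y hx hy => simp only [map_add, hx, hy]

theorem range_diff :
    LinearMap.range P'.diff =
      (LinearMap.range (P.diff.baseChange R')).map h.e01.toLinearMap := by
  ext z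
  constructor
  · rintro ⟨q, rfl⟩
    obtain ⟨w, rfl⟩ := h.eProd.surjective q
    exact ⟨_, ⟨w, rfl⟩, (h.diff_eProd w).symm⟩
  · rintro ⟨_, ⟨w, rfl⟩, rfl⟩
    exact ⟨h.eProd w, h.diff_eProd w⟩

/-- The classes after base change. -/
def toH1 : P'.N01 →ₗ[R'] R' ⊗[R] P.H1 :=
  (LinearMap.range P.diff).mkQ.baseChange R' ∘ₗ h.e01.symm.toLinearMap

theorem toH1_surjective : Function.Surjective h.toH1 := by
  have hs : Function.Surjective ((LinearMap.range P.diff).mkQ.baseChange R') :=
    LinearMap.lTensor_surjective R' (Submodule.mkQ_surjective _)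
  exact hs.comp h.e01.symm.surjective

theorem ker_toH1 : LinearMap.ker h.toH1 = LinearMap.range P'.diff := by
  have hex : Function.Exact (P.diff.baseChange R')
      ((LinearMap.range P.diff).mkQ.baseChange R') :=
    lTensor_exact R' (LinearMap.exact_map_mkQ_range _) (Submodule.mkQ_surjective _)
  ext z
  rw [h.range_diff, Submodule.map_equiv_eq_comap_symm, Submodule.mem_comap, LinearMap.mem_ker]
  exact hex _

/-- `H¹` commutes with base change. -/
def h1Equiv : P'.H1 ≃ₗ[R'] R' ⊗[R] P.H1 :=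
  Submodule.quotEquivOfEq _ _ h.ker_toH1.symm ≪≫ₗ
    h.toH1.quotKerEquivOfSurjective h.toH1_surjective

end BaseChange

section Concrete

variable (P : Pre C R) (R' : Type u) [CommRing R'] [Algebra k R'] [Algebra R R']
  [IsScalarTower k R R']

variable (C) in
/-- The action of a chart after base change on a tensor product. -/
def chartAct {B : Type u} [CommRing B] [Algebra k B] (N : Type u) [AddCommGroup N] [Module R N]
    [Module (R ⊗[k] B) N] [IsScalarTower R (R ⊗[k] B) N] :
    R' ⊗[k] B →ₐ[R'] Module.End R' (R' ⊗[R] N) :=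
  Algebra.TensorProduct.lift (Algebra.ofId R' _)
    ((((Module.End.baseChangeHom R R' N).comp (Algebra.lsmul R R N)).restrictScalars k).comp
      (Algebra.TensorProduct.includeRight : B →ₐ[k] R ⊗[k] B))
    fun _ _ => Algebra.commutes _ _

variable {B : Type u} [CommRing B] [Algebra k B] {N : Type u} [AddCommGroup N] [Module R N]
  [Module (R ⊗[k] B) N] [IsScalarTower R (R ⊗[k] B) N]

theorem chartAct_tmul (a a' : R') (b : B) (x : N) :
    chartAct R' N (a ⊗ₜ[k] b) (a' ⊗ₜ[R] x) = (a * a') ⊗ₜ[R] (((1 : R) ⊗ₜ[k] b) • x) := by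
  unfold chartAct
  erw [Algebra.TensorProduct.lift_tmul]
  rw [Algebra.ofId_apply, Module.End.mul_apply, Module.algebraMap_end_apply]
  show a • (a' ⊗ₜ[R] (((1 : R) ⊗ₜ[k] b) • x)) = _
  rw [smul_tmul', smul_eq_mul]

theorem chartAct_map (a : R') (r : R ⊗[k] B) (x : N) :
    chartAct R' N (Algebra.TensorProduct.map (IsScalarTower.toAlgHom k R R') (AlgHom.id k B) r)
      (a ⊗ₜ[R] x) = a ⊗ₜ[R] (r • x) := by
  induction r using TensorProduct.induction_on with
  | zero => simp
  | tmul c b =>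
    rw [Algebra.TensorProduct.map_tmul, chartAct_tmul, AlgHom.id_apply,
      IsScalarTower.coe_toAlgHom', ← Algebra.smul_def c a, TensorProduct.smul_tmul,
      ← smul_assoc, smul_tmul', smul_eq_mul, mul_one]
  | add u v hu hv => simp only [map_add, LinearMap.add_apply, hu, hv, add_smul, tmul_add]

/-- The action on a chart. -/
abbrev chartModule (N : Type u) [AddCommGroup N] [Module R N] [Module (R ⊗[k] B) N]
    [IsScalarTower R (R ⊗[k] B) N] : Module (R' ⊗[k] B) (R' ⊗[R] N) :=
  Module.compHom _ (chartAct (k := k) (R := R) R' (B := B) N).toRingHom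

theorem chartTower :
    letI := chartModule (k := k) (R := R) R' (B := B) N
    IsScalarTower R' (R' ⊗[k] B) (R' ⊗[R] N) := by
  let := chartModule (k := k) (R := R) R' (B := B) N
  refine ⟨fun (a : R') (r : R' ⊗[k] B) (x : R' ⊗[R] N) => ?_⟩
  show chartAct (k := k) (R := R) R' N (a • r) x = a • chartAct (k := k) (R := R) R' N r x
  rw [map_smul]
  rfl

/-- Surjectivity of a localisation after base change. -/
theorem chart_surj {B' : Type u} [CommRing B'] [Algebra k B'] {N' : Type u} [AddCommGroup N']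
    [Module R N'] [Module (R ⊗[k] B') N'] [IsScalarTower R (R ⊗[k] B') N'] (g : N' →ₗ[R] N)
    (b : B) (hg : ∀ z : N, ∃ (n : ℕ) (x : N'), ((1 : R) ⊗ₜ[k] b) ^ n • z = g x) {c : B'}
    (hc : ∀ x, g (((1 : R) ⊗ₜ[k] c) • x) = ((1 : R) ⊗ₜ[k] b) • g x) (z : R' ⊗[R] N) :
    ∃ (n : ℕ) (x : R' ⊗[R] N'), chartAct R' N (((1 : R') ⊗ₜ[k] b) ^ n) z = g.baseChange R' x := by
  have hpow : ∀ (n : ℕ) (x : N'), g (((1 : R) ⊗ₜ[k] c) ^ n • x) = ((1 : R) ⊗ₜ[k] b) ^ n • g x := by
    intro n
    induction n with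
    | zero => simp
    | succ n ih => intro x; rw [pow_succ', mul_smul, hc, ih, ← mul_smul, ← pow_succ']
  induction z using TensorProduct.induction_on with
  | zero => exact ⟨0, 0, by simp⟩
  | tmul a z =>
    obtain ⟨n, x, hx⟩ := hg z
    refine ⟨n, a ⊗ₜ x, ?_⟩
    rw [Algebra.TensorProduct.tmul_pow, one_pow, chartAct_tmul, one_mul, LinearMap.baseChange_tmul,
      ← hx, Algebra.TensorProduct.tmul_pow, one_pow]
  | add x y hx hy =>
    obtain ⟨n, x', hx'⟩ := hx
    obtain ⟨m, y', hy'⟩ := hy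
    refine ⟨n + m, chartAct R' N' (((1 : R') ⊗ₜ[k] c) ^ m) x' +
      chartAct R' N' (((1 : R') ⊗ₜ[k] c) ^ n) y', ?_⟩
    have key : ∀ (i : ℕ) (w : R' ⊗[R] N'),
        g.baseChange R' (chartAct R' N' (((1 : R') ⊗ₜ[k] c) ^ i) w) =
        chartAct R' N (((1 : R') ⊗ₜ[k] b) ^ i) (g.baseChange R' w) := by
      intro i w
      induction w using TensorProduct.induction_on with
      | zero => simp
      | tmul a x =>
        simp only [Algebra.TensorProduct.tmul_pow, one_pow, chartAct_tmul,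
            LinearMap.baseChange_tmul]
        have := hpow i x
        simp only [Algebra.TensorProduct.tmul_pow, one_pow] at this
        rw [this]
      | add u v hu hv => simp only [map_add, hu, hv]
    rw [map_add, map_add, key, key, ← hx', ← hy', ← Module.End.mul_apply, ← Module.End.mul_apply,
      ← map_mul, ← map_mul, ← pow_add, ← pow_add, add_comm m n]

/-- The kernel of a localisation after base change. -/
theorem chart_ker {B' : Type u} [CommRing B'] [Algebra k B'] {N' : Type u} [AddCommGroup N']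
    [Module R N'] [Module (R ⊗[k] B') N'] [IsScalarTower R (R ⊗[k] B') N'] (g : N' →ₗ[R] N)
    (b : B) (hg : ∀ z : N, ∃ (n : ℕ) (x : N'), ((1 : R) ⊗ₜ[k] b) ^ n • z = g x) {c : B'}
    (hc : ∀ x, g (((1 : R) ⊗ₜ[k] c) • x) = ((1 : R) ⊗ₜ[k] b) • g x)
    (hker : ∀ x, g x = 0 → ∃ n : ℕ, ((1 : R) ⊗ₜ[k] c) ^ n • x = 0) (w : R' ⊗[R] N')
    (hw : g.baseChange R' w = 0) :
    ∃ n : ℕ, chartAct R' N' (((1 : R') ⊗ₜ[k] c) ^ n) w = 0 := by
  let t : R ⊗[k] B' := (1 : R) ⊗ₜ[k] c
  let s : R ⊗[k] B := (1 : R) ⊗ₜ[k] b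
  let t' : R' ⊗[k] B' := (1 : R') ⊗ₜ[k] c
  let := chartModule (k := k) (R := R) R' (B := B') N'
  have hpow : ∀ (n : ℕ) (x : N'), g (t ^ n • x) = s ^ n • g x := by
    intro n
    induction n with
    | zero => simp
    | succ n ih => intro x; rw [pow_succ', mul_smul, hc, ih, ← mul_smul, ← pow_succ']
  have ht : ∀ (n : ℕ) (a : R') (x : N'), t' ^ n • (a ⊗ₜ[R] x) = a ⊗ₜ[R] (t ^ n • x) := by
    intro n a x
    show chartAct (k := k) (R := R) R' N' (t' ^ n) (a ⊗ₜ[R] x) = _
    rw [Algebra.TensorProduct.tmul_pow, Algebra.TensorProduct.tmul_pow, one_pow, one_pow,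
      chartAct_tmul, one_mul]
  let S := Submonoid.powers t'
  let q : R' → N' → ℕ → LocalizedModule S (R' ⊗[R] N') := fun a x n =>
    LocalizedModule.mk (a ⊗ₜ[R] x) ⟨t' ^ n, n, rfl⟩
  have hq : ∀ (a : R') (x y : N') (n m : ℕ) (z : N), s ^ n • z = g x → s ^ m • z = g y →
      q a x n = q a y m := by
    intro a x y n m z hx hy
    obtain ⟨j, hj⟩ := hker (t ^ m • x - t ^ n • y) (by
      rw [map_sub, hpow, hpow, ← hx, ← hy, smul_smul, smul_smul, mul_comm, sub_self])
    rw [smul_sub, sub_eq_zero] at hj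
    refine LocalizedModule.mk_eq.mpr ⟨⟨t' ^ j, j, rfl⟩, ?_⟩
    show t' ^ j • t' ^ m • (a ⊗ₜ[R] x) = t' ^ j • t' ^ n • (a ⊗ₜ[R] y)
    rw [ht, ht, ht, ht, hj]
  choose n₀ x₀ h₀ using hg
  have hqz : ∀ (a : R') (x : N') (n : ℕ) (z : N), s ^ n • z = g x →
      q a x n = q a (x₀ z) (n₀ z) := fun a x n z hx => hq a x _ n _ z hx (h₀ z)
  have hadd : ∀ (a : R') (z z' : N), q a (x₀ (z + z')) (n₀ (z + z')) =
      q a (x₀ z) (n₀ z) + q a (x₀ z') (n₀ z') := by
    intro a z z'
    rw [← hqz a (t ^ n₀ z' • x₀ z + t ^ n₀ z • x₀ z') (n₀ z + n₀ z') (z + z') (by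
      rw [map_add, hpow, hpow, ← h₀ z, ← h₀ z', smul_add, smul_smul, smul_smul, ← pow_add,
        ← pow_add, add_comm (n₀ z') (n₀ z)])]
    show LocalizedModule.mk _ _ = LocalizedModule.mk _ _ + LocalizedModule.mk _ _
    rw [LocalizedModule.mk_add_mk]
    congr 1
    · rw [tmul_add, Submonoid.smul_def, Submonoid.smul_def, ht, ht]
    · exact Subtype.ext (pow_add t' _ _)
  let φ : R' →+ N →+ LocalizedModule S (R' ⊗[R] N') :=
    { toFun := fun a => AddMonoidHom.mk' (fun z => q a (x₀ z) (n₀ z)) (hadd a)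
      map_zero' := by
        ext z
        show LocalizedModule.mk _ _ = 0
        rw [zero_tmul, LocalizedModule.zero_mk]
      map_add' := fun a a' => by
        ext z
        show LocalizedModule.mk _ _ = LocalizedModule.mk _ _ + LocalizedModule.mk _ _
        rw [add_tmul, LocalizedModule.mk_add_mk, ← smul_add]
        exact LocalizedModule.mk_eq.mpr ⟨1, by simp [Submonoid.smul_def, smul_smul]⟩ }
  have hφ : ∀ (r : R) (a : R') (z : N), φ (r • a) z = φ a (r • z) := by
    intro r a z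
    show q (r • a) (x₀ z) (n₀ z) = q a (x₀ (r • z)) (n₀ (r • z))
    rw [← hqz a (r • x₀ z) (n₀ z) (r • z) (by
      rw [map_smul, ← h₀ z, ← algebraMap_smul (R ⊗[k] B) r z, smul_comm, algebraMap_smul])]
    show LocalizedModule.mk _ _ = LocalizedModule.mk _ _
    rw [TensorProduct.smul_tmul]
  let L := TensorProduct.liftAddHom φ hφ
  have hL : ∀ v : R' ⊗[R] N', L (g.baseChange R' v) = LocalizedModule.mk v 1 := by
    intro v
    induction v using TensorProduct.induction_on with
    | zero => rw [map_zero, map_zero, LocalizedModule.zero_mk]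
    | tmul a x =>
      rw [LinearMap.baseChange_tmul]
      show q a (x₀ (g x)) (n₀ (g x)) = _
      rw [← hqz a x 0 (g x) (by rw [pow_zero, one_smul])]
      exact congrArg (LocalizedModule.mk _) (Subtype.ext (pow_zero t'))
    | add u v hu hv =>
      rw [map_add, map_add, hu, hv, LocalizedModule.mk_add_mk]
      simp
  have h := hL w
  rw [hw, map_zero, ← LocalizedModule.zero_mk (1 : S)] at h
  obtain ⟨⟨_, j, rfl⟩, hj⟩ := LocalizedModule.mk_eq.mp h
  refine ⟨j, ?_⟩
  simp only [one_smul, smul_zero, Submonoid.smul_def] at hj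
  exact hj.symm

/-- A restriction commutes with the actions after base change. -/
theorem chart_semilinear {B' : Type u} [CommRing B'] [Algebra k B'] {N' : Type u}
    [AddCommGroup N'] [Module R N'] [Module (R ⊗[k] B') N'] [IsScalarTower R (R ⊗[k] B') N']
    (g : N' →ₗ[R] N) (φ : B' →ₐ[k] B)
    (hg : ∀ (b : B') (x : N'), g (((1 : R) ⊗ₜ[k] b) • x) = ((1 : R) ⊗ₜ[k] φ b) • g x)
    (r : R' ⊗[k] B') (z : R' ⊗[R] N') :
    g.baseChange R' (chartAct R' N' r z) =
      chartAct R' N (Algebra.TensorProduct.map (AlgHom.id R' R') φ r) (g.baseChange R' z) := by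
  induction r using TensorProduct.induction_on with
  | zero => simp
  | tmul a b =>
    induction z using TensorProduct.induction_on with
    | zero => simp
    | tmul a' x =>
      rw [chartAct_tmul, LinearMap.baseChange_tmul, Algebra.TensorProduct.map_tmul,
        LinearMap.baseChange_tmul, chartAct_tmul, hg]
      rfl
    | add u v hu hv => simp only [map_add, hu, hv]
  | add u v hu hv => simp only [map_add, LinearMap.add_apply, hu, hv]

end Concrete

namespace Pre

variable (P : Pre C R) (R' : Type u) [CommRing R'] [Algebra k R'] [Algebra R R']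
  [IsScalarTower k R R']

theorem g0_tmul_smul (b : C.B0) (x : P.N0) :
    P.g0 (((1 : R) ⊗ₜ[k] b) • x) = ((1 : R) ⊗ₜ[k] C.r0 b) • P.g0 x :=
  map_smulₛₗ P.f0 _ x

theorem g1_tmul_smul (b : C.B1) (x : P.N1) :
    P.g1 (((1 : R) ⊗ₜ[k] b) • x) = ((1 : R) ⊗ₜ[k] C.r1 b) • P.g1 x :=
  map_smulₛₗ P.f1 _ x

/-- The base change of gluing data. -/
def baseChange : Pre C R' where
  N0 := R' ⊗[R] P.N0
  N1 := R' ⊗[R] P.N1
  N01 := R' ⊗[R] P.N01
  moduleB0 := chartModule (k := k) (R := R) R' (B := C.B0) P.N0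
  moduleB1 := chartModule (k := k) (R := R) R' (B := C.B1) P.N1
  moduleB01 := chartModule (k := k) (R := R) R' (B := C.B01) P.N01
  tower0 := chartTower R'
  tower1 := chartTower R'
  tower01 := chartTower R'
  f0 :=
    letI := chartModule (k := k) (R := R) R' (B := C.B0) P.N0
    letI := chartModule (k := k) (R := R) R' (B := C.B01) P.N01
    { toFun := P.g0.baseChange R'
      map_add' := map_add _
      map_smul' := chart_semilinear R' P.g0 C.r0 P.g0_tmul_smul }
  f1 :=
    letI := chartModule (k := k) (R := R) R' (B := C.B1) P.N1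
    letI := chartModule (k := k) (R := R) R' (B := C.B01) P.N01
    { toFun := P.g1.baseChange R'
      map_add' := map_add _
      map_smul' := chart_semilinear R' P.g1 C.r1 P.g1_tmul_smul }
  surj0 z := chart_surj R' P.g0 (C.r0 C.t0) P.surj0 (c := C.t0) (P.g0_tmul_smul C.t0) z
  surj1 z := chart_surj R' P.g1 (C.r1 C.t1) P.surj1 (c := C.t1) (P.g1_tmul_smul C.t1) z
  ker0 x hx :=
    chart_ker R' P.g0 (C.r0 C.t0) P.surj0 (c := C.t0) (P.g0_tmul_smul C.t0) P.ker0 x hx
  ker1 x hx :=
    chart_ker R' P.g1 (C.r1 C.t1) P.surj1 (c := C.t1) (P.g1_tmul_smul C.t1) P.ker1 x hx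

/-- The base change map. -/
def toBaseChange : BaseChange P (P.baseChange R') where
  b0 :=
    { toFun := fun x => (1 : R') ⊗ₜ[R] x
      map_add' := fun x y => tmul_add _ x y
      map_smul' := fun r x => (chartAct_map R' 1 r x).symm }
  b1 :=
    { toFun := fun x => (1 : R') ⊗ₜ[R] x
      map_add' := fun x y => tmul_add _ x y
      map_smul' := fun r x => (chartAct_map R' 1 r x).symm }
  b01 :=
    { toFun := fun x => (1 : R') ⊗ₜ[R] x
      map_add' := fun x y => tmul_add _ x y
      map_smul' := fun r x => (chartAct_map R' 1 r x).symm }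
  comm0 x := (LinearMap.baseChange_tmul (f := P.g0) (A := R') 1 x).symm
  comm1 x := (LinearMap.baseChange_tmul (f := P.g1) (A := R') 1 x).symm
  exists_e0 := ⟨LinearEquiv.refl R' _, fun _ => rfl⟩
  exists_e1 := ⟨LinearEquiv.refl R' _, fun _ => rfl⟩
  exists_e01 := ⟨LinearEquiv.refl R' _, fun _ => rfl⟩

end Pre

end Fermat.Agent.Pic.Cech

end
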