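import Fermat.Agent.Pic.Cech.CutsBaseChange

/-!
# Composition of base changes

Base changes compose, a base change factors through an intermediate one, and two base changes
along the same map differ by an isomorphism.
-/

noncomputable section

open TensorProduct

namespace Fermat.Agent.Pic.Cech

universe u

variable {k : Type u} [Field k] {C : Cover k}
  {R R' R'' : Type u} [CommRing R] [Algebra k R] [CommRing R'] [Algebra k R'] [CommRing R'']
  [Algebra k R''] [Algebra R R'] [IsScalarTower k R R'] [Algebra R R''] [IsScalarTower k R R'']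
  [Algebra R' R''] [IsScalarTower k R' R''] [IsScalarTower R R' R'']

section Chart

variable {B : Type u} [CommRing B] [Algebra k B]

variable (k R R' R'' B) in
theorem chartMap_comp (t : R ⊗[k] B) :
    chartMap k R' R'' B (chartMap k R R' B t) = chartMap k R R'' B t := by
  induction t using TensorProduct.induction_on with
  | zero => simp
  | tmul a b => simp [← IsScalarTower.algebraMap_apply]
  | add u v hu hv => simp only [map_add, hu, hv]

variable {N N' N'' : Type u} [AddCommGroup N] [Module R N] [Module (R ⊗[k] B) N]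
  [IsScalarTower R (R ⊗[k] B) N] [AddCommGroup N'] [Module R' N'] [Module (R' ⊗[k] B) N']
  [IsScalarTower R' (R' ⊗[k] B) N'] [AddCommGroup N''] [Module R'' N''] [Module (R'' ⊗[k] B) N'']
  [IsScalarTower R'' (R'' ⊗[k] B) N'']

omit [IsScalarTower k R R''] [IsScalarTower R (R ⊗[k] B) N] [IsScalarTower R' (R' ⊗[k] B) N']
  [IsScalarTower R'' (R'' ⊗[k] B) N''] in
/-- Base changes of chart modules compose. -/
theorem exists_compChart (b : N →ₛₗ[(chartMap k R R' B).toRingHom] N')
    (b' : N' →ₛₗ[(chartMap k R' R'' B).toRingHom] N'')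
    (he : ∃ e : R' ⊗[R] N ≃ₗ[R'] N', ∀ x, e (1 ⊗ₜ x) = b x)
    (he' : ∃ e : R'' ⊗[R'] N' ≃ₗ[R''] N'', ∀ x, e (1 ⊗ₜ x) = b' x) :
    ∃ E : R'' ⊗[R] N ≃ₗ[R''] N'', ∀ x, E (1 ⊗ₜ x) = b' (b x) := by
  obtain ⟨e, he⟩ := he
  obtain ⟨e', he'⟩ := he'
  refine ⟨(AlgebraTensorModule.cancelBaseChange R R' R'' R'' N).symm ≪≫ₗ
    e.baseChange R' R'' _ _ ≪≫ₗ e', fun x => ?_⟩
  rw [← he', ← he x]
  show e' (e.baseChange R' R'' _ _
    ((AlgebraTensorModule.cancelBaseChange R R' R'' R'' N).symm (1 ⊗ₜ x))) = _
  rw [AlgebraTensorModule.cancelBaseChange_symm_tmul]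
  rfl

omit [IsScalarTower R (R ⊗[k] B) N] in
/-- A base change of chart modules factors through an intermediate one. -/
theorem exists_factorChart (b : N →ₛₗ[(chartMap k R R' B).toRingHom] N')
    (b'' : N →ₛₗ[(chartMap k R R'' B).toRingHom] N'')
    (he : ∃ e : R' ⊗[R] N ≃ₗ[R'] N', ∀ x, e (1 ⊗ₜ x) = b x)
    (he'' : ∃ e : R'' ⊗[R] N ≃ₗ[R''] N'', ∀ x, e (1 ⊗ₜ x) = b'' x) :
    ∃ b' : N' →ₛₗ[(chartMap k R' R'' B).toRingHom] N'', (∀ x, b' (b x) = b'' x) ∧
      ∃ E : R'' ⊗[R'] N' ≃ₗ[R''] N'', ∀ y, E (1 ⊗ₜ y) = b' y := by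
  obtain ⟨e, he⟩ := he
  obtain ⟨e'', he''⟩ := he''
  let E : R'' ⊗[R'] N' ≃ₗ[R''] N'' :=
    e.symm.baseChange R' R'' _ _ ≪≫ₗ AlgebraTensorModule.cancelBaseChange R R' R'' R'' N ≪≫ₗ e''
  have hE : ∀ (a : R') (x : N), E (1 ⊗ₜ (a • b x)) = algebraMap R' R'' a • b'' x := fun a x => by
    have h1 : e.symm (a • b x) = a ⊗ₜ x := by
      rw [LinearEquiv.symm_apply_eq, ← he x, ← map_smul, smul_tmul', smul_eq_mul, mul_one]
    show e'' (AlgebraTensorModule.cancelBaseChange R R' R'' R'' N
      ((1 : R'') ⊗ₜ[R'] e.symm (a • b x))) = _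
    rw [h1, AlgebraTensorModule.cancelBaseChange_tmul, ← he'' x, ← map_smul, smul_tmul',
      Algebra.smul_def, mul_one, smul_eq_mul, mul_one]
  let f : N' →+ N'' :=
    { toFun := fun y => E (1 ⊗ₜ y)
      map_zero' := by rw [tmul_zero, map_zero]
      map_add' := fun u v => by rw [tmul_add, map_add] }
  refine ⟨{ toFun := f, map_add' := map_add f, map_smul' := fun s y => ?_ }, fun x => ?_, E,
    fun y => rfl⟩
  · obtain ⟨w, rfl⟩ := e.surjective y
    induction w using TensorProduct.induction_on with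
    | zero => rw [map_zero e, smul_zero, map_zero f, smul_zero]
    | tmul a x =>
      have hax : e (a ⊗ₜ x) = a • b x := by
        rw [← he x, ← map_smul, smul_tmul', smul_eq_mul, mul_one]
      rw [hax]
      induction s using TensorProduct.induction_on with
      | zero => rw [zero_smul, map_zero f, map_zero, zero_smul]
      | tmul c β =>
        rw [tmul_smul_smul_b]
        show E (1 ⊗ₜ _) = _ • E (1 ⊗ₜ _)
        rw [hE, hE, map_smulₛₗ, ← algebraMap_smul (R'' ⊗[k] B) (algebraMap R' R'' (c * a)),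
          ← algebraMap_smul (R'' ⊗[k] B) (algebraMap R' R'' a), ← smul_assoc, ← smul_assoc]
        congr 1
        simp [Algebra.TensorProduct.algebraMap_apply]
      | add u v hu hv => rw [add_smul, map_add f, hu, hv, map_add, add_smul]
    | add u v hu hv => rw [map_add e, smul_add, map_add f, hu, hv, map_add f, smul_add]
  · show E (1 ⊗ₜ b x) = _
    have h := hE 1 x
    rwa [one_smul, map_one, one_smul] at h

end Chart

namespace BaseChange

variable {P : Pre C R} {P' : Pre C R'} {P'' : Pre C R''}

/-- Base changes compose. -/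
def comp (h : BaseChange P P') (h' : BaseChange P' P'') : BaseChange P P'' where
  b0 :=
    { toFun := fun x => h'.b0 (h.b0 x)
      map_add' := fun x y => by rw [map_add, map_add]
      map_smul' := fun a x => by
        rw [map_smulₛₗ, map_smulₛₗ]
        exact congrArg (· • h'.b0 (h.b0 x)) (chartMap_comp k R R' R'' C.B0 a) }
  b1 :=
    { toFun := fun x => h'.b1 (h.b1 x)
      map_add' := fun x y => by rw [map_add, map_add]
      map_smul' := fun a x => by
        rw [map_smulₛₗ, map_smulₛₗ]
        exact congrArg (· • h'.b1 (h.b1 x)) (chartMap_comp k R R' R'' C.B1 a) }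
  b01 :=
    { toFun := fun x => h'.b01 (h.b01 x)
      map_add' := fun x y => by rw [map_add, map_add]
      map_smul' := fun a x => by
        rw [map_smulₛₗ, map_smulₛₗ]
        exact congrArg (· • h'.b01 (h.b01 x)) (chartMap_comp k R R' R'' C.B01 a) }
  comm0 x := (congrArg h'.b01 (h.comm0 x)).trans (h'.comm0 _)
  comm1 y := (congrArg h'.b01 (h.comm1 y)).trans (h'.comm1 _)
  exists_e0 := exists_compChart h.b0 h'.b0 h.exists_e0 h'.exists_e0
  exists_e1 := exists_compChart h.b1 h'.b1 h.exists_e1 h'.exists_e1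
  exists_e01 := exists_compChart h.b01 h'.b01 h.exists_e01 h'.exists_e01

omit [IsScalarTower R R' R''] in
theorem restrict_comm0 (h : BaseChange P P') (h'' : BaseChange P P'')
    (f : P'.N0 →ₛₗ[(C.bc0 R' R'').toRingHom] P''.N0)
    (g : P'.N01 →ₛₗ[(C.bc01 R' R'').toRingHom] P''.N01)
    (hf : ∀ x, f (h.b0 x) = h''.b0 x) (hg : ∀ x, g (h.b01 x) = h''.b01 x) (y : P'.N0) :
    g (P'.f0 y) = P''.f0 (f y) := by
  obtain ⟨w, rfl⟩ := h.e0.surjective y
  induction w using TensorProduct.induction_on with
  | zero => rw [map_zero h.e0, map_zero P'.f0, map_zero f, map_zero g, map_zero P''.f0]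
  | tmul a x =>
    rw [h.e0_tmul, ← algebraMap_smul (C.RB0 R') a (h.b0 x), P'.f0_smul_chart, map_smulₛₗ,
      map_smulₛₗ, P''.f0_smul_chart, ← h.comm0, hf, hg, h''.comm0]
    exact congrArg (· • P''.f0 (h''.b0 x)) (bc01_ρ0 (R' := R'') _)
  | add u v hu hv => rw [map_add h.e0, map_add P'.f0, map_add g, hu, hv, map_add f, map_add P''.f0]

omit [IsScalarTower R R' R''] in
theorem restrict_comm1 (h : BaseChange P P') (h'' : BaseChange P P'')
    (f : P'.N1 →ₛₗ[(C.bc1 R' R'').toRingHom] P''.N1)
    (g : P'.N01 →ₛₗ[(C.bc01 R' R'').toRingHom] P''.N01)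
    (hf : ∀ x, f (h.b1 x) = h''.b1 x) (hg : ∀ x, g (h.b01 x) = h''.b01 x) (y : P'.N1) :
    g (P'.f1 y) = P''.f1 (f y) := by
  obtain ⟨w, rfl⟩ := h.e1.surjective y
  induction w using TensorProduct.induction_on with
  | zero => rw [map_zero h.e1, map_zero P'.f1, map_zero f, map_zero g, map_zero P''.f1]
  | tmul a x =>
    rw [h.e1_tmul, ← algebraMap_smul (C.RB1 R') a (h.b1 x), P'.f1_smul_chart, map_smulₛₗ,
      map_smulₛₗ, P''.f1_smul_chart, ← h.comm1, hf, hg, h''.comm1]
    exact congrArg (· • P''.f1 (h''.b1 x)) (bc01_ρ1 (R' := R'') _)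
  | add u v hu hv => rw [map_add h.e1, map_add P'.f1, map_add g, hu, hv, map_add f, map_add P''.f1]

/-- A base change factors through an intermediate one. -/
def restrict (h : BaseChange P P') (h'' : BaseChange P P'') : BaseChange P' P'' where
  b0 := (exists_factorChart h.b0 h''.b0 h.exists_e0 h''.exists_e0).choose
  b1 := (exists_factorChart h.b1 h''.b1 h.exists_e1 h''.exists_e1).choose
  b01 := (exists_factorChart h.b01 h''.b01 h.exists_e01 h''.exists_e01).choose
  comm0 := restrict_comm0 h h'' _ _
    (exists_factorChart h.b0 h''.b0 h.exists_e0 h''.exists_e0).choose_spec.1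
    (exists_factorChart h.b01 h''.b01 h.exists_e01 h''.exists_e01).choose_spec.1
  comm1 := restrict_comm1 h h'' _ _
    (exists_factorChart h.b1 h''.b1 h.exists_e1 h''.exists_e1).choose_spec.1
    (exists_factorChart h.b01 h''.b01 h.exists_e01 h''.exists_e01).choose_spec.1
  exists_e0 := (exists_factorChart h.b0 h''.b0 h.exists_e0 h''.exists_e0).choose_spec.2
  exists_e1 := (exists_factorChart h.b1 h''.b1 h.exists_e1 h''.exists_e1).choose_spec.2
  exists_e01 := (exists_factorChart h.b01 h''.b01 h.exists_e01 h''.exists_e01).choose_spec.2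

theorem restrict_b0 (h : BaseChange P P') (h'' : BaseChange P P'') (x : P.N0) :
    (h.restrict h'').b0 (h.b0 x) = h''.b0 x :=
  (exists_factorChart h.b0 h''.b0 h.exists_e0 h''.exists_e0).choose_spec.1 x

theorem restrict_b1 (h : BaseChange P P') (h'' : BaseChange P P'') (x : P.N1) :
    (h.restrict h'').b1 (h.b1 x) = h''.b1 x :=
  (exists_factorChart h.b1 h''.b1 h.exists_e1 h''.exists_e1).choose_spec.1 x

end BaseChange

section Same

variable (R) in
theorem chartMap_self {B : Type u} [CommRing B] [Algebra k B] (t : R ⊗[k] B) :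
    chartMap k R R B t = t := by
  induction t using TensorProduct.induction_on with
  | zero => simp
  | tmul a b => simp
  | add u v hu hv => simp only [map_add, hu, hv]

omit [Algebra k R] in
/-- A map inducing an isomorphism from the tensor product with the base ring is bijective. -/
theorem bijective_of_exists_tmul_one {N N' : Type u} [AddCommGroup N] [Module R N]
    [AddCommGroup N'] [Module R N'] {b : N → N'}
    (h : ∃ e : R ⊗[R] N ≃ₗ[R] N', ∀ x, e (1 ⊗ₜ x) = b x) : Function.Bijective b := by
  obtain ⟨e, he⟩ := h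
  rw [show b = e ∘ (TensorProduct.lid R N).symm from funext fun x => (he x).symm]
  exact e.bijective.comp (LinearEquiv.bijective _)

/-- A base change along the identity as an isomorphism. -/
def BaseChange.toEquiv {P Q : Pre C R} (h : BaseChange P Q) : P.Equiv Q where
  e0 := LinearEquiv.ofBijective
    { toFun := h.b0
      map_add' := map_add h.b0
      map_smul' := fun a x =>
        (map_smulₛₗ h.b0 a x).trans
        (congrArg (· • h.b0 x) (show (C.bc0 R R).toRingHom a = a from chartMap_self R a)) }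
    (bijective_of_exists_tmul_one (b := h.b0) h.exists_e0)
  e1 := LinearEquiv.ofBijective
    { toFun := h.b1
      map_add' := map_add h.b1
      map_smul' := fun a x =>
        (map_smulₛₗ h.b1 a x).trans
        (congrArg (· • h.b1 x) (show (C.bc1 R R).toRingHom a = a from chartMap_self R a)) }
    (bijective_of_exists_tmul_one (b := h.b1) h.exists_e1)
  e01 := LinearEquiv.ofBijective
    { toFun := h.b01
      map_add' := map_add h.b01
      map_smul' := fun a x =>
        (map_smulₛₗ h.b01 a x).trans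
        (congrArg (· • h.b01 x) (show (C.bc01 R R).toRingHom a = a from chartMap_self R a)) }
    (bijective_of_exists_tmul_one (b := h.b01) h.exists_e01)
  comm0 := h.comm0
  comm1 := h.comm1

/-- Two base changes along the same map are isomorphic. -/
def BaseChange.uniqueEquiv {P : Pre C R} {P' Q' : Pre C R'} (h : BaseChange P P')
    (h' : BaseChange P Q') : P'.Equiv Q' :=
  (h.restrict h').toEquiv

end Same

end Fermat.Agent.Pic.Cech

end
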