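import Fermat.Agent.Pic.Cech.ChiCuts
import Fermat.Agent.Pic.Cech.Factor

/-!
# The chart of divisors with a fixed basis

The canonical section of a divisor cuts out its basis; conversely a datum with such a section is
the divisor of a unique quotient.  Where `H¹` vanishes and the family has the size of the genus,
a divisor is determined by its datum.
-/

noncomputable section

open TensorProduct

namespace Fermat.Agent.Pic.Cech

universe u

variable {k : Type u} [Field k] {C : Cover k} {R : Type u} [CommRing R] [Algebra k R]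

variable {ι : Type u} [Fintype ι] [DecidableEq ι] {e : ι → C.B01}

section Divisor

variable [IsAlgClosed k] [C.SmoothCharts] (x : Hilb.Pt k e R)

/-- The canonical section on the overlap as a functional on the ideal. -/
def canonical01 : Module.Dual (C.RB01 R) x.ideal :=
  (divisorDatum x).f0 (canonicalSection x).1.1

theorem canonical01_eq : canonical01 x = Submodule.subtype x.ideal :=
  (idealPre x).dual_ext01 fun i =>
    (idealDatum x).toPre.dualF0_apply (idealIncl x).φ0 i

/-- The ideal of a quotient is that of the zeros of its canonical section. -/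
theorem zeroIdeal_canonicalSection :
    (divisorDatum x).toPre.zeroIdeal (canonicalSection x).1.1 = x.ideal := by
  ext a
  constructor
  · rintro ⟨Ψ, rfl⟩
    obtain ⟨i, rfl⟩ := (idealDatum x).toPre.reflexive01.2 Ψ
    show canonical01 x i ∈ x.ideal
    rw [canonical01_eq]
    exact i.2
  · intro ha
    refine ⟨Module.Dual.eval (C.RB01 R) (idealPre x).N01 ⟨a, ha⟩, ?_⟩
    show canonical01 x ⟨a, ha⟩ = a
    rw [canonical01_eq]
    rfl

/-- The canonical section cuts out the basis. -/
theorem cuts_canonicalSection : (divisorDatum x).toPre.Cuts e (canonicalSection x) where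
  surj0 a := by
    let v := x.πR (C.T' R ^ C.exp0 e * (C.T' R * C.ρ0 R a))
    let c : C.RB0 R := Hilb.Pt.σ (k := k) (C.basis0 e) R v
    have hc : C.ρ0 R c - C.T' R * C.ρ0 R a ∈ x.ideal := by
      have h := x.ideal.mul_mem_left (C.T R ^ C.exp0 e)
        (x.sub_σ_mem_ideal (C.T' R ^ C.exp0 e * (C.T' R * C.ρ0 R a)))
      rw [C.ρ0_σ]
      convert neg_mem h using 1
      linear_combination (C.T' R * C.ρ0 R a) * C.T_pow_mul_T'_pow R (C.exp0 e)
    have hi : a - C.T0 R * c ∈ (pt0 x).ideal := by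
      rw [ideal_pt0, Ideal.mem_comap, map_sub, map_mul, C.ρ0_T0]
      convert neg_mem (x.ideal.mul_mem_left (C.T R) hc) using 1
      linear_combination (-(C.ρ0 R a)) * C.T_mul_T' R
    exact ⟨(Module.Dual.eval (C.RB0 R) (idealPre x).N0 ⟨_, hi⟩, c), sub_add_cancel a _⟩
  surj1 a := by
    let v := x.πR (C.T R ^ C.exp1 e * (C.T R * C.ρ1 R a))
    let c : C.RB1 R := Hilb.Pt.σ (k := k) (C.basis1 e) R v
    have hc : C.ρ1 R c - C.T R * C.ρ1 R a ∈ x.ideal := by
      have h := x.ideal.mul_mem_left (C.T' R ^ C.exp1 e)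
        (x.sub_σ_mem_ideal (C.T R ^ C.exp1 e * (C.T R * C.ρ1 R a)))
      rw [C.ρ1_σ]
      convert neg_mem h using 1
      linear_combination (C.T R * C.ρ1 R a) * C.T'_pow_mul_T_pow R (C.exp1 e)
    have hi : a - C.T1 R * c ∈ (pt1 x).ideal := by
      rw [ideal_pt1, Ideal.mem_comap, map_sub, map_mul, C.ρ1_T1]
      convert neg_mem (x.ideal.mul_mem_left (C.T' R) hc) using 1
      linear_combination (-(C.ρ1 R a)) * C.T'_mul_T R
    exact ⟨(Module.Dual.eval (C.RB1 R) (idealPre x).N1 ⟨_, hi⟩, c), sub_add_cancel a _⟩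
  bij01 := by
    have hz := canonical01_eq x
    refine ⟨fun q q' h => ?_, fun a => ?_⟩
    · obtain ⟨i, hi⟩ := (idealDatum x).toPre.reflexive01.2 q.1
      obtain ⟨i', hi'⟩ := (idealDatum x).toPre.reflexive01.2 q'.1
      rw [Pre.cut01_apply, Pre.cut01_apply, ← hi, ← hi'] at h
      change canonical01 x i + Hilb.Pt.σ e R q.2 = canonical01 x i' + Hilb.Pt.σ e R q'.2 at h
      rw [hz] at h
      have h2 : q.2 = q'.2 := by
        have := congrArg x.πR h
        rwa [map_add, map_add, x.πR_σ, x.πR_σ,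
          show x.πR (Submodule.subtype x.ideal i) = 0 from x.mem_ideal.mp i.2,
          show x.πR (Submodule.subtype x.ideal i') = 0 from x.mem_ideal.mp i'.2, zero_add,
          zero_add] at this
      rw [h2, add_left_inj] at h
      exact Prod.ext (by rw [← hi, ← hi', Subtype.ext h]) h2
    · refine ⟨(Module.Dual.eval (C.RB01 R) (idealPre x).N01 ⟨_, x.sub_σ_mem_ideal a⟩, x.πR a), ?_⟩
      show canonical01 x ⟨_, x.sub_σ_mem_ideal a⟩ + _ = a
      rw [hz]
      exact sub_add_cancel a _

/-- A datum with a cutting section is the divisor of the quotient it cuts out. -/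
theorem exists_pt_of_cuts (L : Datum C R) (e : ι → C.B01) (s : L.toPre.H0)
    (hs : L.toPre.Cuts e s) :
    ∃ x : Hilb.Pt k e R, x.ideal = L.toPre.zeroIdeal s.1.1 ∧
      Nonempty ((divisorDatum x).toPre.Equiv L.toPre) := by
  let I : Ideal (C.RB01 R) := L.toPre.zeroIdeal s.1.1
  have hbij : Function.Bijective ((Submodule.restrictScalars R I).mkQ ∘ₗ Hilb.Pt.σ e R) := by
    refine ⟨(injective_iff_map_eq_zero _).mpr fun v hv => ?_, fun q => ?_⟩
    · obtain ⟨χ, hχ⟩ := (Submodule.Quotient.mk_eq_zero _).mp hv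
      have h : L.toPre.cut01 e (L.f0 s.1.1) (χ, -v) = 0 := by
        rw [Pre.cut01_apply, map_neg, ← sub_eq_add_neg, sub_eq_zero]
        exact hχ
      have := congrArg Prod.snd (hs.bij01.1 (h.trans (map_zero _).symm))
      exact neg_eq_zero.mp this
    · obtain ⟨a, rfl⟩ := Submodule.mkQ_surjective _ q
      obtain ⟨⟨χ, v⟩, rfl⟩ := hs.bij01.2 a
      refine ⟨v, (Submodule.Quotient.eq _).mpr ⟨-χ, ?_⟩⟩
      simp
  let x := Hilb.Pt.ofIdeal e I hbij
  have hxI : x.ideal = I := Hilb.Pt.ideal_ofIdeal I hbij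
  have hi01 : ∀ χ : Module.Dual (C.RB01 R) L.N01, χ (L.f0 s.1.1) ∈ x.ideal := fun χ => by
    rw [hxI]; exact ⟨χ, rfl⟩
  have h0 : ∀ ψ : Module.Dual (C.RB0 R) L.N0, ψ s.1.1 ∈ (pt0 x).ideal := fun ψ => by
    rw [ideal_pt0, Ideal.mem_comap, hxI]; exact L.toPre.ρ0_eval_mem _ ψ
  have h1 : ∀ ψ : Module.Dual (C.RB1 R) L.N1, ψ s.1.2 ∈ (pt1 x).ideal := fun ψ => by
    rw [ideal_pt1, Ideal.mem_comap, hxI]; exact L.toPre.ρ1_eval_mem _ ψ
  let φ01 : Module.Dual (C.RB01 R) L.N01 →ₗ[C.RB01 R] x.ideal :=
    (Module.Dual.eval (C.RB01 R) L.N01 (L.f0 s.1.1)).codRestrict x.ideal hi01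
  let φ0 : Module.Dual (C.RB0 R) L.N0 →ₗ[C.RB0 R] (pt0 x).ideal :=
    (Module.Dual.eval (C.RB0 R) L.N0 s.1.1).codRestrict (pt0 x).ideal h0
  let φ1 : Module.Dual (C.RB1 R) L.N1 →ₗ[C.RB1 R] (pt1 x).ideal :=
    (Module.Dual.eval (C.RB1 R) L.N1 s.1.2).codRestrict (pt1 x).ideal h1
  have hinj : ∀ χ : Module.Dual (C.RB01 R) L.N01, χ (L.f0 s.1.1) = 0 → χ = 0 := fun χ hχ => by
    have h : L.toPre.cut01 e (L.f0 s.1.1) (χ, 0) = 0 := by
      rw [Pre.cut01_apply, map_zero, add_zero]
      exact hχ
    exact congrArg Prod.fst (hs.bij01.1 (h.trans (map_zero _).symm))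
  have b01 : Function.Bijective φ01 := by
    refine ⟨(injective_iff_map_eq_zero _).mpr fun χ h => hinj χ (congrArg Subtype.val h),
      fun a => ?_⟩
    have ha : a.1 ∈ I := hxI ▸ a.2
    exact ⟨ha.choose, Subtype.ext ha.choose_spec⟩
  have b0 : Function.Bijective φ0 := by
    refine ⟨(injective_iff_map_eq_zero _).mpr fun ψ h => L.toPre.dualF0_injective ?_, fun a => ?_⟩
    · rw [map_zero]
      refine hinj _ ?_
      rw [L.toPre.dualF0_apply, show ψ s.1.1 = 0 from congrArg Subtype.val h, map_zero]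
    · have ha := L.toPre.mem_eval_of_ρ0_mem hs.surj0 (hxI ▸ ρ0_mem_ideal x a.2 : C.ρ0 R a.1 ∈ I)
      exact ⟨ha.choose, Subtype.ext ha.choose_spec⟩
  have b1 : Function.Bijective φ1 := by
    refine ⟨(injective_iff_map_eq_zero _).mpr fun ψ h => L.toPre.dualF1_injective ?_, fun a => ?_⟩
    · rw [map_zero]
      refine hinj _ ?_
      rw [L.toPre.mem_H0.mp s.2, L.toPre.dualF1_apply,
        show ψ s.1.2 = 0 from congrArg Subtype.val h, map_zero]
    · have ha := L.toPre.mem_eval_of_ρ1_mem hs.surj1 (hxI ▸ ρ1_mem_ideal x a.2 : C.ρ1 R a.1 ∈ I)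
      exact ⟨ha.choose, Subtype.ext ha.choose_spec⟩
  let E : L.toPre.dualPre.Equiv (idealPre x) :=
    { e0 := LinearEquiv.ofBijective φ0 b0
      e1 := LinearEquiv.ofBijective φ1 b1
      e01 := LinearEquiv.ofBijective φ01 b01
      comm0 := fun ψ => Subtype.ext (L.toPre.dualF0_apply ψ s.1.1)
      comm1 := fun ψ => Subtype.ext ((congrArg (L.toPre.dualF1 ψ) (L.toPre.mem_H0.mp s.2)).trans
        (L.toPre.dualF1_apply ψ s.1.2)) }
  exact ⟨x, hxI, ⟨(Pre.Equiv.dual (P := L.dual.toPre) (P' := (idealDatum x).toPre) E).trans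
    L.evalEquiv.symm⟩⟩

end Divisor

section Field

variable [IsAlgClosed k] [C.SmoothCharts] {K : Type u} [Field K] [Algebra k K] (L : Datum C K)

omit [DecidableEq ι] [IsAlgClosed k] in
theorem Pre.Cuts.ne_zero {s : L.toPre.H0} (hs : L.toPre.Cuts e s) : s ≠ 0 := by
  rintro rfl
  refine C.not_finite_RB01 K (Module.Finite.of_surjective (Hilb.Pt.σ e K) fun a => ?_)
  obtain ⟨q, rfl⟩ := hs.bij01.2 a
  refine ⟨q.2, ?_⟩
  rw [Pre.cut01_apply, show L.f0 (0 : L.toPre.H0).1.1 = 0 from map_zero L.f0, map_zero, zero_add]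

omit [DecidableEq ι] in
/-- A datum without `H¹` cut out by a family of genus size has one global section up to scalars. -/
theorem finrank_H0_of_cuts (hg : Fintype.card ι = C.genus) (hL : Function.Surjective L.toPre.diff)
    {s : L.toPre.H0} (hs : L.toPre.Cuts e s) : Module.finrank K L.toPre.H0 = 1 := by
  have h := L.chi_of_cuts e s hs
  have : Subsingleton L.toPre.H1 := L.toPre.subsingleton_H1_iff.mpr hL
  rw [Pre.chi, Module.finrank_zero_of_subsingleton (M := L.toPre.H1), chi_unit, hg] at h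
  push_cast at h
  omega

end Field

section Mono

variable [IsAlgClosed k] [C.SmoothCharts] (x : Hilb.Pt k e R)

/-- The divisor has no first cohomology on any fibre. -/
def IsGood : Prop := Function.Surjective (divisorDatum x).toPre.diff

variable {x}

/-- Goodness is stable under base change. -/
theorem IsGood.map (hx : IsGood x) (R' : Type u) [CommRing R'] [Algebra k R'] [Algebra R R']
    [IsScalarTower k R R'] : IsGood (x.map (IsScalarTower.toAlgHom k R R')) :=
  (divisorBaseChange x).diff_surjective hx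

/-- The canonical section generates the global sections. -/
theorem IsGood.span_canonicalSection (hg : Fintype.card ι = C.genus) (hx : IsGood x) :
    Submodule.span R {canonicalSection x} = ⊤ := by
  have := (divisorDatum x).toPre.finite_H0 hx
  by_contra hne
  let S : Submodule R (divisorDatum x).toPre.H0 := Submodule.span R {canonicalSection x}
  have : Nontrivial ((divisorDatum x).toPre.H0 ⧸ S) := Submodule.Quotient.nontrivial_iff.mpr hne
  obtain ⟨p, hp⟩ := Module.nonempty_support_of_nontrivial (R := R)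
    (M := (divisorDatum x).toPre.H0 ⧸ S)
  rw [Module.mem_support_iff_nontrivial_residueField_tensorProduct] at hp
  let κ := p.asIdeal.ResidueField
  obtain ⟨E, hE⟩ := (divisorBaseChange (R' := κ) x).exists_h0Equiv hx
  have h1 : E (1 ⊗ₜ canonicalSection x) = canonicalSection (x.map (IsScalarTower.toAlgHom k R κ)) :=
    Subtype.ext ((hE 1 _).trans (Prod.ext ((one_smul _ _).trans (canonicalSection_baseChange x).1)
      ((one_smul _ _).trans (canonicalSection_baseChange x).2)))
  have hne0 : (1 : κ) ⊗ₜ[R] canonicalSection x ≠ 0 := fun h0 => by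
    refine Pre.Cuts.ne_zero _ (cuts_canonicalSection (x.map (IsScalarTower.toAlgHom k R κ))) ?_
    rw [← h1, h0, map_zero]
  have hrank : Module.finrank κ (κ ⊗[R] (divisorDatum x).toPre.H0) = 1 := by
    rw [E.finrank_eq]
    exact finrank_H0_of_cuts _ hg (hx.map κ) (cuts_canonicalSection _)
  refine @not_subsingleton _ hp ⟨fun a b => ?_⟩
  suffices h0 : ∀ w : κ ⊗[R] ((divisorDatum x).toPre.H0 ⧸ S), w = 0 by rw [h0 a, h0 b]
  intro w
  obtain ⟨w, rfl⟩ := LinearMap.lTensor_surjective κ S.mkQ_surjective w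
  obtain ⟨c, rfl⟩ := (finrank_eq_one_iff_of_nonzero' _ hne0).mp hrank w
  rw [smul_tmul', LinearMap.lTensor_tmul, Submodule.mkQ_apply,
    (Submodule.Quotient.mk_eq_zero S).mpr (Submodule.mem_span_singleton_self _), tmul_zero]

/-- Good quotients with isomorphic divisors are equal. -/
theorem IsGood.eq_of_equiv (hg : Fintype.card ι = C.genus) {y : Hilb.Pt k e R} (hy : IsGood y)
    (E : (divisorDatum x).toPre.Equiv (divisorDatum y).toPre) : x = y := by
  refine Hilb.Pt.eq_of_ideal_le fun a ha => ?_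
  obtain ⟨r, hr⟩ := Submodule.mem_span_singleton.mp
    (hy.span_canonicalSection hg ▸ Submodule.mem_top :
      E.h0 (canonicalSection x) ∈ Submodule.span R {canonicalSection y})
  rw [← zeroIdeal_canonicalSection x] at ha
  obtain ⟨χ, rfl⟩ := ha
  rw [← zeroIdeal_canonicalSection y]
  have h : E.e01 ((divisorDatum x).f0 (canonicalSection x).1.1) =
      r • (divisorDatum y).f0 (canonicalSection y).1.1 := by
    rw [E.comm0, ← Pre.f0_smul]
    exact congrArg (divisorDatum y).f0 (congrArg (fun q => q.1.1) hr).symm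
  refine ⟨r • (E.e01.symm.dualMap χ), ?_⟩
  show r • χ (E.e01.symm ((divisorDatum y).f0 (canonicalSection y).1.1)) = χ _
  rw [← LinearMap.map_smul_of_tower,
    show r • E.e01.symm ((divisorDatum y).f0 (canonicalSection y).1.1) =
        E.e01.symm (r • (divisorDatum y).f0 (canonicalSection y).1.1) from
      ((E.e01.symm.restrictScalars R).map_smul r _).symm]
  exact congrArg χ (E.e01.injective ((E.e01.apply_symm_apply _).trans h.symm))

end Mono

end Fermat.Agent.Pic.Cech

end
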