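import Fermat.Agent.Pic.Cech.CutsBaseChange
import Fermat.Agent.Pic.Power.TensorDomain

/-!
# The Euler characteristic of a cutting section

Over a field, a datum with a section cutting out a family has the Euler characteristic of the
structure sheaf plus the size of the family.
-/

noncomputable section

open TensorProduct

namespace Fermat.Agent.Pic.Cech

universe u

/-- The quotient of an invertible module by an element is that of the ring by its values. -/
theorem exists_quot_span_equiv {S M : Type u} [CommRing S] [AddCommGroup M] [Module S M]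
    [Module.Invertible S M] (x : M)
    [Finite (MaximalSpectrum (S ⧸ LinearMap.range (Module.Dual.eval S M x)))] :
    Nonempty ((M ⧸ Submodule.span S {x}) ≃ₗ[S] S ⧸ LinearMap.range (Module.Dual.eval S M x)) := by
  let J : Ideal S := LinearMap.range (Module.Dual.eval S M x)
  have hJ : (J • ⊤ : Submodule S M) = Submodule.span S {x} := by
    refine le_antisymm (Submodule.smul_le.mpr ?_) ?_
    · rintro _ ⟨ψ, rfl⟩ m -
      rw [Module.Dual.eval_apply, invertible_smul_comm]
      exact Submodule.smul_mem _ _ (Submodule.mem_span_singleton_self x)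
    · obtain ⟨t, ht⟩ := ((Module.Invertible.linearEquiv S M).symm 1).exists_finset
      have h1 : (1 : S) = ∑ i ∈ t, i.1 i.2 := by
        simpa [LinearEquiv.symm_apply_eq, Module.Invertible.linearEquiv] using ht
      rw [Submodule.span_singleton_le_iff_mem]
      have hx : x = ∑ i ∈ t, i.1 i.2 • x := by rw [← Finset.sum_smul, ← h1, one_smul]
      rw [hx]
      refine Submodule.sum_mem _ fun i _ => ?_
      rw [invertible_smul_comm]
      exact Submodule.smul_mem_smul ⟨i.1, rfl⟩ Submodule.mem_top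
  obtain ⟨E⟩ := Module.Invertible.free_iff_linearEquiv.mp
    (inferInstance : Module.Free (S ⧸ J) ((S ⧸ J) ⊗[S] M))
  exact ⟨Submodule.quotEquivOfEq _ _ hJ.symm ≪≫ₗ
    (TensorProduct.quotTensorEquivQuotSMul M J).symm ≪≫ₗ E.restrictScalars S⟩

variable {k : Type u} [Field k] {C : Cover k}

namespace Cover

variable [IsAlgClosed k] [C.SmoothCharts] (C) (K : Type u) [CommRing K] [IsDomain K] [Algebra k K]

theorem isDomain_RB0 : IsDomain (C.RB0 K) := by
  have := C.finiteType0
  have := Cover.SmoothCharts.dedekind0 (C := C)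
  exact Power.isDomain_tensorProduct_symm

theorem isDomain_RB1 : IsDomain (C.RB1 K) := by
  have := C.finiteType1
  have := Cover.SmoothCharts.dedekind1 (C := C)
  exact Power.isDomain_tensorProduct_symm

theorem isDomain_RB01 : IsDomain (C.RB01 K) := by
  have := C.finiteType01
  have := Cover.SmoothCharts.dedekind01 (C := C)
  exact Power.isDomain_tensorProduct_symm

omit [IsAlgClosed k] [IsDomain K] in
/-- The overlap over a field is infinite dimensional. -/
theorem not_finite_RB01 (K : Type u) [Field K] [Algebra k K] :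
    ¬ Module.Finite K (C.RB01 K) := fun h => by
  have := Cover.SmoothCharts.dedekind01 (C := C)
  have : Module.Finite k C.B01 := by
    refine Module.rank_lt_aleph0_iff.mp ?_
    have h' : Module.rank K (K ⊗[k] C.B01) < Cardinal.aleph0 := Module.rank_lt_aleph0_iff.mpr h
    rwa [Module.rank_baseChange, Cardinal.lift_id] at h'
  have : IsArtinianRing C.B01 := IsArtinianRing.of_finite k C.B01
  exact Cover.SmoothCharts.not_isField01 (C := C) (IsArtinianRing.isField_of_isDomain C.B01)

end Cover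

variable {R : Type u} [CommRing R] [Algebra k R]

/-- A function on the first chart in the ideal of the zeros on the overlap is a value of a
functional at the section. -/
theorem Pre.mem_eval_of_ρ0_mem {P : Pre C R} [Module.Finite (C.RB0 R) P.N0] {x : P.N0}
    (h0 : Function.Surjective (P.cut0 x)) {b : C.RB0 R} (hb : C.ρ0 R b ∈ P.zeroIdeal x) :
    b ∈ LinearMap.range (Module.Dual.eval (C.RB0 R) P.N0 x) := by
  let J : Ideal (C.RB0 R) := LinearMap.range (Module.Dual.eval (C.RB0 R) P.N0 x)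
  obtain ⟨χ, hχ⟩ := hb
  obtain ⟨n, ψ, hψ⟩ := P.exists_restrict0 χ
  have h : C.T0 R ^ n * b ∈ J := by
    refine ⟨ψ, C.ρ0_injective R ?_⟩
    rw [Module.Dual.eval_apply, ← P.dualF0_apply ψ x, ← hψ, LinearMap.smul_apply, smul_eq_mul,
      map_mul, map_pow, C.ρ0_T0]
    exact congrArg (C.T R ^ n * ·) hχ
  obtain ⟨⟨φ, c⟩, hc⟩ := h0 1
  rw [Pre.cut0_apply] at hc
  refine mem_of_pow_smul_mem (N := J) (c := c) (fun v => J.mul_mem_right v ?_) h
  rw [← hc, add_sub_cancel_right]
  exact ⟨φ, rfl⟩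

/-- The same on the second chart. -/
theorem Pre.mem_eval_of_ρ1_mem {P : Pre C R} [Module.Finite (C.RB1 R) P.N1] {s : P.H0}
    (h1 : Function.Surjective (P.cut1 s.1.2)) {b : C.RB1 R}
    (hb : C.ρ1 R b ∈ P.zeroIdeal s.1.1) :
    b ∈ LinearMap.range (Module.Dual.eval (C.RB1 R) P.N1 s.1.2) := by
  let J : Ideal (C.RB1 R) := LinearMap.range (Module.Dual.eval (C.RB1 R) P.N1 s.1.2)
  obtain ⟨χ, hχ⟩ := hb
  obtain ⟨n, ψ, hψ⟩ := P.exists_restrict1 χ
  have hf : P.dualF1 ψ (P.f0 s.1.1) = C.ρ1 R (ψ s.1.2) :=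
    (congrArg (P.dualF1 ψ) (P.mem_H0.mp s.2)).trans (P.dualF1_apply ψ s.1.2)
  have h : C.T1 R ^ n * b ∈ J := by
    refine ⟨ψ, C.ρ1_injective R ?_⟩
    rw [Module.Dual.eval_apply, ← hf, ← hψ, LinearMap.smul_apply, smul_eq_mul,
      map_mul, map_pow, C.ρ1_T1]
    exact congrArg (C.T' R ^ n * ·) hχ
  obtain ⟨⟨φ, c⟩, hc⟩ := h1 1
  rw [Pre.cut1_apply] at hc
  refine mem_of_pow_smul_mem (N := J) (c := c) (fun v => J.mul_mem_right v ?_) h
  rw [← hc, add_sub_cancel_right]
  exact ⟨φ, rfl⟩

/-- A chart on which the zeros of a cutting section are those in the overlap has the family as a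
basis of the functions on them. -/
theorem Pre.exists_zeros_equiv {P : Pre C R} {z : P.N01} {ι : Type u} [Fintype ι] (e : ι → C.B01)
    (h01 : Function.Bijective (P.cut01 e z)) {S : Type u} [CommRing S] [Algebra R S]
    (ρ : S →ₐ[R] C.RB01 R) (J : Ideal S)
    (hJ : ∀ b, b ∈ J ↔ ρ b ∈ LinearMap.range (Module.Dual.eval (C.RB01 R) P.N01 z))
    (hsurj : ∀ a, ∃ u, a - ρ u ∈ LinearMap.range (Module.Dual.eval (C.RB01 R) P.N01 z)) :
    Nonempty ((S ⧸ J.restrictScalars R) ≃ₗ[R] (ι → R)) := by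
  let E := LinearEquiv.ofBijective _ h01
  let π : S →ₗ[R] (ι → R) := LinearMap.snd R _ _ ∘ₗ E.symm.toLinearMap ∘ₗ ρ.toLinearMap
  have hπ : Function.Surjective π := fun v => by
    obtain ⟨u, χ, hχ⟩ := hsurj (Hilb.Pt.σ e R v)
    refine ⟨u, ?_⟩
    show (E.symm (ρ u)).2 = v
    rw [show ρ u = E (-χ, v) by
      rw [LinearEquiv.ofBijective_apply, Pre.cut01_apply, LinearMap.neg_apply]
      rw [show χ z = Hilb.Pt.σ e R v - ρ u from hχ]
      ring, E.symm_apply_apply]
  have hker : LinearMap.ker π = J.restrictScalars R := by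
    ext b
    rw [Submodule.restrictScalars_mem, hJ]
    refine ⟨fun hb => ⟨(E.symm (ρ b)).1, ?_⟩, ?_⟩
    · have h := E.apply_symm_apply (ρ b)
      rw [LinearEquiv.ofBijective_apply, Pre.cut01_apply,
        show (E.symm (ρ b)).2 = 0 from hb, map_zero, add_zero] at h
      exact h
    · rintro ⟨χ, hχ⟩
      show (E.symm (ρ b)).2 = 0
      rw [show ρ b = E (χ, 0) by
        rw [LinearEquiv.ofBijective_apply, Pre.cut01_apply, map_zero, add_zero]
        exact hχ.symm, E.symm_apply_apply]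
  exact ⟨Submodule.quotEquivOfEq _ _ hker.symm ≪≫ₗ π.quotKerEquivOfSurjective hπ⟩

/-- The functions on the zeros of a cutting section on the first chart. -/
theorem Pre.exists_zeros0_equiv {P : Pre C R} [Module.Finite (C.RB0 R) P.N0] {x : P.N0}
    {ι : Type u} [Fintype ι] (e : ι → C.B01) (h0 : Function.Surjective (P.cut0 x))
    (h01 : Function.Bijective (P.cut01 e (P.f0 x))) :
    Nonempty ((C.RB0 R ⧸
        (LinearMap.range (Module.Dual.eval (C.RB0 R) P.N0 x)).restrictScalars R) ≃ₗ[R]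
      (ι → R)) :=
  P.exists_zeros_equiv e h01 (C.ρ0 R) _
    (fun _ => ⟨fun ⟨ψ, hψ⟩ => hψ ▸ P.ρ0_eval_mem x ψ, P.mem_eval_of_ρ0_mem h0⟩)
    (P.exists_sub_ρ0_mem h0)

/-- The functions on the zeros of a cutting section on the second chart. -/
theorem Pre.exists_zeros1_equiv {P : Pre C R} [Module.Finite (C.RB1 R) P.N1] {s : P.H0}
    {ι : Type u} [Fintype ι] (e : ι → C.B01) (hs : P.Cuts e s) :
    Nonempty ((C.RB1 R ⧸
        (LinearMap.range (Module.Dual.eval (C.RB1 R) P.N1 s.1.2)).restrictScalars R) ≃ₗ[R]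
      (ι → R)) :=
  P.exists_zeros_equiv e hs.bij01 (C.ρ1 R) _
    (fun _ => ⟨fun ⟨ψ, hψ⟩ => hψ ▸ P.ρ1_eval_mem s ψ, P.mem_eval_of_ρ1_mem hs.surj1⟩)
    (P.exists_sub_ρ1_mem hs.surj1)

/-- Without zeros on the zeros of the parameter, a section has the same zeros on the first chart
and on the overlap. -/
theorem Datum.exists_quotEquiv01 (L : Datum C R) (s : L.toPre.H0)
    (h0 : Function.Surjective (L.toPre.cut0 s.1.1)) :
    Nonempty ((L.N0 ⧸ (Submodule.span (C.RB0 R) {s.1.1}).restrictScalars R) ≃ₗ[R]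
      L.N01 ⧸ (Submodule.span (C.RB01 R) {L.f0 s.1.1}).restrictScalars R) := by
  let Θ : (L.N0 ⧸ (Submodule.span (C.RB0 R) {s.1.1}).restrictScalars R) →ₗ[R]
      L.N01 ⧸ (Submodule.span (C.RB01 R) {L.f0 s.1.1}).restrictScalars R :=
    Submodule.mapQ _ _ L.toPre.g0 (by
      intro v hv
      obtain ⟨b, rfl⟩ := Submodule.mem_span_singleton.mp hv
      exact Submodule.mem_span_singleton.mpr ⟨C.ρ0 R b, (L.toPre.f0_smul_chart b s.1.1).symm⟩)
  refine ⟨LinearEquiv.ofBijective Θ
    ⟨(injective_iff_map_eq_zero _).mpr fun q hq => ?_, fun q => ?_⟩⟩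
  · obtain ⟨y, rfl⟩ := Submodule.mkQ_surjective _ q
    obtain ⟨a, ha⟩ := Submodule.mem_span_singleton.mp ((Submodule.Quotient.mk_eq_zero _).mp hq)
    obtain ⟨n, b, hb⟩ := C.exists_T_pow_mul R a
    obtain ⟨l, hl⟩ := L.ker0 (C.T0 R ^ n • y - b • s.1.1) (by
      rw [map_sub, L.toPre.f0_smul_chart, L.toPre.f0_smul_chart, map_pow, C.ρ0_T0, ← hb,
        mul_smul, show a • L.f0 s.1.1 = L.f0 y from ha, sub_self])
    obtain ⟨⟨φ, c⟩, hc⟩ := h0 1
    rw [Pre.cut0_apply] at hc
    refine (Submodule.Quotient.mk_eq_zero _).mpr ?_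
    rw [Submodule.restrictScalars_mem]
    refine mem_of_pow_smul_mem (t := C.T0 R) (c := c) (fun v => ?_) (n := l + n) ?_
    · rw [← hc, add_sub_cancel_right, invertible_smul_comm]
      exact Submodule.smul_mem _ _ (Submodule.mem_span_singleton_self _)
    rw [smul_sub, sub_eq_zero, smul_smul, smul_smul, ← pow_add] at hl
    rw [hl]
    exact Submodule.smul_mem _ _ (Submodule.mem_span_singleton_self _)
  · obtain ⟨m, rfl⟩ := Submodule.mkQ_surjective _ q
    obtain ⟨n, y, hy⟩ := L.surj0 m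
    obtain ⟨u, χ, hχ⟩ := L.toPre.exists_sub_ρ0_mem h0 (C.T' R ^ n)
    refine ⟨Submodule.Quotient.mk (u • y), (Submodule.Quotient.eq _).mpr ?_⟩
    have h : L.f0 (u • y) - m = -((C.T' R ^ n - C.ρ0 R u) • L.f0 y) := by
      rw [L.toPre.f0_smul_chart, sub_smul, ← hy, smul_smul (C.T' R ^ n), C.T'_pow_mul_T_pow,
        one_smul, neg_sub]
    rw [Pre.g0_apply, h, ← (show χ (L.f0 s.1.1) = C.T' R ^ n - C.ρ0 R u from hχ)]
    exact neg_mem (Submodule.mem_span_singleton.mpr ⟨χ (L.f0 y), L.smul_comm01 χ _ _⟩)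

section Field

variable {K : Type u} [Field K] [Algebra k K]

/-- The quotient of a line bundle on a chart by a section has the dimension of the functions on
its zeros. -/
theorem exists_chart_finrank {B : Type u} [CommRing B] [Algebra K B] {M : Type u} [AddCommGroup M]
    [Module K M] [Module B M] [IsScalarTower K B M] [Module.Invertible B M] (x : M) {ι : Type u}
    [Fintype ι] (E : (B ⧸ (LinearMap.range (Module.Dual.eval B M x)).restrictScalars K) ≃ₗ[K]
      (ι → K)) :
    FiniteDimensional K (M ⧸ (Submodule.span B {x}).restrictScalars K) ∧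
      Module.finrank K (M ⧸ (Submodule.span B {x}).restrictScalars K) = Fintype.card ι := by
  let J : Ideal B := LinearMap.range (Module.Dual.eval B M x)
  have : Module.Finite K (B ⧸ J) :=
    Module.Finite.equiv (E.symm ≪≫ₗ Submodule.Quotient.restrictScalarsEquiv K J)
  have : IsArtinianRing (B ⧸ J) := IsArtinianRing.of_finite K _
  obtain ⟨F⟩ := exists_quot_span_equiv (S := B) x
  let G : (M ⧸ (Submodule.span B {x}).restrictScalars K) ≃ₗ[K] (ι → K) :=
    Submodule.Quotient.restrictScalarsEquiv K _ ≪≫ₗ F.restrictScalars K ≪≫ₗ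
      (Submodule.Quotient.restrictScalarsEquiv K J).symm ≪≫ₗ E
  exact ⟨Module.Finite.equiv G.symm, by rw [G.finrank_eq, Module.finrank_pi]⟩

variable [IsAlgClosed k] [C.SmoothCharts]

omit [IsAlgClosed k] in
/-- A vector cut out by finitely many functions on the overlap is not killed by all functionals. -/
theorem Datum.exists_dual_ne_zero (L : Datum C K) {ι : Type u} [Fintype ι] {e : ι → C.B01}
    {z : L.N01} (h : Function.Surjective (L.toPre.cut01 e z)) :
    ∃ χ : Module.Dual (C.RB01 K) L.N01, χ z ≠ 0 := by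
  by_contra hcon
  push Not at hcon
  refine C.not_finite_RB01 K (Module.Finite.of_surjective (Hilb.Pt.σ e K) fun a => ?_)
  obtain ⟨q, rfl⟩ := h a
  exact ⟨q.2, by rw [Pre.cut01_apply, hcon q.1, zero_add]⟩

/-- The Euler characteristic of a datum with a cutting section. -/
theorem Datum.chi_of_cuts (L : Datum C K) {ι : Type u} [Fintype ι] (e : ι → C.B01)
    (s : L.toPre.H0) (hs : L.toPre.Cuts e s) :
    L.toPre.chi = (unitPre C K).chi + Fintype.card ι := by
  have := C.isDomain_RB0 K
  have := C.isDomain_RB1 K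
  have := C.isDomain_RB01 K
  let z : L.N01 := L.f0 s.1.1
  obtain ⟨χ, hχ⟩ := L.exists_dual_ne_zero (z := z) hs.bij01.2
  have hinj01 : ∀ b : C.RB01 K, b • z = 0 → b = 0 := fun b hb => by
    have h := congrArg χ hb
    rw [map_smul, map_zero, smul_eq_mul, mul_eq_zero] at h
    exact h.resolve_right hχ
  have hinj0 : ∀ b : C.RB0 K, b • s.1.1 = 0 → b = 0 := fun b hb =>
    C.ρ0_injective K <| by
      rw [map_zero]
      refine hinj01 _ ?_
      show C.ρ0 K b • L.f0 s.1.1 = 0
      rw [← L.toPre.f0_smul_chart, hb, map_zero L.f0]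
  have hinj1 : ∀ b : C.RB1 K, b • s.1.2 = 0 → b = 0 := fun b hb =>
    C.ρ1_injective K <| by
      rw [map_zero]
      refine hinj01 _ ?_
      show C.ρ1 K b • L.f0 s.1.1 = 0
      rw [L.toPre.mem_H0.mp s.2, ← L.toPre.f1_smul_chart, hb, map_zero L.f1]
  let ι0 : C.RB0 K →ₗ[K] L.N0 :=
    (LinearMap.toSpanSingleton (C.RB0 K) L.N0 s.1.1).restrictScalars K
  let ι1 : C.RB1 K →ₗ[K] L.N1 :=
    (LinearMap.toSpanSingleton (C.RB1 K) L.N1 s.1.2).restrictScalars K
  let j : C.RB01 K →ₗ[K] L.N01 :=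
    (LinearMap.toSpanSingleton (C.RB01 K) L.N01 z).restrictScalars K
  obtain ⟨E0⟩ := L.toPre.exists_zeros0_equiv e hs.surj0 hs.bij01
  obtain ⟨E1⟩ := L.toPre.exists_zeros1_equiv e hs
  obtain ⟨hf0, hn0⟩ := exists_chart_finrank s.1.1 E0
  obtain ⟨hf1, hn1⟩ := exists_chart_finrank s.1.2 E1
  have hr0 : LinearMap.range ι0 = (Submodule.span (C.RB0 K) {s.1.1}).restrictScalars K := by
    ext v; simp [ι0, Submodule.mem_span_singleton]
  have hr1 : LinearMap.range ι1 = (Submodule.span (C.RB1 K) {s.1.2}).restrictScalars K := by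
    ext v; simp [ι1, Submodule.mem_span_singleton]
  have hrj : LinearMap.range j = (Submodule.span (C.RB01 K) {z}).restrictScalars K := by
    ext v; simp [j, Submodule.mem_span_singleton]
  obtain ⟨EΘ⟩ := L.exists_quotEquiv01 s hs.surj0
  -- the index
  have : FiniteDimensional K (L.N0 ⧸ LinearMap.range ι0) := by rw [hr0]; exact hf0
  have : FiniteDimensional K (L.N1 ⧸ LinearMap.range ι1) := by rw [hr1]; exact hf1
  let F : C.RB0 K × C.RB1 K →ₗ[K] L.N0 × L.N1 := ι0.prodMap ι1
  have hFi : Function.Injective F :=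
    Function.Injective.prodMap ((injective_iff_map_eq_zero ι0).mpr hinj0)
      ((injective_iff_map_eq_zero ι1).mpr hinj1)
  have hji : Function.Injective j := (injective_iff_map_eq_zero j).mpr hinj01
  let π : (L.N0 × L.N1) →ₗ[K] (L.N0 ⧸ LinearMap.range ι0) × (L.N1 ⧸ LinearMap.range ι1) :=
    (LinearMap.range ι0).mkQ.prodMap (LinearMap.range ι1).mkQ
  have hπ : LinearMap.range F = LinearMap.ker π := by
    rw [LinearMap.ker_prodMap, Submodule.ker_mkQ, Submodule.ker_mkQ, LinearMap.range_prodMap]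
  let EF : ((L.N0 × L.N1) ⧸ LinearMap.range F) ≃ₗ[K]
      (L.N0 ⧸ LinearMap.range ι0) × (L.N1 ⧸ LinearMap.range ι1) :=
    Submodule.quotEquivOfEq _ _ hπ ≪≫ₗ π.quotKerEquivOfSurjective
      ((Submodule.mkQ_surjective _).prodMap (Submodule.mkQ_surjective _))
  have : FiniteDimensional K ((L.N0 × L.N1) ⧸ LinearMap.range F) := Module.Finite.equiv EF.symm
  have : FiniteDimensional K (L.N01 ⧸ LinearMap.range j) := by
    rw [hrj]; exact Module.Finite.equiv EΘ
  have : FiniteDimensional K (LinearMap.ker F) := by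
    rw [LinearMap.ker_eq_bot.mpr hFi]; infer_instance
  have : FiniteDimensional K (LinearMap.ker j) := by
    rw [LinearMap.ker_eq_bot.mpr hji]; infer_instance
  have : Module.Finite (C.RB0 K) (unitPre C K).N0 :=
    inferInstanceAs (Module.Finite (C.RB0 K) (C.RB0 K))
  have : Module.Finite (C.RB1 K) (unitPre C K).N1 :=
    inferInstanceAs (Module.Finite (C.RB1 K) (C.RB1 K))
  have : Module.Projective (C.RB0 K) (unitPre C K).N0 :=
    inferInstanceAs (Module.Projective (C.RB0 K) (C.RB0 K))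
  have : Module.Projective (C.RB1 K) (unitPre C K).N1 :=
    inferInstanceAs (Module.Projective (C.RB1 K) (C.RB1 K))
  obtain ⟨_, _⟩ := (unitPre C K).finite_cohomology
  obtain ⟨_, _⟩ := L.toPre.finite_cohomology
  let du : C.RB0 K × C.RB1 K →ₗ[K] C.RB01 K := (unitPre C K).diff
  have : FiniteDimensional K (LinearMap.ker du) := ‹FiniteDimensional K (unitPre C K).H0›
  have : FiniteDimensional K (C.RB01 K ⧸ LinearMap.range du) :=
    ‹FiniteDimensional K (unitPre C K).H1›
  have hdu : ∀ q, du q = C.ρ0 K q.1 - C.ρ1 K q.2 := fun q => (unitPre C K).diff_apply q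
  have hcomm : L.toPre.diff ∘ₗ F = j ∘ₗ du := LinearMap.ext fun q => by
    show L.toPre.diff (q.1 • s.1.1, q.2 • s.1.2) = du q • z
    rw [Pre.diff_apply, hdu, sub_smul, L.toPre.f0_smul_chart, L.toPre.f1_smul_chart,
      ← L.toPre.mem_H0.mp s.2]
  have hidx := congrArg LinearMap.index hcomm
  rw [LinearMap.index_comp, LinearMap.index_comp, LinearMap.index_of_injective hFi,
    LinearMap.index_of_injective hji, EF.finrank_eq, Module.finrank_prod, hrj, ← EΘ.finrank_eq,
    hr0, hr1, hn0, hn1] at hidx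
  show L.toPre.diff.index = du.index + _
  push_cast at hidx
  linarith

/-- The Euler characteristic of the structure sheaf. -/
theorem chi_unit : (unitPre C K).chi = 1 - C.genus := by
  have := C.isDomain_RB0 K
  let φ : K →ₗ[K] (unitPre C K).H0 :=
    ((Algebra.linearMap K (C.RB0 K)).prod (Algebra.linearMap K (C.RB1 K))).codRestrict
      (unitPre C K).H0 fun r => (unitPre_H0_eq _).mpr ⟨r, rfl⟩
  have hφ : Function.Bijective φ := by
    refine ⟨fun a b h => (algebraMap K (C.RB0 K)).injective (congrArg (fun q => q.1.1) h),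
      fun q => ?_⟩
    obtain ⟨r, hr⟩ := (unitPre_H0_eq q.1).mp q.2
    exact ⟨r, Subtype.ext hr.symm⟩
  rw [Pre.chi, ← (LinearEquiv.ofBijective φ hφ).finrank_eq, Module.finrank_self,
    (unitBaseChange C k K).h1Equiv.finrank_eq, Module.finrank_baseChange]
  rfl

end Field

end Fermat.Agent.Pic.Cech

end
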