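import Fermat.Agent.Pic.Cech.DualBaseChange

/-!
# Sections cutting out a finite quotient of the overlap

A section cuts out `e` when it has no zero on the zeros of the parameters and `e` is a basis of
the functions on its zeros in the overlap.  This is a condition on three linear maps, which
commute with base change; their cokernels are finite over the base.
-/

noncomputable section

open TensorProduct

namespace Fermat.Agent.Pic.Cech

universe u

variable {k : Type u} [Field k]

theorem fg_of_le_finite {V : Type u} [AddCommGroup V] [Module k V] (W : Submodule k V)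
    [Module.Finite k W] {W' : Submodule k V} (h : W' ≤ W) : W'.FG :=
  Module.Finite.iff_fg.mp
    (Module.Finite.of_injective (Submodule.inclusion h) (Submodule.inclusion_injective h))

/-- Representatives modulo an element in a finitely generated submodule persist after base
change. -/
theorem exists_rep_baseChange {B : Type u} [CommRing B] [Algebra k B] (t : B)
    (hW : ∃ W : Submodule k B, W.FG ∧ ∀ b : B, ∃ c : B, b - t * c ∈ W)
    (R : Type u) [CommRing R] [Algebra k R] :
    ∃ U : Submodule R (R ⊗[k] B), U.FG ∧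
      ∀ b : R ⊗[k] B, ∃ c, b - ((1 : R) ⊗ₜ[k] t) * c ∈ U := by
  obtain ⟨W, hW, h⟩ := hW
  have : Module.Finite k W := Module.Finite.iff_fg.mpr hW
  refine ⟨LinearMap.range (W.subtype.baseChange R), ?_, fun b => ?_⟩
  · rw [LinearMap.range_eq_map]
    exact Module.Finite.fg_top.map _
  induction b using TensorProduct.induction_on with
  | zero => exact ⟨0, by simp⟩
  | tmul a b =>
    obtain ⟨c, hc⟩ := h b
    refine ⟨a ⊗ₜ c, a ⊗ₜ ⟨_, hc⟩, ?_⟩
    rw [LinearMap.baseChange_tmul, Submodule.subtype_apply, tmul_sub,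
      Algebra.TensorProduct.tmul_mul_tmul, one_mul]
  | add u v hu hv =>
    obtain ⟨c, hc⟩ := hu
    obtain ⟨d, hd⟩ := hv
    refine ⟨c + d, ?_⟩
    convert add_mem hc hd using 1
    rw [mul_add]
    abel

/-- An element of a localisation is congruent to one of the chart modulo an ideal modulo which the
inverse of the element inverted comes from the chart. -/
theorem exists_sub_mem_of_mul_sub_one {A S S' : Type u} [CommRing A] [CommRing S] [CommRing S']
    [Algebra A S] [Algebra A S'] (ρ : S →ₐ[A] S') {t' : S'}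
    (hloc : ∀ a : S', ∃ (n : ℕ) (b : S), t' ^ n * a = ρ b) {I : Ideal S'} {c : S}
    (hc : t' * ρ c - 1 ∈ I) (a : S') : ∃ u, a - ρ u ∈ I := by
  obtain ⟨n, b, hb⟩ := hloc a
  refine ⟨c ^ n * b, Ideal.Quotient.eq.mp ?_⟩
  have h1 := Ideal.Quotient.eq.mpr hc
  simp only [map_one, map_mul] at h1
  rw [map_mul ρ, ← hb, map_pow]
  simp only [map_mul, map_pow]
  rw [← mul_assoc, ← mul_pow, mul_comm (Ideal.Quotient.mk I (ρ c)), h1, one_pow, one_mul]

namespace Cover

variable (C : Cover k)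

/-- The first chart modulo the parameter has representatives in a finite subspace. -/
theorem exists_rep_B0 :
    ∃ W : Submodule k C.B0, W.FG ∧ ∀ b : C.B0, ∃ c : C.B0, b - C.t0 * c ∈ W := by
  have := C.finite_h1
  obtain ⟨V, hV, hSV⟩ := exists_fg_sup_eq_top
    (LinearMap.range C.r0.toLinearMap ⊔ LinearMap.range C.r1.toLinearMap)
  obtain ⟨W1, hW1, hb⟩ := C.exists_rep_B1 1
  let U : Submodule k C.B01 :=
    (W1.map C.r1.toLinearMap ⊔ V).map (LinearMap.mulLeft k (C.r0 C.t0))
  have : Module.Finite k U := Module.Finite.iff_fg.mpr (((hW1.map _).sup hV).map _)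
  let S : Submodule k C.B0 := (LinearMap.range C.r1.toLinearMap ⊔ U).comap C.r0.toLinearMap
  refine ⟨S, ?_, fun b => ?_⟩
  · let q : C.B0 →ₗ[k] C.B01 ⧸ LinearMap.range C.r1.toLinearMap :=
      (LinearMap.range C.r1.toLinearMap).mkQ ∘ₗ C.r0.toLinearMap
    refine Submodule.fg_of_fg_map_of_fg_inf_ker q ?_ ?_
    · let U' := U.map (LinearMap.range C.r1.toLinearMap).mkQ
      have : Module.Finite k U' := Module.Finite.iff_fg.mpr ((Module.Finite.iff_fg.mp ‹_›).map _)
      refine fg_of_le_finite U' ?_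
      rintro _ ⟨x, hx, rfl⟩
      obtain ⟨_, ⟨w, rfl⟩, v, hv, hwv⟩ := Submodule.mem_sup.mp hx
      refine ⟨v, hv, (Submodule.Quotient.eq _).mpr ⟨-w, ?_⟩⟩
      simp only [AlgHom.toLinearMap_apply] at hwv ⊢
      rw [map_neg, ← hwv]
      abel
    · have : Module.Finite k (LinearMap.range (Algebra.linearMap k C.B0)) := inferInstance
      refine fg_of_le_finite (LinearMap.range (Algebra.linearMap k C.B0)) fun x hx => ?_
      obtain ⟨w, hw⟩ := (Submodule.Quotient.mk_eq_zero _).mp (LinearMap.mem_ker.mp hx.2)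
      obtain ⟨a, ha⟩ := C.h0_const x w hw.symm
      exact ⟨a, ha.symm⟩
  · obtain ⟨s, hs, v, hv, hsv⟩ := Submodule.mem_sup.mp
      (hSV.symm ▸ Submodule.mem_top : C.r1 C.t1 * C.r0 b ∈ _ ⊔ V)
    obtain ⟨_, ⟨u, rfl⟩, _, ⟨w, rfl⟩, rfl⟩ := Submodule.mem_sup.mp hs
    obtain ⟨d, hd⟩ := hb w
    rw [pow_one] at hd
    refine ⟨u, Submodule.mem_sup.mpr ⟨C.r1 d, ⟨d, rfl⟩,
      C.r0 C.t0 * (C.r1 (w - C.t1 * d) + v),
      ⟨_, Submodule.add_mem_sup (Submodule.mem_map_of_mem hd) hv, rfl⟩, ?_⟩⟩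
    simp only [AlgHom.toLinearMap_apply] at hsv ⊢
    simp only [map_sub, map_mul]
    linear_combination (C.r0 b - C.r1 d) * C.mul_t + (C.r0 C.t0) * hsv

theorem exists_rep_RB0 (R : Type u) [CommRing R] [Algebra k R] :
    ∃ U : Submodule R (C.RB0 R), U.FG ∧ ∀ b, ∃ c, b - C.T0 R * c ∈ U :=
  exists_rep_baseChange C.t0 C.exists_rep_B0 R

theorem exists_rep_RB1 (R : Type u) [CommRing R] [Algebra k R] :
    ∃ U : Submodule R (C.RB1 R), U.FG ∧ ∀ b, ∃ c, b - C.T1 R * c ∈ U := by
  obtain ⟨W, hW, h⟩ := C.exists_rep_B1 1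
  exact exists_rep_baseChange C.t1 ⟨W, hW, fun b => by simpa using h b⟩ R

/-- The genus. -/
def genus : ℕ := Module.finrank k (unitPre C k).H1

end Cover

variable {C : Cover k} {R : Type u} [CommRing R] [Algebra k R]

namespace Pre

variable (P : Pre C R)

/-- The values at a section and the multiples of the parameter, on the first chart. -/
def cut0 (x : P.N0) : Module.Dual (C.RB0 R) P.N0 × C.RB0 R →ₗ[R] C.RB0 R :=
  ((Module.Dual.eval (C.RB0 R) P.N0 x).restrictScalars R).coprod
    (LinearMap.mulLeft R (C.T0 R))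

/-- The values at a section and the multiples of the parameter, on the second chart. -/
def cut1 (y : P.N1) : Module.Dual (C.RB1 R) P.N1 × C.RB1 R →ₗ[R] C.RB1 R :=
  ((Module.Dual.eval (C.RB1 R) P.N1 y).restrictScalars R).coprod
    (LinearMap.mulLeft R (C.T1 R))

variable {ι : Type u} [Fintype ι] (e : ι → C.B01)

/-- The values at a section and the combinations of a family, on the overlap. -/
def cut01 (z : P.N01) : Module.Dual (C.RB01 R) P.N01 × (ι → R) →ₗ[R] C.RB01 R :=
  ((Module.Dual.eval (C.RB01 R) P.N01 z).restrictScalars R).coprod (Hilb.Pt.σ e R)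

@[simp] theorem cut0_apply (x : P.N0) (q : Module.Dual (C.RB0 R) P.N0 × C.RB0 R) :
    P.cut0 x q = q.1 x + C.T0 R * q.2 := rfl

@[simp] theorem cut1_apply (y : P.N1) (q : Module.Dual (C.RB1 R) P.N1 × C.RB1 R) :
    P.cut1 y q = q.1 y + C.T1 R * q.2 := rfl

@[simp] theorem cut01_apply (z : P.N01) (q : Module.Dual (C.RB01 R) P.N01 × (ι → R)) :
    P.cut01 e z q = q.1 z + Hilb.Pt.σ e R q.2 := rfl

/-- A section cuts out a family: it has no zero on the zeros of the parameters and the family is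
a basis of the functions on its zeros in the overlap. -/
structure Cuts (s : P.H0) : Prop where
  surj0 : Function.Surjective (P.cut0 s.1.1)
  surj1 : Function.Surjective (P.cut1 s.1.2)
  bij01 : Function.Bijective (P.cut01 e (P.f0 s.1.1))

/-- The functions on the common zeros of the section and the parameter are finite over the base. -/
theorem finite_coker_cut0 (x : P.N0) :
    Module.Finite R (C.RB0 R ⧸ LinearMap.range (P.cut0 x)) := by
  obtain ⟨U, hU, h⟩ := C.exists_rep_RB0 R
  have : Module.Finite R U := Module.Finite.iff_fg.mpr hU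
  refine Module.Finite.of_surjective ((LinearMap.range (P.cut0 x)).mkQ ∘ₗ U.subtype) fun q => ?_
  obtain ⟨b, rfl⟩ := Submodule.mkQ_surjective _ q
  obtain ⟨c, hc⟩ := h b
  exact ⟨⟨_, hc⟩, (Submodule.Quotient.eq _).mpr ⟨(0, -c), by simp⟩⟩

theorem finite_coker_cut1 (y : P.N1) :
    Module.Finite R (C.RB1 R ⧸ LinearMap.range (P.cut1 y)) := by
  obtain ⟨U, hU, h⟩ := C.exists_rep_RB1 R
  have : Module.Finite R U := Module.Finite.iff_fg.mpr hU
  refine Module.Finite.of_surjective ((LinearMap.range (P.cut1 y)).mkQ ∘ₗ U.subtype) fun q => ?_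
  obtain ⟨b, rfl⟩ := Submodule.mkQ_surjective _ q
  obtain ⟨c, hc⟩ := h b
  exact ⟨⟨_, hc⟩, (Submodule.Quotient.eq _).mpr ⟨(0, -c), by simp⟩⟩

/-- The ideal of the zeros of a section on the overlap. -/
def zeroIdeal (x : P.N0) : Ideal (C.RB01 R) :=
  LinearMap.range (Module.Dual.eval (C.RB01 R) P.N01 (P.f0 x))

theorem ρ0_eval_mem (x : P.N0) (ψ : Module.Dual (C.RB0 R) P.N0) :
    C.ρ0 R (ψ x) ∈ P.zeroIdeal x :=
  ⟨P.dualF0 ψ, P.dualF0_apply ψ x⟩

theorem ρ1_eval_mem (s : P.H0) (ψ : Module.Dual (C.RB1 R) P.N1) :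
    C.ρ1 R (ψ s.1.2) ∈ P.zeroIdeal s.1.1 :=
  ⟨P.dualF1 ψ, (congrArg (P.dualF1 ψ) (P.mem_H0.mp s.2)).trans (P.dualF1_apply ψ s.1.2)⟩

/-- Functions on the overlap come from the first chart modulo the zeros of a section without zeros
on the zeros of the parameter. -/
theorem exists_sub_ρ0_mem {x : P.N0} (h0 : Function.Surjective (P.cut0 x)) (a : C.RB01 R) :
    ∃ u, a - C.ρ0 R u ∈ P.zeroIdeal x := by
  obtain ⟨⟨ψ, c⟩, hc⟩ := h0 1
  rw [cut0_apply] at hc
  refine exists_sub_mem_of_mul_sub_one (C.ρ0 R) (C.exists_T_pow_mul R) (c := c) ?_ a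
  show C.T R * C.ρ0 R c - 1 ∈ P.zeroIdeal x
  rw [← C.ρ0_T0, ← map_mul, ← map_one (C.ρ0 R), ← map_sub, ← hc, sub_add_cancel_right, map_neg]
  exact neg_mem (P.ρ0_eval_mem x ψ)

theorem exists_sub_ρ1_mem {s : P.H0} (h1 : Function.Surjective (P.cut1 s.1.2)) (a : C.RB01 R) :
    ∃ u, a - C.ρ1 R u ∈ P.zeroIdeal s.1.1 := by
  obtain ⟨⟨ψ, c⟩, hc⟩ := h1 1
  rw [cut1_apply] at hc
  refine exists_sub_mem_of_mul_sub_one (C.ρ1 R) (C.exists_T'_pow_mul R) (c := c) ?_ a
  show C.T' R * C.ρ1 R c - 1 ∈ P.zeroIdeal s.1.1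
  rw [← C.ρ1_T1, ← map_mul, ← map_one (C.ρ1 R), ← map_sub, ← hc, sub_add_cancel_right, map_neg]
  exact neg_mem (P.ρ1_eval_mem s ψ)

end Pre

/-- `H¹` of the structure sheaf over any base is finite projective. -/
theorem finite_projective_unit_H1 :
    Module.Finite R (unitPre C R).H1 ∧ Module.Projective R (unitPre C R).H1 := by
  have : Module.Finite (C.RB0 k) (unitPre C k).N0 :=
    inferInstanceAs (Module.Finite (C.RB0 k) (C.RB0 k))
  have : Module.Finite k (unitPre C k).H1 := (unitPre C k).finite_H1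
  exact ⟨Module.Finite.equiv (unitBaseChange C k R).h1Equiv.symm,
    Module.Projective.of_equiv (unitBaseChange C k R).h1Equiv.symm⟩

/-- The functions on the zeros of a section away from the zeros of the parameters are finite over
the base. -/
theorem Datum.finite_zeros (L : Datum C R) (s : L.toPre.H0)
    (h0 : Function.Surjective (L.toPre.cut0 s.1.1))
    (h1 : Function.Surjective (L.toPre.cut1 s.1.2)) :
    Module.Finite R (C.RB01 R ⧸ (L.toPre.zeroIdeal s.1.1).restrictScalars R) := by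
  classical
  let Q := L.toPre.dualPre
  have : Module.Finite (C.RB0 R) Q.N0 :=
    inferInstanceAs (Module.Finite (C.RB0 R) L.dual.toPre.N0)
  have : Module.Finite R Q.H1 := Q.finite_H1
  obtain ⟨_, _⟩ := finite_projective_unit_H1 (C := C) (R := R)
  have : Module.FinitePresentation R (unitPre C R).H1 :=
    Module.finitePresentation_of_projective R _
  let ε := L.toPre.sectionHom s
  obtain ⟨U, hU, -, hlift⟩ := exists_fg_lift Q.diff (unitPre C R).diff (ε.φ01.restrictScalars R)
    (fun q => ⟨ε.prod q, ε.diff_prod q⟩) fun z => by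
      change C.RB01 R at z
      obtain ⟨u, χ, hχ⟩ := L.toPre.exists_sub_ρ0_mem h0 z
      refine ⟨χ, (u, 0), ?_⟩
      rw [Pre.diff_apply]
      show χ (L.f0 s.1.1) + (C.ρ0 R u - C.ρ1 R 0) = z
      rw [show χ (L.f0 s.1.1) = z - C.ρ0 R u from hχ, map_zero]
      ring
  let J : Submodule R (C.RB01 R) := (L.toPre.zeroIdeal s.1.1).restrictScalars R
  let V : Submodule R (C.RB01 R) := Submodule.span R {1} ⊔
    U.map ((C.ρ0 R).toLinearMap ∘ₗ LinearMap.fst R _ _)
  suffices htop : V ⊔ J = ⊤ by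
    refine ⟨?_⟩
    have h := ((Submodule.fg_span_singleton (1 : C.RB01 R)).sup (hU.map _) : V.FG).map J.mkQ
    rwa [(Submodule.map_mkQ_eq_top _ _).mpr (by rwa [sup_comm])] at h
  refine eq_top_iff.mpr fun a _ => ?_
  obtain ⟨u, hu⟩ := L.toPre.exists_sub_ρ0_mem h0 a
  obtain ⟨w, hw⟩ := L.toPre.exists_sub_ρ1_mem h1 a
  obtain ⟨χ, hχ⟩ : C.ρ0 R u - C.ρ1 R w ∈ L.toPre.zeroIdeal s.1.1 := by
    convert sub_mem hw hu using 1
    ring
  obtain ⟨κ, ⟨u', w'⟩, hu', huw⟩ := hlift χ ⟨(u, w), by rw [Pre.diff_apply]; exact hχ.symm⟩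
  rw [map_sub, show (ε.φ01.restrictScalars R) (Q.diff κ) = (unitPre C R).diff (ε.prod κ) from
    (ε.diff_prod κ).symm, Pre.diff_apply, Pre.diff_apply] at huw
  change C.RB0 R at u'
  change C.RB1 R at w'
  let p : C.RB0 R := ε.φ0 κ.1
  let q : C.RB1 R := ε.φ1 κ.2
  have heq : C.ρ0 R (u - u' - p) = C.ρ1 R (w - w' - q) := by
    have h : C.ρ0 R u' - C.ρ1 R w' = C.ρ0 R u - C.ρ1 R w - (C.ρ0 R p - C.ρ1 R q) :=
      huw.trans (congrArg (· - _) hχ)
    rw [map_sub, map_sub, map_sub, map_sub]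
    linear_combination -h
  obtain ⟨r, hr, -⟩ := C.exists_eq_of_ρ_eq R heq
  have hmem : a - C.ρ0 R u + C.ρ0 R p + (algebraMap R (C.RB01 R) r + C.ρ0 R u') ∈ V ⊔ J := by
    refine add_mem (Submodule.mem_sup_right (add_mem hu (L.toPre.ρ0_eval_mem _ κ.1)))
      (Submodule.mem_sup_left (add_mem (Submodule.mem_sup_left ?_)
        (Submodule.mem_sup_right ⟨(u', w'), hu', rfl⟩)))
    rw [Algebra.algebraMap_eq_smul_one]
    exact Submodule.smul_mem _ r (Submodule.mem_span_singleton_self _)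
  convert hmem using 1
  rw [← (C.ρ0 R).commutes r, ← hr, map_sub, map_sub]
  ring

/-- The cokernel of the values and the combinations on the overlap is finite over the base. -/
theorem Datum.finite_coker_cut01 (L : Datum C R) (s : L.toPre.H0) {ι : Type u} [Fintype ι]
    (e : ι → C.B01) (h0 : Function.Surjective (L.toPre.cut0 s.1.1))
    (h1 : Function.Surjective (L.toPre.cut1 s.1.2)) :
    Module.Finite R (C.RB01 R ⧸ LinearMap.range (L.toPre.cut01 e (L.f0 s.1.1))) := by
  have := L.finite_zeros s h0 h1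
  refine Module.Finite.of_surjective
      (Submodule.factor (p := (L.toPre.zeroIdeal s.1.1).restrictScalars R)
    ?_) (Submodule.factor_surjective _)
  rintro _ ⟨χ, rfl⟩
  exact ⟨(χ, 0), by simp⟩

end Fermat.Agent.Pic.Cech

end
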