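import Fermat.Agent.Pic.Cech.Cuts

/-!
# Cutting sections and base change

The condition that a section cuts out a family passes to base changes, is reflected by faithfully
flat ones, and is invariant under isomorphisms and unit multiples.
-/

noncomputable section

open TensorProduct

namespace Fermat.Agent.Pic.Cech

universe u

variable {k : Type u} [Field k] {C : Cover k} {R R' : Type u} [CommRing R] [Algebra k R]
  [CommRing R'] [Algebra k R'] [Algebra R R'] [IsScalarTower k R R']

section Square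

variable {M D Z M' D' Z' : Type u} [AddCommGroup M] [Module R M] [AddCommGroup D] [Module R D]
  [AddCommGroup Z] [Module R Z] [AddCommGroup M'] [Module R' M'] [AddCommGroup D'] [Module R' D']
  [AddCommGroup Z'] [Module R' Z'] {f : M →ₗ[R] Z} {g : D →ₗ[R] Z} {f' : M' →ₗ[R'] Z'}
  {g' : D' →ₗ[R'] Z'} (eM : R' ⊗[R] M ≃ₗ[R'] M') (eD : R' ⊗[R] D ≃ₗ[R'] D')
  (eZ : R' ⊗[R] Z ≃ₗ[R'] Z') (hf : ∀ m, f' (eM (1 ⊗ₜ m)) = eZ (1 ⊗ₜ f m))
  (hg : ∀ d, g' (eD (1 ⊗ₜ d)) = eZ (1 ⊗ₜ g d))

omit [Algebra k R] [Algebra k R'] [IsScalarTower k R R'] in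
include hf hg in
/-- A sum of base changed maps is surjective, or bijective, iff the base change of the sum is. -/
theorem coprod_baseChange :
    (Function.Surjective (f'.coprod g') ↔ Function.Surjective ((f.coprod g).baseChange R')) ∧
      (Function.Bijective (f'.coprod g') ↔
        Function.Bijective ((f.coprod g).baseChange R')) := by
  let eP : R' ⊗[R] (M × D) ≃ₗ[R'] M' × D' :=
    TensorProduct.prodRight R R' R' M D ≪≫ₗ eM.prodCongr eD
  have h : ∀ w, f'.coprod g' (eP w) = eZ ((f.coprod g).baseChange R' w) := fun w => by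
    induction w using TensorProduct.induction_on with
    | zero => simp
    | tmul a q =>
      rw [show a ⊗ₜ[R] q = a • ((1 : R') ⊗ₜ[R] q) by rw [smul_tmul', smul_eq_mul, mul_one],
        map_smul, map_smul, map_smul, map_smul]
      congr 1
      simp [eP, hf, hg, tmul_add]
    | add u v hu hv => simp only [map_add, hu, hv]
  have heq : eZ.symm ∘ (f'.coprod g') ∘ eP = (f.coprod g).baseChange R' :=
    funext fun w => by rw [Function.comp_apply, Function.comp_apply, h, eZ.symm_apply_apply]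
  rw [← heq]
  exact ⟨((Equiv.comp_surjective _ eZ.symm.toEquiv).trans
      (Equiv.surjective_comp eP.toEquiv _)).symm,
    ((Equiv.comp_bijective _ eZ.symm.toEquiv).trans
      (Equiv.bijective_comp eP.toEquiv _)).symm⟩

end Square

section Chart

variable {B : Type u} [CommRing B] [Algebra k B]

theorem cancel_one_tmul (t : R ⊗[k] B) :
    AlgebraTensorModule.cancelBaseChange k R R' R' B ((1 : R') ⊗ₜ t) = chartMap k R R' B t := by
  rw [cancelBaseChange_tmul_eq, ← Algebra.TensorProduct.one_def, one_mul]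

variable {N N' : Type u} [AddCommGroup N] [Module R N] [Module (R ⊗[k] B) N]
  [IsScalarTower R (R ⊗[k] B) N] [AddCommGroup N'] [Module R' N'] [Module (R' ⊗[k] B) N']
  [IsScalarTower R' (R' ⊗[k] B) N'] (b : N →ₛₗ[((chartMap k R R' B)).toRingHom] N')
  (he : ∃ e : R' ⊗[R] N ≃ₗ[R'] N', ∀ x, e (1 ⊗ₜ x) = b x)
  [Module.Finite (R ⊗[k] B) N] [Module.Projective (R ⊗[k] B) N]

include he in
/-- Evaluation at a section commutes with base change. -/
theorem exists_eval_square (x : N) :
    ∃ E : R' ⊗[R] Module.Dual (R ⊗[k] B) N ≃ₗ[R'] Module.Dual (R' ⊗[k] B) N',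
      ∀ ψ, (Module.Dual.eval (R' ⊗[k] B) N' (b x)).restrictScalars R' (E (1 ⊗ₜ ψ)) =
        AlgebraTensorModule.cancelBaseChange k R R' R' B
          (1 ⊗ₜ (Module.Dual.eval (R ⊗[k] B) N x).restrictScalars R ψ) := by
  obtain ⟨E, hE⟩ := exists_dualChart_equiv b he
  refine ⟨E, fun ψ => ?_⟩
  rw [LinearMap.restrictScalars_apply, LinearMap.restrictScalars_apply, Module.Dual.eval_apply,
    Module.Dual.eval_apply, hE, dualChart_apply, cancel_one_tmul]

end Chart

namespace BaseChange

variable {L : Datum C R} {M : Datum C R'} (h : BaseChange L.toPre M.toPre)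

/-- The image of a section under base change. -/
def sectionMap {P : Pre C R} {P' : Pre C R'} (h : BaseChange P P') (s : P.H0) : P'.H0 :=
  ⟨(h.b0 s.1.1, h.b1 s.1.2), by
    rw [Pre.mem_H0, ← h.comm0, ← h.comm1, P.mem_H0.mp s.2]⟩

variable (s : L.toPre.H0) {ι : Type u} [Fintype ι] (e : ι → C.B01)

omit [Fintype ι] in
theorem surjective_cut0_iff :
    Function.Surjective (M.toPre.cut0 (h.sectionMap s).1.1) ↔
      Function.Surjective ((L.toPre.cut0 s.1.1).baseChange R') := by
  obtain ⟨E, hE⟩ := exists_eval_square h.b0 h.exists_e0 s.1.1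
  refine (coprod_baseChange E (AlgebraTensorModule.cancelBaseChange k R R' R' C.B0)
    (AlgebraTensorModule.cancelBaseChange k R R' R' C.B0) hE fun c => ?_).1
  rw [cancel_one_tmul, cancel_one_tmul, LinearMap.mulLeft_apply, LinearMap.mulLeft_apply,
    map_mul (chartMap k R R' C.B0)]
  congr 1
  simp

omit [Fintype ι] in
theorem surjective_cut1_iff :
    Function.Surjective (M.toPre.cut1 (h.sectionMap s).1.2) ↔
      Function.Surjective ((L.toPre.cut1 s.1.2).baseChange R') := by
  obtain ⟨E, hE⟩ := exists_eval_square h.b1 h.exists_e1 s.1.2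
  refine (coprod_baseChange E (AlgebraTensorModule.cancelBaseChange k R R' R' C.B1)
    (AlgebraTensorModule.cancelBaseChange k R R' R' C.B1) hE fun c => ?_).1
  rw [cancel_one_tmul, cancel_one_tmul, LinearMap.mulLeft_apply, LinearMap.mulLeft_apply,
    map_mul (chartMap k R R' C.B1)]
  congr 1
  simp

theorem cut01_iff :
    (Function.Surjective (M.toPre.cut01 e (M.f0 (h.sectionMap s).1.1)) ↔
        Function.Surjective ((L.toPre.cut01 e (L.f0 s.1.1)).baseChange R')) ∧
      (Function.Bijective (M.toPre.cut01 e (M.f0 (h.sectionMap s).1.1)) ↔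
        Function.Bijective ((L.toPre.cut01 e (L.f0 s.1.1)).baseChange R')) := by
  classical
  obtain ⟨_, _⟩ := L.toPre.finite_projective01
  obtain ⟨E, hE⟩ := exists_eval_square h.b01 h.exists_e01 (L.f0 s.1.1)
  have hz : M.f0 (h.sectionMap s).1.1 = h.b01 (L.f0 s.1.1) := (h.comm0 s.1.1).symm
  rw [hz]
  refine coprod_baseChange E (TensorProduct.piScalarRight R R' R' ι)
    (AlgebraTensorModule.cancelBaseChange k R R' R' C.B01) hE fun v => ?_
  rw [cancel_one_tmul, TensorProduct.piScalarRight_apply, TensorProduct.piScalarRightHom_tmul]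
  simp only [Hilb.Pt.σ_apply, map_sum, Algebra.TensorProduct.map_tmul, AlgHom.id_apply,
    IsScalarTower.coe_toAlgHom', Algebra.smul_def, mul_one]

/-- Cutting sections stay cutting after base change. -/
theorem cuts (hs : L.toPre.Cuts e s) : M.toPre.Cuts e (h.sectionMap s) where
  surj0 := (h.surjective_cut0_iff s).mpr (LinearMap.lTensor_surjective R' hs.surj0)
  surj1 := (h.surjective_cut1_iff s).mpr (LinearMap.lTensor_surjective R' hs.surj1)
  bij01 := (h.cut01_iff s e).2.mpr
    ((LinearEquiv.ofBijective _ hs.bij01).baseChange R R' _ _).bijective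

end BaseChange

namespace Pre

variable {P P' : Pre C R} {ι : Type u} [Fintype ι] (e : ι → C.B01)

/-- Isomorphisms preserve cutting. -/
theorem Cuts.map {s : P.H0} (hs : P.Cuts e s) (E : P.Equiv P') :
    P'.Cuts e (E.h0 s) := by
  have hz : P'.f0 (E.h0 s).1.1 = E.e01 (P.f0 s.1.1) := (E.comm0 s.1.1).symm
  refine ⟨fun a => ?_, fun a => ?_, ?_⟩
  · obtain ⟨q, rfl⟩ := hs.surj0 a
    refine ⟨(E.e0.symm.dualMap q.1, q.2), ?_⟩
    show q.1 (E.e0.symm (E.e0 s.1.1)) + _ = q.1 s.1.1 + _
    rw [E.e0.symm_apply_apply]; rfl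
  · obtain ⟨q, rfl⟩ := hs.surj1 a
    refine ⟨(E.e1.symm.dualMap q.1, q.2), ?_⟩
    show q.1 (E.e1.symm (E.e1 s.1.2)) + _ = q.1 s.1.2 + _
    rw [E.e1.symm_apply_apply]; rfl
  · rw [hz]
    let D : (Module.Dual (C.RB01 R) P'.N01 × (ι → R)) ≃ₗ[R]
        Module.Dual (C.RB01 R) P.N01 × (ι → R) :=
      (E.e01.dualMap.restrictScalars R).prodCongr (LinearEquiv.refl R (ι → R))
    have h : ⇑(P'.cut01 e (E.e01 (P.f0 s.1.1))) = P.cut01 e (P.f0 s.1.1) ∘ D := by
      funext q
      rw [Function.comp_apply, cut01_apply, cut01_apply]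
      rfl
    rw [h]
    exact hs.bij01.comp D.bijective

theorem Cuts.smul {s : P.H0} (hs : P.Cuts e s) {a : R} (ha : IsUnit a) : P.Cuts e (a • s) := by
  obtain ⟨a, rfl⟩ := ha
  refine ⟨fun c => ?_, fun c => ?_, ?_⟩
  · obtain ⟨q, rfl⟩ := hs.surj0 c
    refine ⟨((↑a⁻¹ : R) • q.1, q.2), ?_⟩
    show ((↑a⁻¹ : R) • q.1) ((a : R) • s.1.1) + _ = q.1 s.1.1 + _
    rw [LinearMap.smul_apply, LinearMap.map_smul_of_tower, smul_smul, Units.inv_mul, one_smul]; rfl
  · obtain ⟨q, rfl⟩ := hs.surj1 c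
    refine ⟨((↑a⁻¹ : R) • q.1, q.2), ?_⟩
    show ((↑a⁻¹ : R) • q.1) ((a : R) • s.1.2) + _ = q.1 s.1.2 + _
    rw [LinearMap.smul_apply, LinearMap.map_smul_of_tower, smul_smul, Units.inv_mul, one_smul]; rfl
  · have h : ⇑(P.cut01 e (P.f0 ((a : R) • s).1.1)) =
        P.cut01 e (P.f0 s.1.1) ∘
          (LinearEquiv.prodCongr (LinearEquiv.smulOfUnit a) (LinearEquiv.refl R (ι → R))) := by
      funext q
      show q.1 (P.f0 ((a : R) • s.1.1)) + _ = ((a : R) • q.1) (P.f0 s.1.1) + _
      rw [P.f0_smul, LinearMap.map_smul_of_tower, LinearMap.smul_apply]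
      rfl
    rw [h]
    exact hs.bij01.comp (LinearEquiv.bijective _)

end Pre

end Fermat.Agent.Pic.Cech

end
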