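import Fermat.Agent.Pic.Cech.Cover

/-!
# Gluing data of sheaves on a cover

`Pre` is a quasi-coherent sheaf on `C` over `R` given by its modules on both charts and on the
overlap; `Datum` is one that is invertible.  Its two-term complex computes `H⁰` and `H¹`.
-/

noncomputable section

open TensorProduct

namespace Fermat.Agent.Pic.Cech

universe u

variable {k : Type u} [Field k]

/-- Modules on both charts glued on the overlap. -/
structure Pre (C : Cover k) (R : Type u) [CommRing R] [Algebra k R] where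
  /-- The module on the first chart. -/
  N0 : Type u
  /-- The module on the second chart. -/
  N1 : Type u
  /-- The module on the overlap. -/
  N01 : Type u
  [addCommGroup0 : AddCommGroup N0]
  [addCommGroup1 : AddCommGroup N1]
  [addCommGroup01 : AddCommGroup N01]
  [moduleB0 : Module (C.RB0 R) N0]
  [moduleB1 : Module (C.RB1 R) N1]
  [moduleB01 : Module (C.RB01 R) N01]
  [moduleR0 : Module R N0]
  [moduleR1 : Module R N1]
  [moduleR01 : Module R N01]
  [tower0 : IsScalarTower R (C.RB0 R) N0]
  [tower1 : IsScalarTower R (C.RB1 R) N1]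
  [tower01 : IsScalarTower R (C.RB01 R) N01]
  /-- Restriction from the first chart, a localisation. -/
  f0 : N0 →ₛₗ[(C.ρ0 R).toRingHom] N01
  /-- Restriction from the second chart, a localisation. -/
  f1 : N1 →ₛₗ[(C.ρ1 R).toRingHom] N01
  surj0 : ∀ z : N01, ∃ (n : ℕ) (x : N0), C.T R ^ n • z = f0 x
  surj1 : ∀ z : N01, ∃ (n : ℕ) (y : N1), C.T' R ^ n • z = f1 y
  ker0 : ∀ x : N0, f0 x = 0 → ∃ n : ℕ, C.T0 R ^ n • x = 0
  ker1 : ∀ y : N1, f1 y = 0 → ∃ n : ℕ, C.T1 R ^ n • y = 0

attribute [instance] Pre.addCommGroup0 Pre.addCommGroup1 Pre.addCommGroup01 Pre.moduleB0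
  Pre.moduleB1 Pre.moduleB01 Pre.moduleR0 Pre.moduleR1 Pre.moduleR01 Pre.tower0 Pre.tower1
  Pre.tower01

namespace Pre

variable {C : Cover k} {R : Type u} [CommRing R] [Algebra k R] (P : Pre C R)

theorem f0_smul (a : R) (x : P.N0) : P.f0 (a • x) = a • P.f0 x := by
  rw [← algebraMap_smul (C.RB0 R) a x, map_smulₛₗ]
  show C.ρ0 R (algebraMap R _ a) • _ = _
  rw [AlgHom.commutes, algebraMap_smul]

theorem f1_smul (a : R) (y : P.N1) : P.f1 (a • y) = a • P.f1 y := by
  rw [← algebraMap_smul (C.RB1 R) a y, map_smulₛₗ]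
  show C.ρ1 R (algebraMap R _ a) • _ = _
  rw [AlgHom.commutes, algebraMap_smul]

/-- Restriction from the first chart as an `R`-linear map. -/
def g0 : P.N0 →ₗ[R] P.N01 where
  toFun := P.f0
  map_add' := map_add P.f0
  map_smul' := P.f0_smul

/-- Restriction from the second chart as an `R`-linear map. -/
def g1 : P.N1 →ₗ[R] P.N01 where
  toFun := P.f1
  map_add' := map_add P.f1
  map_smul' := P.f1_smul

@[simp] theorem g0_apply (x : P.N0) : P.g0 x = P.f0 x := rfl

@[simp] theorem g1_apply (y : P.N1) : P.g1 y = P.f1 y := rfl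

/-- The differential of the complex. -/
def diff : P.N0 × P.N1 →ₗ[R] P.N01 := P.g0.coprod (-P.g1)

theorem diff_apply (q : P.N0 × P.N1) : P.diff q = P.f0 q.1 - P.f1 q.2 := by
  simp [diff, sub_eq_add_neg]

/-- The global sections. -/
abbrev H0 : Submodule R (P.N0 × P.N1) := LinearMap.ker P.diff

theorem mem_H0 {q : P.N0 × P.N1} : q ∈ P.H0 ↔ P.f0 q.1 = P.f1 q.2 := by
  rw [LinearMap.mem_ker, diff_apply, sub_eq_zero]

/-- The first cohomology. -/
abbrev H1 := P.N01 ⧸ LinearMap.range P.diff

theorem f0_mem_range (x : P.N0) : P.f0 x ∈ LinearMap.range P.diff := ⟨(x, 0), by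
  rw [diff_apply, map_zero P.f1, sub_zero]⟩

theorem f1_mem_range (y : P.N1) : P.f1 y ∈ LinearMap.range P.diff := ⟨(0, -y), by
  rw [diff_apply, map_zero P.f0, map_neg P.f1, zero_sub, neg_neg]⟩

/-- The twist by the `m`th power of the parameter. -/
def twist (m : ℕ) : Pre C R where
  N0 := P.N0
  N1 := P.N1
  N01 := P.N01
  f0 := P.f0
  f1 := (C.T R ^ m) • P.f1
  surj0 := P.surj0
  surj1 z := by
    obtain ⟨n, y, hy⟩ := P.surj1 (C.T' R ^ m • z)
    refine ⟨n, y, ?_⟩
    rw [LinearMap.smul_apply, ← hy, smul_smul, smul_smul, mul_right_comm, C.T_pow_mul_T'_pow,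
      one_mul]
  ker0 := P.ker0
  ker1 y hy := by
    refine P.ker1 y ?_
    rw [LinearMap.smul_apply] at hy
    have h := congrArg (C.T' R ^ m • ·) hy
    simp only [smul_zero, smul_smul, C.T'_pow_mul_T_pow, one_smul] at h
    exact h

@[simp] theorem twist_f0 (m : ℕ) (x : P.N0) : (P.twist m).f0 x = P.f0 x := rfl

@[simp] theorem twist_f1 (m : ℕ) (y : P.N1) : (P.twist m).f1 y = C.T R ^ m • P.f1 y := rfl

end Pre

variable (C : Cover k) (R : Type u) [CommRing R] [Algebra k R]

/-- The structure sheaf. -/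
def unitPre : Pre C R where
  N0 := C.RB0 R
  N1 := C.RB1 R
  N01 := C.RB01 R
  f0 := { toFun := C.ρ0 R, map_add' := map_add _, map_smul' := fun a x => map_mul (C.ρ0 R) a x }
  f1 := { toFun := C.ρ1 R, map_add' := map_add _, map_smul' := fun a x => map_mul (C.ρ1 R) a x }
  surj0 z := C.exists_T_pow_mul R z
  surj1 z := C.exists_T'_pow_mul R z
  ker0 x hx := ⟨0, by rw [pow_zero, one_smul]; exact C.ρ0_injective R (hx.trans (map_zero _).symm)⟩
  ker1 y hy := ⟨0, by rw [pow_zero, one_smul]; exact C.ρ1_injective R (hy.trans (map_zero _).symm)⟩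

/-- An invertible sheaf. -/
structure Datum extends Pre C R where
  invertible0 : Module.Invertible (C.RB0 R) N0
  invertible1 : Module.Invertible (C.RB1 R) N1

attribute [instance] Datum.invertible0 Datum.invertible1

/-- The trivial invertible sheaf. -/
def unitDatum : Datum C R where
  toPre := unitPre C R
  invertible0 := inferInstanceAs (Module.Invertible (C.RB0 R) (C.RB0 R))
  invertible1 := inferInstanceAs (Module.Invertible (C.RB1 R) (C.RB1 R))

/-- The twist of an invertible sheaf. -/
def Datum.twist {C : Cover k} {R : Type u} [CommRing R] [Algebra k R] (L : Datum C R) (m : ℕ) :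
    Datum C R where
  toPre := L.toPre.twist m
  invertible0 := L.invertible0
  invertible1 := L.invertible1

end Fermat.Agent.Pic.Cech

end
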