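import Fermat.Agent.Pic.Cech.Dual
import Fermat.Agent.Pic.Hilb.Invertible

/-!
# The divisor of a finite quotient of the overlap

A quotient of `B01` with finite basis is closed in the curve: its ideals on the two charts are
those of quotients with scaled bases, so they give an invertible datum, contained in the
structure sheaf and natural in the base.
-/

noncomputable section

open TensorProduct

namespace Fermat.Agent.Pic.Cech

universe u

variable {k : Type u} [Field k]

namespace Cover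

/-- The charts are smooth affine curves. -/
class SmoothCharts (C : Cover k) : Prop where
  dedekind0 : IsDedekindDomain C.B0
  dedekind1 : IsDedekindDomain C.B1
  dedekind01 : IsDedekindDomain C.B01
  not_isField0 : ¬ IsField C.B0
  not_isField1 : ¬ IsField C.B1
  not_isField01 : ¬ IsField C.B01

variable (C : Cover k)

theorem finiteType01 : Algebra.FiniteType k C.B01 := by
  have := C.finiteType0
  obtain ⟨s, hs⟩ := Algebra.FiniteType.out (R := k) (A := C.B0)
  classical
  refine ⟨⟨insert (C.r1 C.t1) (s.image C.r0), eq_top_iff.mpr fun z _ => ?_⟩⟩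
  obtain ⟨n, b, hb⟩ := C.surj0 z
  have hz : z = C.r1 C.t1 ^ n * C.r0 b := by
    rw [← hb, ← mul_assoc, ← mul_pow, mul_comm (C.r1 C.t1), C.mul_t, one_pow, one_mul]
  have hrange : (Algebra.adjoin k (s : Set C.B0)).map C.r0 ≤
      Algebra.adjoin k (↑(insert (C.r1 C.t1) (s.image C.r0)) : Set C.B01) := by
    rw [AlgHom.map_adjoin]
    exact Algebra.adjoin_mono (by simp)
  rw [hz]
  exact mul_mem (pow_mem (Algebra.subset_adjoin (by simp)) n)
    (hrange ⟨b, hs ▸ Algebra.mem_top, rfl⟩)

variable {ι : Type u} [Fintype ι] (e : ι → C.B01)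

/-- A power of the parameter scales the family to the first chart. -/
theorem exists_basis0 : ∃ (n : ℕ) (e₀ : ι → C.B0), ∀ i, C.r0 C.t0 ^ n * e i = C.r0 (e₀ i) :=
  exists_pow_mul_forall C.r0 rfl C.surj0 e

theorem exists_basis1 : ∃ (n : ℕ) (e₁ : ι → C.B1), ∀ i, C.r1 C.t1 ^ n * e i = C.r1 (e₁ i) :=
  exists_pow_mul_forall C.r1 rfl C.surj1 e

/-- The exponent scaling the basis to the first chart. -/
def exp0 : ℕ := (C.exists_basis0 e).choose

/-- The scaled basis on the first chart. -/
def basis0 : ι → C.B0 := (C.exists_basis0 e).choose_spec.choose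

/-- The exponent scaling the basis to the second chart. -/
def exp1 : ℕ := (C.exists_basis1 e).choose

/-- The scaled basis on the second chart. -/
def basis1 : ι → C.B1 := (C.exists_basis1 e).choose_spec.choose

variable (R : Type u) [CommRing R] [Algebra k R]

theorem ρ0_σ (v : ι → R) :
    C.ρ0 R (Hilb.Pt.σ (C.basis0 e) R v) = C.T R ^ C.exp0 e * Hilb.Pt.σ e R v := by
  rw [Hilb.Pt.σ_apply, Hilb.Pt.σ_apply, map_sum, Finset.mul_sum]
  refine Finset.sum_congr rfl fun i _ => ?_
  rw [ρ0_tmul, Algebra.TensorProduct.tmul_pow, one_pow, Algebra.TensorProduct.tmul_mul_tmul,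
      one_mul]
  exact congrArg _ ((C.exists_basis0 e).choose_spec.choose_spec i).symm

theorem ρ1_σ (v : ι → R) :
    C.ρ1 R (Hilb.Pt.σ (C.basis1 e) R v) = C.T' R ^ C.exp1 e * Hilb.Pt.σ e R v := by
  rw [Hilb.Pt.σ_apply, Hilb.Pt.σ_apply, map_sum, Finset.mul_sum]
  refine Finset.sum_congr rfl fun i _ => ?_
  rw [ρ1_tmul, Algebra.TensorProduct.tmul_pow, one_pow, Algebra.TensorProduct.tmul_mul_tmul,
      one_mul]
  exact congrArg _ ((C.exists_basis1 e).choose_spec.choose_spec i).symm

end Cover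

variable {C : Cover k} {ι : Type u} [Fintype ι] [DecidableEq ι] {e : ι → C.B01}
  {R : Type u} [CommRing R] [Algebra k R] (x : Hilb.Pt k e R)

/-- A unit times the span of the basis still complements the ideal. -/
theorem bijective_of_unit {B : Type u} [CommRing B] [Algebra k B] (ρ : R ⊗[k] B →ₐ[R] C.RB01 R)
    (e' : ι → B) {u u' : C.RB01 R} (hu : u' * u = 1)
    (hσ : ∀ v, ρ (Hilb.Pt.σ e' R v) = u * Hilb.Pt.σ e R v) :
    Function.Bijective
      ((Submodule.restrictScalars R (x.ideal.comap ρ)).mkQ ∘ₗ Hilb.Pt.σ e' R) := by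
  refine ⟨(injective_iff_map_eq_zero _).mpr fun v hv => ?_, fun q => ?_⟩
  · rw [LinearMap.comp_apply, Submodule.mkQ_apply, Submodule.Quotient.mk_eq_zero] at hv
    have h : ρ (Hilb.Pt.σ e' R v) ∈ x.ideal := hv
    rw [hσ] at h
    have h' := Ideal.mul_mem_left _ u' h
    rw [← mul_assoc, hu, one_mul, Hilb.Pt.mem_ideal, x.πR_σ] at h'
    exact h'
  · obtain ⟨b, rfl⟩ := Submodule.mkQ_surjective _ q
    refine ⟨x.πR (u' * ρ b), (Submodule.Quotient.eq _).mpr ?_⟩
    show ρ (Hilb.Pt.σ e' R (x.πR (u' * ρ b)) - b) ∈ x.ideal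
    have h := Ideal.mul_mem_left _ u (x.sub_σ_mem_ideal (u' * ρ b))
    rw [map_sub, hσ]
    convert neg_mem h using 1
    linear_combination (ρ b) * hu

/-- The quotient on the first chart. -/
def pt0 : Hilb.Pt k (C.basis0 e) R :=
  Hilb.Pt.ofIdeal _ (x.ideal.comap (C.ρ0 R))
    (bijective_of_unit x (C.ρ0 R) _ (C.T'_pow_mul_T_pow R _) (C.ρ0_σ e R))

/-- The quotient on the second chart. -/
def pt1 : Hilb.Pt k (C.basis1 e) R :=
  Hilb.Pt.ofIdeal _ (x.ideal.comap (C.ρ1 R))
    (bijective_of_unit x (C.ρ1 R) _ (C.T_pow_mul_T'_pow R _) (C.ρ1_σ e R))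

theorem ideal_pt0 : (pt0 x).ideal = x.ideal.comap (C.ρ0 R) := Hilb.Pt.ideal_ofIdeal _ _

theorem ideal_pt1 : (pt1 x).ideal = x.ideal.comap (C.ρ1 R) := Hilb.Pt.ideal_ofIdeal _ _

theorem ρ0_mem_ideal {b : C.RB0 R} (hb : b ∈ (pt0 x).ideal) : C.ρ0 R b ∈ x.ideal := by
  rw [ideal_pt0] at hb; exact hb

theorem ρ1_mem_ideal {b : C.RB1 R} (hb : b ∈ (pt1 x).ideal) : C.ρ1 R b ∈ x.ideal := by
  rw [ideal_pt1] at hb; exact hb

/-- The ideal sheaf of the divisor. -/
def idealPre : Pre C R where
  N0 := (pt0 x).ideal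
  N1 := (pt1 x).ideal
  N01 := x.ideal
  f0 :=
    { toFun := fun b => ⟨C.ρ0 R b.1, ρ0_mem_ideal x b.2⟩
      map_add' := fun a b => Subtype.ext (map_add (C.ρ0 R) _ _)
      map_smul' := fun a b => Subtype.ext (map_mul (C.ρ0 R) a b.1) }
  f1 :=
    { toFun := fun b => ⟨C.ρ1 R b.1, ρ1_mem_ideal x b.2⟩
      map_add' := fun a b => Subtype.ext (map_add (C.ρ1 R) _ _)
      map_smul' := fun a b => Subtype.ext (map_mul (C.ρ1 R) a b.1) }
  surj0 z := by
    obtain ⟨n, b, hb⟩ := C.exists_T_pow_mul R z.1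
    refine ⟨n, ⟨b, ?_⟩, Subtype.ext hb⟩
    rw [ideal_pt0, Ideal.mem_comap, ← hb]
    exact Ideal.mul_mem_left _ _ z.2
  surj1 z := by
    obtain ⟨n, b, hb⟩ := C.exists_T'_pow_mul R z.1
    refine ⟨n, ⟨b, ?_⟩, Subtype.ext hb⟩
    rw [ideal_pt1, Ideal.mem_comap, ← hb]
    exact Ideal.mul_mem_left _ _ z.2
  ker0 b hb := ⟨0, Subtype.ext <| by
    rw [pow_zero, one_smul]
    exact C.ρ0_injective R ((congrArg Subtype.val hb).trans (map_zero _).symm)⟩
  ker1 b hb := ⟨0, Subtype.ext <| by
    rw [pow_zero, one_smul]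
    exact C.ρ1_injective R ((congrArg Subtype.val hb).trans (map_zero _).symm)⟩

/-- The inclusion in the structure sheaf. -/
def idealIncl : (idealPre x).Hom (unitPre C R) where
  φ0 := Submodule.subtype (pt0 x).ideal
  φ1 := Submodule.subtype (pt1 x).ideal
  φ01 := Submodule.subtype x.ideal
  comm0 _ := rfl
  comm1 _ := rfl

variable [IsAlgClosed k] [C.SmoothCharts]

/-- The ideal sheaf as an invertible datum. -/
def idealDatum : Datum C R where
  toPre := idealPre x
  invertible0 := by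
    have := C.finiteType0
    have := Cover.SmoothCharts.dedekind0 (C := C)
    exact (pt0 x).invertible_ideal Cover.SmoothCharts.not_isField0
  invertible1 := by
    have := C.finiteType1
    have := Cover.SmoothCharts.dedekind1 (C := C)
    exact (pt1 x).invertible_ideal Cover.SmoothCharts.not_isField1

/-- The invertible sheaf of the divisor. -/
def divisorDatum : Datum C R := (idealDatum x).dual

/-- The canonical section of the divisor. -/
def canonicalSection : (divisorDatum x).toPre.H0 := (idealDatum x).toPre.homSection (idealIncl x)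

section BaseChange

variable {R' : Type u} [CommRing R'] [Algebra k R'] [Algebra R R'] [IsScalarTower k R R']

omit [IsAlgClosed k] [C.SmoothCharts] in
/-- The quotient on the first chart is natural in the base. -/
theorem pt0_map :
    (pt0 x).map (IsScalarTower.toAlgHom k R R') =
      pt0 (x.map (IsScalarTower.toAlgHom k R R')) := by
  refine Hilb.Pt.eq_of_ideal_le ?_
  rw [Hilb.Pt.ideal_map, Ideal.map_le_iff_le_comap]
  intro b hb
  rw [Ideal.mem_comap, ideal_pt0, Ideal.mem_comap]
  show C.ρ0 R' (C.bc0 R R' b) ∈ _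
  rw [← bc01_ρ0]
  exact x.scalarMap_mem_ideal _ (ρ0_mem_ideal x hb)

omit [IsAlgClosed k] [C.SmoothCharts] in
theorem pt1_map :
    (pt1 x).map (IsScalarTower.toAlgHom k R R') =
      pt1 (x.map (IsScalarTower.toAlgHom k R R')) := by
  refine Hilb.Pt.eq_of_ideal_le ?_
  rw [Hilb.Pt.ideal_map, Ideal.map_le_iff_le_comap]
  intro b hb
  rw [Ideal.mem_comap, ideal_pt1, Ideal.mem_comap]
  show C.ρ1 R' (C.bc1 R R' b) ∈ _
  rw [← bc01_ρ1]
  exact x.scalarMap_mem_ideal _ (ρ1_mem_ideal x hb)

omit [IsAlgClosed k] [C.SmoothCharts] in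
/-- The ideal sheaf is natural in the base. -/
def idealBaseChange :
    BaseChange (idealPre x) (idealPre (x.map (IsScalarTower.toAlgHom k R R'))) where
  b0 :=
    { toFun := fun b => ⟨C.bc0 R R' b.1, by
        rw [← pt0_map]; exact (pt0 x).scalarMap_mem_ideal _ b.2⟩
      map_add' := fun a b => Subtype.ext (map_add (C.bc0 R R') _ _)
      map_smul' := fun a b => Subtype.ext (map_mul (C.bc0 R R') a b.1) }
  b1 :=
    { toFun := fun b => ⟨C.bc1 R R' b.1, by
        rw [← pt1_map]; exact (pt1 x).scalarMap_mem_ideal _ b.2⟩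
      map_add' := fun a b => Subtype.ext (map_add (C.bc1 R R') _ _)
      map_smul' := fun a b => Subtype.ext (map_mul (C.bc1 R R') a b.1) }
  b01 :=
    { toFun := fun b => ⟨C.bc01 R R' b.1, x.scalarMap_mem_ideal _ b.2⟩
      map_add' := fun a b => Subtype.ext (map_add (C.bc01 R R') _ _)
      map_smul' := fun a b => Subtype.ext (map_mul (C.bc01 R R') a b.1) }
  comm0 b := Subtype.ext (bc01_ρ0 b.1)
  comm1 b := Subtype.ext (bc01_ρ1 b.1)
  exists_e0 := by
    obtain ⟨E, hE⟩ := (pt0 x).exists_idealEquiv R'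
    let c := LinearEquiv.ofEq _ _ (congrArg (fun y => y.ideal.restrictScalars R')
      (pt0_map (R' := R') x))
    exact ⟨E ≪≫ₗ c, fun b => Subtype.ext (hE b)⟩
  exists_e1 := by
    obtain ⟨E, hE⟩ := (pt1 x).exists_idealEquiv R'
    let c := LinearEquiv.ofEq _ _ (congrArg (fun y => y.ideal.restrictScalars R')
      (pt1_map (R' := R') x))
    exact ⟨E ≪≫ₗ c, fun b => Subtype.ext (hE b)⟩
  exists_e01 := by
    obtain ⟨E, hE⟩ := x.exists_idealEquiv R'
    exact ⟨E, fun b => Subtype.ext (hE b)⟩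

end BaseChange

end Fermat.Agent.Pic.Cech

end
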