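import Fermat.Agent.Pic.Cech.Hom

/-!
# The dual of an invertible datum

Functionals on a chart extend uniquely to the overlap.  A global section of a datum is the same
as a map from its dual to the structure sheaf, and a datum is its double dual.
-/

noncomputable section

open TensorProduct

namespace Fermat.Agent.Pic.Cech

universe u

/-- Values of a functional on an invertible module are symmetric. -/
theorem invertible_smul_comm {A M : Type u} [CommRing A] [AddCommGroup M] [Module A M]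
    [Module.Invertible A M] (ψ : Module.Dual A M) (a b : M) : ψ a • b = ψ b • a := by
  have h := congrArg ((TensorProduct.lid A M).toLinearMap ∘ₗ ψ.rTensor M)
    (Module.Invertible.tmul_comm (R := A) (M := M) (m₁ := a) (m₂ := b))
  simpa using h

/-- An element lies in a submodule if a power of `t` times it does and `t` is invertible modulo
the submodule. -/
theorem mem_of_pow_smul_mem {A M : Type u} [CommRing A] [AddCommGroup M] [Module A M]
    {N : Submodule A M} {t c : A} (hu : ∀ v, (1 - t * c) • v ∈ N) {n : ℕ} {v : M}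
    (h : t ^ n • v ∈ N) : v ∈ N := by
  induction n generalizing v with
  | zero => simpa using h
  | succ n ih =>
    refine ih ?_
    have e : t ^ n • v = (1 - t * c) • t ^ n • v + c • t ^ (n + 1) • v := by
      rw [smul_smul, smul_smul, ← add_smul]
      congr 1
      ring
    rw [e]
    exact N.add_mem (hu _) (N.smul_mem c h)

variable {k : Type u} [Field k]

/-- Functionals on a chart extend uniquely to its localisation. -/
theorem exists_extend {S S' : Type u} [CommRing S] [CommRing S'] (ρ : S →+* S') {t : S} {t' : S'}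
    (ht : t' * ρ t = 1)
    (hloc : ∀ a : S', ∃ (j : ℕ) (b : S), ρ t ^ j * a = ρ b) {N N' : Type u} [AddCommGroup N]
      [Module S N] [AddCommGroup N']
    [Module S' N'] (f : N →ₛₗ[ρ] N') (hsurj : ∀ z, ∃ (n : ℕ) (x : N), ρ t ^ n • z = f x)
    (hker : ∀ x, f x = 0 → ∃ n : ℕ, t ^ n • x = 0) (ψ : Module.Dual S N) :
    ∃ χ : Module.Dual S' N', ∀ x, χ (f x) = ρ (ψ x) := by
  choose n x hx using hsurj
  have key : ∀ (z : N') (m : ℕ) (y : N), ρ t ^ m • z = f y →
      t' ^ n z * ρ (ψ (x z)) = t' ^ m * ρ (ψ y) := by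
    intro z m y hy
    obtain ⟨j, hj⟩ := hker (t ^ m • x z - t ^ n z • y) (by
      rw [map_sub, map_smulₛₗ, map_smulₛₗ, map_pow, map_pow, ← hx z, ← hy, smul_smul, smul_smul,
        mul_comm, sub_self])
    have h := congrArg (fun w => ρ (ψ w)) hj
    simp only [smul_sub, map_sub, map_smul, smul_eq_mul, map_zero, map_mul, map_pow,
      sub_eq_zero] at h
    have h1 : ∀ i, t' ^ i * ρ t ^ i = 1 := fun i => by rw [← mul_pow, ht, one_pow]
    calc t' ^ n z * ρ (ψ (x z))
        = t' ^ n z * t' ^ m * t' ^ j * (ρ t ^ j * (ρ t ^ m * ρ (ψ (x z)))) := by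
          linear_combination (-(t' ^ n z * ρ (ψ (x z)) * (t' ^ m * ρ t ^ m))) * h1 j -
            (t' ^ n z * ρ (ψ (x z))) * h1 m
      _ = t' ^ n z * t' ^ m * t' ^ j * (ρ t ^ j * (ρ t ^ n z * ρ (ψ y))) := by rw [h]
      _ = t' ^ m * ρ (ψ y) := by
          linear_combination (t' ^ m * ρ (ψ y) * (t' ^ n z * ρ t ^ n z)) * h1 j +
            (t' ^ m * ρ (ψ y)) * h1 (n z)
  refine ⟨{ toFun := fun z => t' ^ n z * ρ (ψ (x z)), map_add' := fun z z' => ?_,
            map_smul' := fun a z => ?_ }, fun y => ?_⟩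
  · rw [key (z + z') (n z + n z') (t ^ n z' • x z + t ^ n z • x z') (by
      rw [map_add, map_smulₛₗ, map_smulₛₗ, map_pow, map_pow, ← hx, ← hx, smul_smul, smul_smul,
        smul_add, ← pow_add, ← pow_add, add_comm (n z') (n z)])]
    simp only [map_add, map_smul, smul_eq_mul, map_mul, map_pow]
    have h1 : ∀ i, t' ^ i * ρ t ^ i = 1 := fun i => by rw [← mul_pow, ht, one_pow]
    linear_combination (t' ^ n z * ρ (ψ (x z))) * h1 (n z') +
      (t' ^ n z' * ρ (ψ (x z'))) * h1 (n z)
  · obtain ⟨j, b, hb⟩ := hloc a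
    rw [key (a • z) (j + n z) (b • x z) (by
      rw [map_smulₛₗ, ← hx, ← hb, smul_smul, smul_smul, pow_add]
      ring_nf)]
    simp only [map_smul, smul_eq_mul, map_mul, RingHom.id_apply]
    have h1 : t' ^ j * ρ t ^ j = 1 := by rw [← mul_pow, ht, one_pow]
    rw [← hb, pow_add]
    linear_combination (a * t' ^ n z * ρ (ψ (x z))) * h1
  · show t' ^ n (f y) * ρ (ψ (x (f y))) = _
    rw [key (f y) 0 y (by rw [pow_zero, one_smul]), pow_zero, one_mul]

/-- Up to a power of the element inverted, functionals on a localisation restrict to functionals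
on the chart. -/
theorem exists_restrict {S S' : Type u} [CommRing S] [CommRing S'] (ρ : S →+* S')
    (hρ : Function.Injective ρ) {t : S} (hloc : ∀ a : S', ∃ (j : ℕ) (b : S), ρ t ^ j * a = ρ b)
    {N N' : Type u} [AddCommGroup N] [Module S N] [Module.Finite S N] [AddCommGroup N']
    [Module S' N'] (f : N →ₛₗ[ρ] N') (χ : Module.Dual S' N') :
    ∃ (n : ℕ) (ψ : Module.Dual S N), ∀ x, ρ (ψ x) = ρ t ^ n * χ (f x) := by
  obtain ⟨s, hs⟩ := Module.Finite.fg_top (R := S) (M := N)
  choose n b hb using fun x => hloc (χ (f x))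
  let m := s.sup n
  have hm : ∀ x, ∃ c, ρ c = ρ t ^ m * χ (f x) := by
    intro x
    have hx : x ∈ Submodule.span S (s : Set N) := hs ▸ Submodule.mem_top
    induction hx using Submodule.span_induction with
    | mem x hx =>
      refine ⟨t ^ (m - n x) * b x, ?_⟩
      rw [map_mul, map_pow, ← hb, ← mul_assoc, ← pow_add, Nat.sub_add_cancel (Finset.le_sup hx)]
    | zero => exact ⟨0, by rw [map_zero, map_zero f, map_zero, mul_zero]⟩
    | add x y _ _ hx hy =>
      obtain ⟨c, hc⟩ := hx
      obtain ⟨d, hd⟩ := hy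
      exact ⟨c + d, by rw [map_add, hc, hd, map_add, map_add, mul_add]⟩
    | smul a x _ hx =>
      obtain ⟨c, hc⟩ := hx
      exact ⟨a * c, by rw [map_mul, hc, map_smulₛₗ f, map_smul, smul_eq_mul, mul_left_comm]⟩
  choose c hc using hm
  exact ⟨m, { toFun := c
              map_add' := fun x y => hρ (by rw [map_add, hc, hc, hc, map_add, map_add, mul_add])
              map_smul' := fun a x => hρ (by
                rw [RingHom.id_apply, smul_eq_mul, map_mul, hc, hc, map_smulₛₗ f, map_smul,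
                  smul_eq_mul, mul_left_comm]) }, hc⟩

namespace Pre

variable {C : Cover k} {R : Type u} [CommRing R] [Algebra k R] (P : Pre C R)

/-- Functionals on the overlap are determined on the first chart. -/
theorem dual_ext01 {χ χ' : Module.Dual (C.RB01 R) P.N01} (h : ∀ x, χ (P.f0 x) = χ' (P.f0 x)) :
    χ = χ' := LinearMap.ext fun z => by
  obtain ⟨n, x, hx⟩ := P.surj0 z
  have := h x
  rw [← hx, map_smul, map_smul, smul_eq_mul, smul_eq_mul] at this
  have h' := congrArg (C.T' R ^ n * ·) this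
  simpa only [← mul_assoc, C.T'_pow_mul_T_pow, one_mul] using h'

theorem dual_ext01' {χ χ' : Module.Dual (C.RB01 R) P.N01} (h : ∀ y, χ (P.f1 y) = χ' (P.f1 y)) :
    χ = χ' := LinearMap.ext fun z => by
  obtain ⟨n, y, hy⟩ := P.surj1 z
  have := h y
  rw [← hy, map_smul, map_smul, smul_eq_mul, smul_eq_mul] at this
  have h' := congrArg (C.T R ^ n * ·) this
  simpa only [← mul_assoc, C.T_pow_mul_T'_pow, one_mul] using h'

/-- A functional on the first chart extends to the overlap. -/
theorem exists_extend0 (ψ : Module.Dual (C.RB0 R) P.N0) :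
    ∃ χ : Module.Dual (C.RB01 R) P.N01, ∀ x, χ (P.f0 x) = C.ρ0 R (ψ x) :=
  exists_extend (C.ρ0 R).toRingHom (t' := C.T' R) (C.T'_mul_T R)
    (fun a => C.exists_T_pow_mul R a) P.f0 P.surj0 P.ker0 ψ

theorem exists_extend1 (ψ : Module.Dual (C.RB1 R) P.N1) :
    ∃ χ : Module.Dual (C.RB01 R) P.N01, ∀ y, χ (P.f1 y) = C.ρ1 R (ψ y) :=
  exists_extend (C.ρ1 R).toRingHom (t' := C.T R) (C.T_mul_T' R)
    (fun a => C.exists_T'_pow_mul R a) P.f1 P.surj1 P.ker1 ψ

/-- The extension of a functional from the first chart. -/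
def dualF0 : Module.Dual (C.RB0 R) P.N0 →ₛₗ[(C.ρ0 R).toRingHom] Module.Dual (C.RB01 R) P.N01 where
  toFun ψ := (P.exists_extend0 ψ).choose
  map_add' ψ ψ' := P.dual_ext01 fun x => by
    rw [LinearMap.add_apply, (P.exists_extend0 _).choose_spec, (P.exists_extend0 ψ).choose_spec,
      (P.exists_extend0 ψ').choose_spec, LinearMap.add_apply, map_add]
  map_smul' a ψ := P.dual_ext01 fun x => by
    rw [LinearMap.smul_apply, (P.exists_extend0 _).choose_spec, (P.exists_extend0 ψ).choose_spec,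
      LinearMap.smul_apply, smul_eq_mul, smul_eq_mul, map_mul]
    rfl

/-- The extension of a functional from the second chart. -/
def dualF1 : Module.Dual (C.RB1 R) P.N1 →ₛₗ[(C.ρ1 R).toRingHom] Module.Dual (C.RB01 R) P.N01 where
  toFun ψ := (P.exists_extend1 ψ).choose
  map_add' ψ ψ' := P.dual_ext01' fun x => by
    rw [LinearMap.add_apply, (P.exists_extend1 _).choose_spec, (P.exists_extend1 ψ).choose_spec,
      (P.exists_extend1 ψ').choose_spec, LinearMap.add_apply, map_add]
  map_smul' a ψ := P.dual_ext01' fun x => by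
    rw [LinearMap.smul_apply, (P.exists_extend1 _).choose_spec, (P.exists_extend1 ψ).choose_spec,
      LinearMap.smul_apply, smul_eq_mul, smul_eq_mul, map_mul]
    rfl

@[simp] theorem dualF0_apply (ψ : Module.Dual (C.RB0 R) P.N0) (x : P.N0) :
    P.dualF0 ψ (P.f0 x) = C.ρ0 R (ψ x) := (P.exists_extend0 ψ).choose_spec x

@[simp] theorem dualF1_apply (ψ : Module.Dual (C.RB1 R) P.N1) (y : P.N1) :
    P.dualF1 ψ (P.f1 y) = C.ρ1 R (ψ y) := (P.exists_extend1 ψ).choose_spec y

/-- Up to a power of the parameter, functionals on the overlap come from the first chart. -/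
theorem exists_restrict0 [Module.Finite (C.RB0 R) P.N0] (χ : Module.Dual (C.RB01 R) P.N01) :
    ∃ (n : ℕ) (ψ : Module.Dual (C.RB0 R) P.N0), C.T R ^ n • χ = P.dualF0 ψ := by
  obtain ⟨n, ψ, h⟩ := exists_restrict (C.ρ0 R).toRingHom (C.ρ0_injective R) (t := C.T0 R)
    (fun a => C.exists_T_pow_mul R a) P.f0 χ
  exact ⟨n, ψ, P.dual_ext01 fun x => by
    rw [dualF0_apply, LinearMap.smul_apply, smul_eq_mul]
    exact (h x).symm⟩

theorem exists_restrict1 [Module.Finite (C.RB1 R) P.N1] (χ : Module.Dual (C.RB01 R) P.N01) :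
    ∃ (n : ℕ) (ψ : Module.Dual (C.RB1 R) P.N1), C.T' R ^ n • χ = P.dualF1 ψ := by
  obtain ⟨n, ψ, h⟩ := exists_restrict (C.ρ1 R).toRingHom (C.ρ1_injective R) (t := C.T1 R)
    (fun a => C.exists_T'_pow_mul R a) P.f1 χ
  exact ⟨n, ψ, P.dual_ext01' fun x => by
    rw [dualF1_apply, LinearMap.smul_apply, smul_eq_mul]
    exact (h x).symm⟩

theorem dualF0_injective : Function.Injective P.dualF0 := fun ψ ψ' h =>
  LinearMap.ext fun x => C.ρ0_injective R (by rw [← dualF0_apply, h, dualF0_apply])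

theorem dualF1_injective : Function.Injective P.dualF1 := fun ψ ψ' h =>
  LinearMap.ext fun x => C.ρ1_injective R (by rw [← dualF1_apply, h, dualF1_apply])

/-- The dual gluing data. -/
def dualPre [Module.Finite (C.RB0 R) P.N0] [Module.Finite (C.RB1 R) P.N1] : Pre C R where
  N0 := Module.Dual (C.RB0 R) P.N0
  N1 := Module.Dual (C.RB1 R) P.N1
  N01 := Module.Dual (C.RB01 R) P.N01
  f0 := P.dualF0
  f1 := P.dualF1
  surj0 χ := P.exists_restrict0 χ
  surj1 χ := P.exists_restrict1 χ
  ker0 ψ h := ⟨0, by rw [pow_zero, one_smul]; exact P.dualF0_injective (h.trans (map_zero _).symm)⟩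
  ker1 ψ h := ⟨0, by rw [pow_zero, one_smul]; exact P.dualF1_injective (h.trans (map_zero _).symm)⟩

end Pre

variable {C : Cover k} {R : Type u} [CommRing R] [Algebra k R]

/-- The dual of an invertible datum. -/
def Datum.dual (L : Datum C R) : Datum C R where
  toPre := L.toPre.dualPre
  invertible0 := inferInstanceAs (Module.Invertible (C.RB0 R) (Module.Dual (C.RB0 R) L.N0))
  invertible1 := inferInstanceAs (Module.Invertible (C.RB1 R) (Module.Dual (C.RB1 R) L.N1))

/-- The overlap of an invertible datum is reflexive. -/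
theorem Pre.reflexive01 (P : Pre C R) [Module.Finite (C.RB0 R) P.N0]
    [Module.Projective (C.RB0 R) P.N0] :
    Function.Bijective (Module.Dual.eval (C.RB01 R) P.N01) := by
  obtain ⟨n, p, g, -, -, hpg⟩ := Module.Finite.exists_comp_eq_id_of_projective (C.RB0 R) P.N0
  let v : Fin n → P.N01 := fun i => P.f0 (p (Pi.single i 1))
  let χ : Fin n → Module.Dual (C.RB01 R) P.N01 := fun i =>
    P.dualF0 (LinearMap.proj i ∘ₗ g)
  have hbasis : ∀ z, z = ∑ i, χ i z • v i := by
    intro z
    obtain ⟨m, x, hx⟩ := P.surj0 z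
    have hz : z = C.T' R ^ m • P.f0 x := by rw [← hx, smul_smul, C.T'_pow_mul_T_pow, one_smul]
    rw [hz]
    simp only [map_smul, smul_assoc, ← Finset.smul_sum]
    congr 1
    simp only [χ, v, dualF0_apply, LinearMap.comp_apply, LinearMap.proj_apply, ← P.f0_smul_chart,
      ← map_sum, ← map_smul]
    rw [← pi_eq_sum_univ' (g x)]
    exact congrArg P.f0 (LinearMap.congr_fun hpg x).symm
  refine ⟨(injective_iff_map_eq_zero _).mpr fun z hz => ?_, fun Ψ => ?_⟩
  · rw [hbasis z]
    refine Finset.sum_eq_zero fun i _ => ?_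
    rw [show χ i z = 0 from LinearMap.congr_fun hz (χ i), zero_smul]
  · refine ⟨∑ i, Ψ (χ i) • v i, LinearMap.ext fun ω => ?_⟩
    have hω : ω = ∑ i, ω (v i) • χ i := LinearMap.ext fun z => by
      conv_lhs => rw [hbasis z]
      simp only [map_sum, map_smul, smul_eq_mul, LinearMap.coe_sum, LinearMap.coe_smul,
        Finset.sum_apply, Pi.smul_apply, mul_comm]
    show ω (∑ i, Ψ (χ i) • v i) = Ψ ω
    conv_rhs => rw [hω]
    simp only [map_sum, map_smul, smul_eq_mul, mul_comm]

/-- An invertible datum is its double dual. -/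
def Datum.evalEquiv (L : Datum C R) : L.toPre.Equiv L.dual.dual.toPre where
  e0 := Module.evalEquiv (C.RB0 R) L.N0
  e1 := Module.evalEquiv (C.RB1 R) L.N1
  e01 := LinearEquiv.ofBijective _ L.toPre.reflexive01
  comm0 x := L.dual.toPre.dual_ext01 fun ψ => by
    exact (L.toPre.dualF0_apply ψ x).trans (L.dual.toPre.dualF0_apply
        (Module.evalEquiv (C.RB0 R) L.N0 x) ψ).symm
  comm1 y := L.dual.toPre.dual_ext01' fun ψ => by
    exact (L.toPre.dualF1_apply ψ y).trans (L.dual.toPre.dualF1_apply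
        (Module.evalEquiv (C.RB1 R) L.N1 y) ψ).symm

/-- The dual of an isomorphism. -/
def Pre.Equiv.dual {P P' : Pre C R} [Module.Finite (C.RB0 R) P.N0] [Module.Finite (C.RB1 R) P.N1]
    [Module.Finite (C.RB0 R) P'.N0] [Module.Finite (C.RB1 R) P'.N1] (e : P.Equiv P') :
    P'.dualPre.Equiv P.dualPre where
  e0 := e.e0.dualMap
  e1 := e.e1.dualMap
  e01 := e.e01.dualMap
  comm0 ψ := P.dual_ext01 fun x => by
    exact ((congrArg (P'.dualF0 ψ) (e.comm0 x)).trans (P'.dualF0_apply ψ (e.e0 x))).trans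
      (P.dualF0_apply (e.e0.dualMap ψ) x).symm
  comm1 ψ := P.dual_ext01' fun y => by
    exact ((congrArg (P'.dualF1 ψ) (e.comm1 y)).trans (P'.dualF1_apply ψ (e.e1 y))).trans
      (P.dualF1_apply (e.e1.dualMap ψ) y).symm

/-- A global section as a map from the dual to the structure sheaf. -/
def Pre.sectionHom (P : Pre C R) [Module.Finite (C.RB0 R) P.N0] [Module.Finite (C.RB1 R) P.N1]
    (s : P.H0) : P.dualPre.Hom (unitPre C R) where
  φ0 := Module.Dual.eval (C.RB0 R) P.N0 s.1.1
  φ1 := Module.Dual.eval (C.RB1 R) P.N1 s.1.2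
  φ01 := Module.Dual.eval (C.RB01 R) P.N01 (P.f0 s.1.1)
  comm0 ψ := P.dualF0_apply ψ s.1.1
  comm1 ψ := by
    exact (congrArg (P.dualF1 ψ) (P.mem_H0.mp s.2)).trans (P.dualF1_apply ψ s.1.2)

/-- A map to the structure sheaf as a global section of the dual. -/
def Pre.homSection (P : Pre C R) [Module.Finite (C.RB0 R) P.N0] [Module.Finite (C.RB1 R) P.N1]
    (ε : P.Hom (unitPre C R)) : P.dualPre.H0 :=
  ⟨(ε.φ0, ε.φ1), P.dualPre.mem_H0.mpr <| by
    show P.dualF0 ε.φ0 = P.dualF1 ε.φ1
    have h0 : P.dualF0 ε.φ0 = ε.φ01 := P.dual_ext01 fun x => by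
      exact (P.dualF0_apply ε.φ0 x).trans (ε.comm0 x).symm
    have h1 : P.dualF1 ε.φ1 = ε.φ01 := P.dual_ext01' fun y => by
      exact (P.dualF1_apply ε.φ1 y).trans (ε.comm1 y).symm
    rw [h0, h1]⟩

/-- Values of functionals on the overlap are symmetric. -/
theorem Datum.smul_comm01 (L : Datum C R) (χ : Module.Dual (C.RB01 R) L.N01) (a b : L.N01) :
    χ a • b = χ b • a := by
  obtain ⟨n, ψ, hψ⟩ := L.toPre.exists_restrict0 χ
  obtain ⟨i, x, hx⟩ := L.surj0 a
  obtain ⟨j, y, hy⟩ := L.surj0 b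
  have hu : IsUnit (C.T R ^ n * (C.T R ^ i * C.T R ^ j)) := by
    have h : IsUnit (C.T R) := IsUnit.of_mul_eq_one _ (C.T_mul_T' R)
    exact (h.pow n).mul ((h.pow i).mul (h.pow j))
  refine hu.smul_left_cancel.mp ?_
  have key : ∀ (x' : L.N0) (m : ℕ) (a' : L.N01), C.T R ^ m • a' = L.f0 x' →
      C.T R ^ n * C.T R ^ m * χ a' = C.ρ0 R (ψ x') := fun x' m a' h => by
    rw [← L.toPre.dualF0_apply ψ x', ← h, ← hψ, LinearMap.smul_apply, map_smul, smul_eq_mul,
      smul_eq_mul]
    ring
  calc (C.T R ^ n * (C.T R ^ i * C.T R ^ j)) • χ a • b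
      = (C.T R ^ n * C.T R ^ i * χ a) • C.T R ^ j • b := by
        simp only [smul_smul]; congr 1; ring
    _ = L.f0 (ψ x • y) := by rw [key x i a hx, hy, L.toPre.f0_smul_chart]
    _ = L.f0 (ψ y • x) := by rw [invertible_smul_comm]
    _ = (C.T R ^ n * C.T R ^ j * χ b) • C.T R ^ i • a := by
        rw [key y j b hy, hx, L.toPre.f0_smul_chart]
    _ = (C.T R ^ n * (C.T R ^ i * C.T R ^ j)) • χ b • a := by
        simp only [smul_smul]; congr 1; ring

end Fermat.Agent.Pic.Cech

end
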