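import Fermat.Agent.Pic.Cech.Sections

/-!
# The Euler characteristic

After a twist killing `H¹` the Euler characteristic of every fibre is a difference of ranks of two
finite projective modules, so it is locally constant and invariant under field extensions.
-/

noncomputable section

open TensorProduct

namespace Fermat.Agent.Pic.Cech

universe u

section Linear

variable {K A A' Z Q : Type u} [Field K] [AddCommGroup A] [Module K A] [AddCommGroup A']
  [Module K A'] [AddCommGroup Z] [Module K Z] [AddCommGroup Q] [Module K Q]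
  {d : A →ₗ[K] Z} {d' : A' →ₗ[K] Z} {ι : A →ₗ[K] A'} {ψ : A' →ₗ[K] Q}

/-- Dimensions in a complex extended by a quotient. -/
theorem finrank_ker_sub_finrank_coker (hd' : Function.Surjective d') (hι : Function.Injective ι)
    (hψ : Function.Surjective ψ) (hex : Function.Exact ι ψ) (hcomp : d' ∘ₗ ι = d)
    [FiniteDimensional K (LinearMap.ker d')] [FiniteDimensional K Q] :
    FiniteDimensional K (LinearMap.ker d) ∧ FiniteDimensional K (Z ⧸ LinearMap.range d) ∧
      (Module.finrank K (LinearMap.ker d) : ℤ) - Module.finrank K (Z ⧸ LinearMap.range d) =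
        (Module.finrank K (LinearMap.ker d') : ℤ) - Module.finrank K Q := by
  have hkerψ : LinearMap.ker ψ ≤ LinearMap.ker ((LinearMap.range d).mkQ ∘ₗ d') := fun a ha => by
    obtain ⟨b, rfl⟩ := (hex a).mp ha
    rw [LinearMap.mem_ker, LinearMap.comp_apply, ← LinearMap.comp_apply d' ι, hcomp]
    exact (Submodule.Quotient.mk_eq_zero _).mpr ⟨b, rfl⟩
  let δ : Q →ₗ[K] Z ⧸ LinearMap.range d :=
    (LinearMap.ker ψ).liftQ _ hkerψ ∘ₗ (ψ.quotKerEquivOfSurjective hψ).symm.toLinearMap
  have hδ : ∀ a, δ (ψ a) = (LinearMap.range d).mkQ (d' a) := fun a => by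
    have e : (ψ.quotKerEquivOfSurjective hψ).symm (ψ a) = Submodule.Quotient.mk a := by
      rw [LinearEquiv.symm_apply_eq]; rfl
    show (LinearMap.ker ψ).liftQ _ hkerψ ((ψ.quotKerEquivOfSurjective hψ).symm (ψ a)) = _
    rw [e]
    rfl
  have hδs : Function.Surjective δ := fun q => by
    obtain ⟨z, rfl⟩ := Submodule.mkQ_surjective _ q
    obtain ⟨a, rfl⟩ := hd' z
    exact ⟨ψ a, hδ a⟩
  let j : LinearMap.ker d →ₗ[K] LinearMap.ker d' := ι.restrict fun a ha => by
    rw [LinearMap.mem_ker, ← LinearMap.comp_apply, hcomp]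
    exact ha
  have hj : Function.Injective j := fun a b e => Subtype.ext (hι (congrArg Subtype.val e))
  let χ : LinearMap.ker d' →ₗ[K] LinearMap.ker δ :=
    (ψ ∘ₗ (LinearMap.ker d').subtype).codRestrict _ fun a =>
      LinearMap.mem_ker.mpr ((hδ a.1).trans (by rw [LinearMap.mem_ker.mp a.2, map_zero]))
  have hχs : Function.Surjective χ := by
    rintro ⟨q, hq⟩
    obtain ⟨a, rfl⟩ := hψ q
    rw [LinearMap.mem_ker, hδ, Submodule.mkQ_apply, Submodule.Quotient.mk_eq_zero] at hq
    obtain ⟨b, hb⟩ := hq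
    refine ⟨⟨a - ι b, ?_⟩, Subtype.ext ?_⟩
    · rw [LinearMap.mem_ker, map_sub, ← LinearMap.comp_apply d' ι, hcomp, hb, sub_self]
    · show ψ (a - ι b) = ψ a
      rw [map_sub, hex.apply_apply_eq_zero, sub_zero]
  have hker : LinearMap.ker χ = LinearMap.range j := by
    ext a
    constructor
    · intro ha
      obtain ⟨b, hb⟩ := (hex a.1).mp (congrArg Subtype.val ha)
      refine ⟨⟨b, ?_⟩, Subtype.ext hb⟩
      rw [LinearMap.mem_ker, ← hcomp, LinearMap.comp_apply, hb]
      exact a.2
    · rintro ⟨b, rfl⟩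
      exact Subtype.ext (hex.apply_apply_eq_zero b.1)
  have hfin : FiniteDimensional K (LinearMap.ker d) := Module.Finite.of_injective j hj
  have hfin' : FiniteDimensional K (Z ⧸ LinearMap.range d) := Module.Finite.of_surjective δ hδs
  refine ⟨hfin, hfin', ?_⟩
  have h1 := χ.finrank_range_add_finrank_ker
  rw [LinearMap.range_eq_top.mpr hχs, finrank_top, hker, LinearMap.finrank_range_of_inj hj] at h1
  have h2 := δ.finrank_range_add_finrank_ker
  rw [LinearMap.range_eq_top.mpr hδs, finrank_top] at h2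
  omega

end Linear

variable {k : Type u} [Field k] {C : Cover k}

namespace Cover

variable (C) (m : ℕ) (R : Type u) [CommRing R] [Algebra k R]

/-- The functions on the zeros of the parameter on the second chart. -/
abbrev zerosk := C.B1 ⧸ LinearMap.range (LinearMap.mulLeft k (C.t1 ^ m))

instance finite_zerosk : Module.Finite k (C.zerosk m) := by
  obtain ⟨W, hW, hb⟩ := C.exists_rep_B1 m
  have : Module.Finite k W := Module.Finite.iff_fg.mpr hW
  refine Module.Finite.of_surjective
    ((LinearMap.range (LinearMap.mulLeft k (C.t1 ^ m))).mkQ ∘ₗ W.subtype) fun q => ?_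
  obtain ⟨b, rfl⟩ := Submodule.mkQ_surjective _ q
  obtain ⟨c, hc⟩ := hb b
  refine ⟨⟨_, hc⟩, (Submodule.Quotient.eq _).mpr ⟨-c, ?_⟩⟩
  simp

/-- Restriction to the zeros of the parameter. -/
def zerosR : C.RB1 R →ₗ[R] R ⊗[k] C.zerosk m :=
  (LinearMap.range (LinearMap.mulLeft k (C.t1 ^ m))).mkQ.baseChange R

theorem zerosR_surjective : Function.Surjective (C.zerosR m R) :=
  LinearMap.lTensor_surjective R (Submodule.mkQ_surjective _)

theorem exact_zerosR :
    Function.Exact (LinearMap.mulLeft R (C.T1 R ^ m)) (C.zerosR m R) := by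
  have h : Function.Exact ((LinearMap.mulLeft k (C.t1 ^ m)).baseChange R) (C.zerosR m R) :=
    lTensor_exact R (LinearMap.exact_map_mkQ_range _) (Submodule.mkQ_surjective _)
  have e : (LinearMap.mulLeft k (C.t1 ^ m)).baseChange R = LinearMap.mulLeft R (C.T1 R ^ m) := by
    ext b
    simp
  rwa [e] at h

theorem T1_pow_mul_eq_zero {n : ℕ} {a : C.RB1 R} (h : C.T1 R ^ n * a = 0) : a = 0 := by
  have h' := congrArg (fun b => C.T R ^ n * C.ρ1 R b) h
  simp only [map_mul, map_pow, C.ρ1_T1, map_zero, mul_zero, ← mul_assoc, C.T_pow_mul_T'_pow,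
    one_mul] at h'
  exact C.ρ1_injective R (by rw [h', map_zero])

end Cover

namespace Pre

variable {R : Type u} [CommRing R] [Algebra k R] (P : Pre C R) (m : ℕ)

/-- Multiplication by a power of the parameter on the second chart. -/
def mulT1 : P.N1 →ₗ[R] P.N1 :=
  (LinearMap.lsmul (C.RB1 R) P.N1 (C.T1 R ^ m)).restrictScalars R

@[simp] theorem mulT1_apply (y : P.N1) : P.mulT1 m y = C.T1 R ^ m • y := rfl

/-- Sections on the zeros of a power of the parameter. -/
abbrev zeros := P.N1 ⧸ LinearMap.range (P.mulT1 m)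

theorem mulT1_injective [Module.Finite (C.RB1 R) P.N1] [Module.Projective (C.RB1 R) P.N1] :
    Function.Injective (P.mulT1 m) := by
  obtain ⟨n, f, g, -, -, hfg⟩ := Module.Finite.exists_comp_eq_id_of_projective (C.RB1 R) P.N1
  refine (injective_iff_map_eq_zero _).mpr fun y hy => ?_
  have hg : g y = 0 := funext fun i =>
    C.T1_pow_mul_eq_zero R (n := m) (by
      have h := congrFun (congrArg g hy) i
      rwa [mulT1_apply, map_smul, map_zero] at h)
  rw [← LinearMap.id_apply (R := C.RB1 R) y, ← hfg, LinearMap.comp_apply, hg, map_zero]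

/-- The sections on the zeros of a power of the parameter are finite projective over the base. -/
theorem projective_zeros [Module.Finite (C.RB1 R) P.N1] [Module.Projective (C.RB1 R) P.N1] :
    Module.Finite R (P.zeros m) ∧ Module.Projective R (P.zeros m) := by
  obtain ⟨n, f, g, -, -, hfg⟩ := Module.Finite.exists_comp_eq_id_of_projective (C.RB1 R) P.N1
  let π : (Fin n → C.RB1 R) →ₗ[R] (Fin n → R ⊗[k] C.zerosk m) :=
    LinearMap.pi fun i => C.zerosR m R ∘ₗ LinearMap.proj i
  have hπ : Function.Surjective π := fun w => by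
    choose v hv using fun i => C.zerosR_surjective m R (w i)
    exact ⟨v, funext hv⟩
  have hker : LinearMap.ker π ≤
      LinearMap.ker ((LinearMap.range (P.mulT1 m)).mkQ ∘ₗ f.restrictScalars R) := by
    intro v hv
    choose w hw using fun i => (C.exact_zerosR m R (v i)).mp (congrFun hv i)
    refine (Submodule.Quotient.mk_eq_zero _).mpr ⟨f w, ?_⟩
    rw [mulT1_apply, ← map_smul]
    exact congrArg f (funext hw)
  let b : (Fin n → R ⊗[k] C.zerosk m) →ₗ[R] P.zeros m :=
    (LinearMap.ker π).liftQ _ hker ∘ₗ (π.quotKerEquivOfSurjective hπ).symm.toLinearMap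
  let a : P.zeros m →ₗ[R] (Fin n → R ⊗[k] C.zerosk m) :=
    (LinearMap.range (P.mulT1 m)).liftQ (π ∘ₗ g.restrictScalars R) (by
      rintro _ ⟨y, rfl⟩
      refine LinearMap.mem_ker.mpr (funext fun i => ?_)
      show C.zerosR m R (g (C.T1 R ^ m • y) i) = 0
      rw [map_smul]
      exact (C.exact_zerosR m R).apply_apply_eq_zero (g y i))
  have hba : b ∘ₗ a = LinearMap.id := by
    refine Submodule.linearMap_qext _ (LinearMap.ext fun y => ?_)
    show (LinearMap.ker π).liftQ _ hker
      ((π.quotKerEquivOfSurjective hπ).symm (π (g y))) = Submodule.Quotient.mk y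
    have e : (π.quotKerEquivOfSurjective hπ).symm (π (g y)) = Submodule.Quotient.mk (g y) := by
      rw [LinearEquiv.symm_apply_eq]; rfl
    rw [e]
    exact congrArg Submodule.Quotient.mk (LinearMap.congr_fun hfg y)
  exact ⟨Module.Finite.of_surjective b fun q => ⟨a q, LinearMap.congr_fun hba q⟩,
    Module.Projective.of_split a b hba⟩

variable {R' : Type u} [CommRing R'] [Algebra k R'] [Algebra R R'] [IsScalarTower k R R']

/-- The sections on the zeros of a power of the parameter commute with base change. -/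
theorem _root_.Fermat.Agent.Pic.Cech.BaseChange.exists_zerosEquiv {P : Pre C R} {P' : Pre C R'}
    (h : BaseChange P P') (m : ℕ) : Nonempty (R' ⊗[R] P.zeros m ≃ₗ[R'] P'.zeros m) := by
  have hcomm : ∀ z, h.e1 ((P.mulT1 m).baseChange R' z) = P'.mulT1 m (h.e1 z) := fun z => by
    induction z using TensorProduct.induction_on with
    | zero => simp
    | tmul a y =>
      have e : (C.bc1 R R').toRingHom (C.T1 R ^ m) = C.T1 R' ^ m := by
        show C.bc1 R R' _ = _
        rw [map_pow, Cover.bc1_tmul, map_one]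
      rw [LinearMap.baseChange_tmul, h.e1_tmul, h.e1_tmul, map_smul, mulT1_apply, map_smulₛₗ,
        mulT1_apply, e]
    | add u v hu hv => simp only [map_add, hu, hv]
  let φ : P'.N1 →ₗ[R'] R' ⊗[R] P.zeros m :=
    (LinearMap.range (P.mulT1 m)).mkQ.baseChange R' ∘ₗ h.e1.symm.toLinearMap
  have hex : Function.Exact ((P.mulT1 m).baseChange R')
      ((LinearMap.range (P.mulT1 m)).mkQ.baseChange R') :=
    lTensor_exact R' (LinearMap.exact_map_mkQ_range _) (Submodule.mkQ_surjective _)
  have hφs : Function.Surjective φ :=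
    (LinearMap.lTensor_surjective R' (Submodule.mkQ_surjective _)).comp h.e1.symm.surjective
  have hker : LinearMap.ker φ = LinearMap.range (P'.mulT1 m) := by
    ext z
    rw [LinearMap.mem_ker]
    refine (hex _).trans ⟨?_, ?_⟩
    · rintro ⟨w, hw⟩
      exact ⟨h.e1 w, by rw [← hcomm, hw]; exact h.e1.apply_symm_apply z⟩
    · rintro ⟨y, rfl⟩
      exact ⟨h.e1.symm y, h.e1.injective (by rw [hcomm]; simp)⟩
  exact ⟨((Submodule.quotEquivOfEq _ _ hker.symm) ≪≫ₗ φ.quotKerEquivOfSurjective hφs).symm⟩

variable {P} in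
/-- A base change commutes with twists. -/
def _root_.Fermat.Agent.Pic.Cech.BaseChange.twist {P' : Pre C R'} (h : BaseChange P P') (m : ℕ) :
    BaseChange (P.twist m) (P'.twist m) where
  b0 := h.b0
  b1 := h.b1
  b01 := h.b01
  comm0 := h.comm0
  comm1 y := by
    show h.b01 (C.T R ^ m • P.f1 y) = C.T R' ^ m • P'.f1 (h.b1 y)
    have e : (C.bc01 R R').toRingHom (C.T R ^ m) = C.T R' ^ m := by
      show C.bc01 R R' _ = _
      rw [map_pow, Cover.bc01_tmul, map_one]
    rw [map_smulₛₗ, e]
    exact congrArg (C.T R' ^ m • ·) (h.comm1 y)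
  exists_e0 := h.exists_e0
  exists_e1 := h.exists_e1
  exists_e01 := h.exists_e01

end Pre

/-- The Euler characteristic over a field. -/
def Pre.chi {K : Type u} [Field K] [Algebra k K] (P : Pre C K) : ℤ :=
  (Module.finrank K P.H0 : ℤ) - Module.finrank K P.H1

section Field

variable {K : Type u} [Field K] [Algebra k K] (P : Pre C K) [Module.Finite (C.RB0 K) P.N0]
  [Module.Finite (C.RB1 K) P.N1] [Module.Projective (C.RB0 K) P.N0]
  [Module.Projective (C.RB1 K) P.N1]

/-- The Euler characteristic from a twist without `H¹`. -/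
theorem Pre.chi_twist {m : ℕ} (hm : Function.Surjective (P.twist m).diff) :
    FiniteDimensional K P.H0 ∧ FiniteDimensional K P.H1 ∧
      P.chi = (Module.finrank K (P.twist m).H0 : ℤ) - Module.finrank K (P.zeros m) := by
  have : Module.Finite (C.RB0 K) (P.twist m).N0 := ‹Module.Finite (C.RB0 K) P.N0›
  have : Module.Finite (C.RB1 K) (P.twist m).N1 := ‹Module.Finite (C.RB1 K) P.N1›
  have : Module.Projective (C.RB0 K) (P.twist m).N0 := ‹Module.Projective (C.RB0 K) P.N0›
  have : Module.Projective (C.RB1 K) (P.twist m).N1 := ‹Module.Projective (C.RB1 K) P.N1›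
  have hH0 : FiniteDimensional K (P.twist m).H0 := (P.twist m).finite_H0 hm
  have hQ : FiniteDimensional K (P.zeros m) := (P.projective_zeros m).1
  let ι : P.N0 × P.N1 →ₗ[K] P.N0 × P.N1 := LinearMap.id.prodMap (P.mulT1 m)
  let ψ : P.N0 × P.N1 →ₗ[K] P.zeros m :=
    (LinearMap.range (P.mulT1 m)).mkQ ∘ₗ LinearMap.snd K P.N0 P.N1
  let d' : P.N0 × P.N1 →ₗ[K] P.N01 := (P.twist m).diff
  have : FiniteDimensional K (LinearMap.ker d') := hH0
  refine finrank_ker_sub_finrank_coker (d := P.diff) (d' := d') (ι := ι) (ψ := ψ) hm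
    (Function.Injective.prodMap Function.injective_id (P.mulT1_injective m))
    ((Submodule.mkQ_surjective _).comp fun y => ⟨(0, y), rfl⟩) (fun q => ?_)
    (LinearMap.ext fun q => ?_)
  · constructor
    · intro h
      obtain ⟨y, hy⟩ := (Submodule.Quotient.mk_eq_zero _).mp h
      exact ⟨(q.1, y), Prod.ext rfl hy⟩
    · rintro ⟨w, rfl⟩
      exact (Submodule.Quotient.mk_eq_zero _).mpr ⟨w.2, rfl⟩
  · show (P.twist m).diff (q.1, P.mulT1 m q.2) = P.diff q
    rw [Pre.diff_apply, Pre.diff_apply]
    show P.f0 q.1 - C.T K ^ m • P.f1 (C.T1 K ^ m • q.2) = _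
    rw [P.f1_smul_chart, map_pow, C.ρ1_T1, smul_smul, C.T_pow_mul_T'_pow, one_smul]

/-- Cohomology over a field is finite dimensional. -/
theorem Pre.finite_cohomology : FiniteDimensional K P.H0 ∧ FiniteDimensional K P.H1 :=
  let ⟨_, hm⟩ := P.exists_twist_surjective
  ⟨(P.chi_twist (hm _ le_rfl)).1, (P.chi_twist (hm _ le_rfl)).2.1⟩

end Field

/-- The fibre dimension of a finite flat module is its rank. -/
theorem finrank_baseChange_rankAtStalk {R : Type u} [CommRing R] (M : Type u) [AddCommGroup M]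
    [Module R M] [Module.Finite R M] [Module.Flat R M] (K : Type u) [Field K] [Algebra R K]
      (p : PrimeSpectrum K) :
    Module.finrank K (K ⊗[R] M) = Module.rankAtStalk M (p.comap (algebraMap R K)) := by
  rw [← Module.rankAtStalk_baseChange p, Module.rankAtStalk_eq_finrank_of_free]
  rfl

variable {R : Type u} [CommRing R] [Algebra k R]

/-- The Euler characteristic of the fibres is locally constant on the base. -/
theorem exists_chi_fibre (P : Pre C R) [Module.Finite (C.RB0 R) P.N0]
    [Module.Finite (C.RB1 R) P.N1] [Module.Projective (C.RB0 R) P.N0]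
    [Module.Projective (C.RB1 R) P.N1] :
    ∃ r : PrimeSpectrum R → ℤ, IsLocallyConstant r ∧
      ∀ (K : Type u) [Field K] [Algebra k K] [Algebra R K] [IsScalarTower k R K] (P' : Pre C K),
        BaseChange P P' → Module.Finite (C.RB0 K) P'.N0 → Module.Finite (C.RB1 K) P'.N1 →
          Module.Projective (C.RB0 K) P'.N0 → Module.Projective (C.RB1 K) P'.N1 →
            ∀ q : PrimeSpectrum K, P'.chi = r (q.comap (algebraMap R K)) := by
  obtain ⟨m, hm⟩ := P.exists_twist_surjective
  have hd := hm m le_rfl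
  have : Module.Finite (C.RB0 R) (P.twist m).N0 := ‹Module.Finite (C.RB0 R) P.N0›
  have : Module.Finite (C.RB1 R) (P.twist m).N1 := ‹Module.Finite (C.RB1 R) P.N1›
  have : Module.Projective (C.RB0 R) (P.twist m).N0 := ‹Module.Projective (C.RB0 R) P.N0›
  have : Module.Projective (C.RB1 R) (P.twist m).N1 := ‹Module.Projective (C.RB1 R) P.N1›
  have := (P.twist m).finite_H0 hd
  have := (P.twist m).projective_H0 hd
  have : Module.FinitePresentation R (P.twist m).H0 := Module.finitePresentation_of_projective R _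
  obtain ⟨hf, hp⟩ := P.projective_zeros m
  have : Module.FinitePresentation R (P.zeros m) := Module.finitePresentation_of_projective R _
  refine ⟨fun p => (Module.rankAtStalk (R := R) (P.twist m).H0 p : ℤ) -
    Module.rankAtStalk (R := R) (P.zeros m) p,
    ((Module.isLocallyConstant_rankAtStalk).comp (Nat.cast : ℕ → ℤ)).comp₂
      ((Module.isLocallyConstant_rankAtStalk).comp (Nat.cast : ℕ → ℤ)) (· - ·), ?_⟩
  intro K _ _ _ _ P' h _ _ _ _ q
  obtain ⟨e, -⟩ := (h.twist m).exists_h0Equiv hd
  obtain ⟨e'⟩ := h.exists_zerosEquiv m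
  rw [(P'.chi_twist ((h.twist m).diff_surjective hd)).2.2, ← e.finrank_eq, ← e'.finrank_eq,
    finrank_baseChange_rankAtStalk _ K q, finrank_baseChange_rankAtStalk _ K q]

end Fermat.Agent.Pic.Cech

end
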