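import Fermat.Agent.Pic.Cech.Twists

/-!
# Generators by negative twists

A datum with finitely generated charts is a quotient of a sum of copies of some `O(-m)`; the
quotient map, its kernel, and splittings on each chart.
-/

noncomputable section

open TensorProduct

namespace Fermat.Agent.Pic.Cech

universe u

variable {k : Type u} [Field k] {C : Cover k} {R : Type u} [CommRing R] [Algebra k R]

/-- Finitely many maps from `O(-m)` generating both charts. -/
structure Gens (P : Pre C R) where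
  /-- The index type of the generators, which is finite. -/
  ι : Type u
  [fintype : Fintype ι]
  /-- The twist: each generator is a map from `O(-m)`. -/
  m : ℕ
  /-- The generators on the first chart. -/
  x : ι → P.N0
  /-- The generators on the second chart. -/
  y : ι → P.N1
  glue : ∀ i, P.f0 (x i) = C.T R ^ m • P.f1 (y i)
  span0 : Submodule.span (C.RB0 R) (Set.range x) = ⊤
  span1 : Submodule.span (C.RB1 R) (Set.range y) = ⊤

attribute [instance] Gens.fintype

/-- Finitely generated data are generated by finitely many maps from a twist of the structure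
sheaf. -/
theorem exists_gens (P : Pre C R) [Module.Finite (C.RB0 R) P.N0] [Module.Finite (C.RB1 R) P.N1] :
    Nonempty (Gens P) := by
  obtain ⟨s, hs⟩ := Module.Finite.fg_top (R := C.RB0 R) (M := P.N0)
  obtain ⟨t, ht⟩ := Module.Finite.fg_top (R := C.RB1 R) (M := P.N1)
  choose n y hy using fun x : P.N0 => P.surj1 (P.f0 x)
  choose n' x hx using fun y : P.N1 => P.surj0 (P.f1 y)
  let m := max (s.sup n) (t.sup n')
  refine ⟨{
    ι := (s : Set P.N0) ⊕ (t : Set P.N1)
    m := m
    x := Sum.elim (fun a => a.1) fun b => C.T0 R ^ (m - n' b.1) • x b.1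
    y := Sum.elim (fun a => C.T1 R ^ (m - n a.1) • y a.1) fun b => b.1
    glue := ?_
    span0 := eq_top_iff.mpr (hs ▸ Submodule.span_mono fun a ha => ⟨.inl ⟨a, ha⟩, rfl⟩)
    span1 := eq_top_iff.mpr (ht ▸ Submodule.span_mono fun a ha => ⟨.inr ⟨a, ha⟩, rfl⟩) }⟩
  rintro (⟨a, ha⟩ | ⟨b, hb⟩) <;> simp only [Sum.elim_inl, Sum.elim_inr]
  · have hn : n a ≤ m := (Finset.le_sup ha).trans (le_max_left _ _)
    rw [P.f1_smul_chart, map_pow, C.ρ1_T1, ← hy a, smul_smul, smul_smul, mul_assoc, ← pow_add,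
      Nat.sub_add_cancel hn, C.T_pow_mul_T'_pow, one_smul]
  · have hn : n' b ≤ m := (Finset.le_sup hb).trans (le_max_right _ _)
    rw [P.f0_smul_chart, map_pow, C.ρ0_T0, ← hx b, smul_smul, ← pow_add, Nat.sub_add_cancel hn]

namespace Gens

variable {P : Pre C R} (G : Gens P)

/-- The map on the first chart. -/
def φ0 : (G.ι → C.RB0 R) →ₗ[C.RB0 R] P.N0 := Fintype.linearCombination (C.RB0 R) G.x

/-- The map on the second chart. -/
def φ1 : (G.ι → C.RB1 R) →ₗ[C.RB1 R] P.N1 := Fintype.linearCombination (C.RB1 R) G.y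

/-- The map on the overlap. -/
def φ01 : (G.ι → C.RB01 R) →ₗ[C.RB01 R] P.N01 :=
  Fintype.linearCombination (C.RB01 R) fun i => P.f0 (G.x i)

theorem φ0_surjective : Function.Surjective G.φ0 := by
  rw [← LinearMap.range_eq_top, φ0, Fintype.range_linearCombination, G.span0]

theorem φ1_surjective : Function.Surjective G.φ1 := by
  rw [← LinearMap.range_eq_top, φ1, Fintype.range_linearCombination, G.span1]

theorem f0_φ0 (a : G.ι → C.RB0 R) : P.f0 (G.φ0 a) = G.φ01 fun i => C.ρ0 R (a i) := by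
  simp only [φ0, φ01, Fintype.linearCombination_apply, map_sum, P.f0_smul_chart]

theorem f1_φ1 (b : G.ι → C.RB1 R) :
    P.f1 (G.φ1 b) = G.φ01 fun i => C.T' R ^ G.m * C.ρ1 R (b i) := by
  simp only [φ1, φ01, Fintype.linearCombination_apply, map_sum, P.f1_smul_chart]
  refine Finset.sum_congr rfl fun i _ => ?_
  rw [G.glue, smul_smul, mul_right_comm, C.T'_pow_mul_T_pow, one_mul]

/-- The complex of the sum of twists. -/
def dF : (G.ι → C.RB0 R) × (G.ι → C.RB1 R) →ₗ[R] (G.ι → C.RB01 R) :=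
  LinearMap.pi fun i => C.dR G.m R ∘ₗ
    (LinearMap.proj i ∘ₗ LinearMap.fst R _ _).prod (LinearMap.proj i ∘ₗ LinearMap.snd R _ _)

theorem dF_apply (q : (G.ι → C.RB0 R) × (G.ι → C.RB1 R)) (i : G.ι) :
    G.dF q i = C.ρ0 R (q.1 i) - C.T' R ^ G.m * C.ρ1 R (q.2 i) := by
  simp [dF, C.dR_apply]

/-- The map of cochains. -/
def Φ : (G.ι → C.RB0 R) × (G.ι → C.RB1 R) →ₗ[R] P.N0 × P.N1 :=
  (G.φ0.restrictScalars R).prodMap (G.φ1.restrictScalars R)

theorem Φ_apply (q : (G.ι → C.RB0 R) × (G.ι → C.RB1 R)) : G.Φ q = (G.φ0 q.1, G.φ1 q.2) := rfl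

theorem Φ_surjective : Function.Surjective G.Φ := G.φ0_surjective.prodMap G.φ1_surjective

theorem diff_Φ (q : (G.ι → C.RB0 R) × (G.ι → C.RB1 R)) : P.diff (G.Φ q) = G.φ01 (G.dF q) := by
  rw [Φ_apply, P.diff_apply, f0_φ0, f1_φ1, ← map_sub]
  exact congrArg G.φ01 (funext fun i => (G.dF_apply q i).symm)

variable [Module.Projective (C.RB0 R) P.N0]

/-- A section on the first chart. -/
def s0 : P.N0 →ₗ[C.RB0 R] (G.ι → C.RB0 R) :=
  (Module.projective_lifting_property G.φ0 LinearMap.id G.φ0_surjective).choose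

theorem φ0_s0 (x : P.N0) : G.φ0 (G.s0 x) = x :=
  LinearMap.congr_fun
    (Module.projective_lifting_property G.φ0 LinearMap.id G.φ0_surjective).choose_spec x

theorem finite_ker_φ0 : Module.Finite (C.RB0 R) (LinearMap.ker G.φ0) := by
  let π : (G.ι → C.RB0 R) →ₗ[C.RB0 R] LinearMap.ker G.φ0 :=
    (LinearMap.id - G.s0 ∘ₗ G.φ0).codRestrict _ fun a => by
      simp [LinearMap.mem_ker, φ0_s0]
  refine Module.Finite.of_surjective π fun a => ⟨a.1, Subtype.ext ?_⟩
  show a.1 - G.s0 (G.φ0 a.1) = a.1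
  rw [a.2, map_zero, sub_zero]

/-- The surjection has a linear section on the overlap. -/
theorem exists_section_φ01 :
    ∃ s : P.N01 →ₗ[R] (G.ι → C.RB01 R), ∀ z, G.φ01 (s z) = z := by
  choose n v hv using P.surj0
  let τ : P.N0 → ℕ → (G.ι → C.RB01 R) := fun x j =>
    C.T' R ^ j • fun i => C.ρ0 R (G.s0 x i)
  have hτ : ∀ (x x' : P.N0) (j j' : ℕ) (z : P.N01), C.T R ^ j • z = P.f0 x →
      C.T R ^ j' • z = P.f0 x' → τ x j = τ x' j' := by
    intro x x' j j' z hx hx'
    obtain ⟨e, he⟩ := P.ker0 (C.T0 R ^ j' • x - C.T0 R ^ j • x') (by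
      rw [map_sub, P.f0_smul_chart, P.f0_smul_chart, map_pow, map_pow, C.ρ0_T0, ← hx, ← hx',
        smul_smul, smul_smul, mul_comm, sub_self])
    rw [smul_sub, sub_eq_zero, smul_smul, smul_smul] at he
    funext i
    have hi := congrArg (C.ρ0 R) (congrFun (congrArg G.s0 he) i)
    simp only [map_smul, Pi.smul_apply, smul_eq_mul, map_mul, map_pow, C.ρ0_T0, ← pow_add] at hi
    show C.T' R ^ j * C.ρ0 R (G.s0 x i) = C.T' R ^ j' * C.ρ0 R (G.s0 x' i)
    have key : ∀ (p q : ℕ) (w : C.RB01 R), C.T' R ^ (p + q) * (C.T R ^ q * w) = C.T' R ^ p * w :=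
      fun p q w => by rw [← mul_assoc, pow_add, mul_assoc _ _ (C.T R ^ q), C.T'_pow_mul_T_pow,
        mul_one]
    rw [← key j (e + j') (G.s0 x i |> C.ρ0 R), ← key j' (e + j) (G.s0 x' i |> C.ρ0 R), hi,
      show j + (e + j') = j' + (e + j) by omega]
  refine ⟨{ toFun := fun z => τ (v z) (n z), map_add' := fun z z' => ?_,
            map_smul' := fun a z => ?_ },
    fun z => ?_⟩
  · have hsum : C.T R ^ (n z + n z') • (z + z') =
        P.f0 (C.T0 R ^ n z' • v z + C.T0 R ^ n z • v z') := by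
      rw [map_add, P.f0_smul_chart, P.f0_smul_chart, map_pow, map_pow, C.ρ0_T0, ← hv z, ← hv z',
        smul_smul, smul_smul, smul_add, ← pow_add, ← pow_add, add_comm (n z') (n z)]
    show τ _ _ = τ _ _ + τ _ _
    rw [hτ _ _ _ _ _ (hv (z + z')) hsum]
    funext i
    have hz := C.T'_pow_mul_T_pow R (n z')
    have hz' := C.T'_pow_mul_T_pow R (n z)
    simp only [τ, map_add, map_smul, Pi.add_apply, Pi.smul_apply, smul_eq_mul, map_mul, map_pow,
      C.ρ0_T0, pow_add]
    linear_combination (C.T' R ^ n z * C.ρ0 R (G.s0 (v z) i)) * hz +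
      (C.T' R ^ n z' * C.ρ0 R (G.s0 (v z') i)) * hz'
  · have hsm : C.T R ^ n z • (a • z) = P.f0 (a • v z) := by
      rw [P.f0_smul, ← hv z, ← algebraMap_smul (C.RB01 R) a z, smul_comm, algebraMap_smul]
    show τ _ _ = a • τ _ _
    rw [hτ _ _ _ _ _ (hv (a • z)) hsm]
    funext i
    simp only [τ, Pi.smul_apply, LinearMap.map_smul_of_tower, map_smul, smul_eq_mul]
    rw [mul_smul_comm]
  · show G.φ01 (C.T' R ^ n z • fun i => C.ρ0 R (G.s0 (v z) i)) = z
    rw [map_smul, ← f0_φ0, φ0_s0, ← hv z, smul_smul, C.T'_pow_mul_T_pow, one_smul]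

end Gens

end Fermat.Agent.Pic.Cech

end
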