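import Fermat.Agent.Pic.Cech.BaseChange

/-!
# Finiteness of `H¹`

`H¹` of a datum with finitely generated sections on the first chart is finitely generated; it
vanishes after a large twist, and a finite module vanishing at a field-valued point vanishes
near it.
-/

noncomputable section

open TensorProduct

namespace Fermat.Agent.Pic.Cech

universe u

variable {k : Type u} [Field k]

theorem exists_fg_sup_eq_top {V : Type u} [AddCommGroup V] [Module k V] (S : Submodule k V)
    [Module.Finite k (V ⧸ S)] : ∃ W : Submodule k V, W.FG ∧ S ⊔ W = ⊤ := by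
  obtain ⟨W, hW⟩ := S.exists_isCompl
  have : Module.Finite k W := Module.Finite.equiv (Submodule.quotientEquivOfIsCompl S W hW)
  exact ⟨W, Module.Finite.iff_fg.mp this, hW.sup_eq_top⟩

section Linear

variable {R : Type u} [CommRing R]

/-- For a map of complexes `A → N`, `V → W` which is surjective on cokernels, the first one finite
and the second finitely presented, finitely many elements of `V` account for all the elements of
`N` sent to boundaries, up to boundaries. -/
theorem exists_fg_lift {A N V W : Type u} [AddCommGroup A] [Module R A] [AddCommGroup N]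
    [Module R N] [AddCommGroup V] [Module R V] [AddCommGroup W] [Module R W] (d₀ : A →ₗ[R] N)
    (d : V →ₗ[R] W) (φ : N →ₗ[R] W) (hd : ∀ a, φ (d₀ a) ∈ LinearMap.range d)
    (hsurj : ∀ z, ∃ w v, φ w + d v = z) [Module.Finite R (N ⧸ LinearMap.range d₀)]
    [Module.FinitePresentation R (W ⧸ LinearMap.range d)] :
    ∃ U : Submodule R V, U.FG ∧ (∀ u ∈ U, d u ∈ LinearMap.range φ) ∧
      ∀ w, φ w ∈ LinearMap.range d → ∃ a, ∃ u ∈ U, d u = φ (w - d₀ a) := by
  classical
  let θ : N ⧸ LinearMap.range d₀ →ₗ[R] W ⧸ LinearMap.range d :=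
    Submodule.mapQ _ _ φ (by rintro _ ⟨a, rfl⟩; exact hd a)
  have hθ : Function.Surjective θ := fun q => by
    obtain ⟨z, rfl⟩ := Submodule.mkQ_surjective _ q
    obtain ⟨w, v, rfl⟩ := hsurj z
    exact ⟨Submodule.Quotient.mk w, (Submodule.Quotient.eq _).mpr ⟨-v, by simp⟩⟩
  obtain ⟨t, ht⟩ := Module.FinitePresentation.fg_ker θ hθ
  choose z hz using Submodule.mkQ_surjective (LinearMap.range d₀)
  have hlift : ∀ l ∈ t, ∃ v, d v = φ (z l) := fun l hl => by
    have h : θ l = 0 := by
      rw [← LinearMap.mem_ker, ← ht]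
      exact Submodule.subset_span hl
    rw [← hz l] at h
    exact (Submodule.Quotient.mk_eq_zero _).mp h
  choose q hq using hlift
  refine ⟨Submodule.span R (t.attach.image fun l => q l.1 l.2 : Finset V), ⟨_, rfl⟩,
    Submodule.span_le (p := (LinearMap.range φ).comap d) |>.mpr ?_, fun w hw => ?_⟩
  · intro v hv
    obtain ⟨⟨l, hl⟩, -, rfl⟩ := Finset.mem_image.mp hv
    exact ⟨z l, (hq l hl).symm⟩
  · have h : (LinearMap.range d₀).mkQ w ∈ LinearMap.ker θ :=
      (Submodule.Quotient.mk_eq_zero _).mpr hw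
    rw [← ht] at h
    have hle : Submodule.span R (t : Set (N ⧸ LinearMap.range d₀)) ≤
        (((Submodule.span R (t.attach.image fun l => q l.1 l.2 : Finset V)).map d).comap φ).map
          (LinearMap.range d₀).mkQ := by
      rw [Submodule.span_le]
      exact fun l hl => ⟨z l, ⟨q l hl, Submodule.subset_span
        (Finset.mem_image.mpr ⟨⟨l, hl⟩, Finset.mem_attach _ _, rfl⟩), hq l hl⟩, hz l⟩
    obtain ⟨v, ⟨u, hu, huv⟩, hvw⟩ := hle h
    obtain ⟨a, ha⟩ := (Submodule.Quotient.eq _).mp hvw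
    exact ⟨-a, u, hu, by rw [huv, map_neg, ha, sub_neg_eq_add, add_sub_cancel]⟩

/-- A finite module vanishing at a field-valued point vanishes near it. -/
theorem exists_annihilator_of_field {K : Type u} [Field K] [Algebra R K] {Q : Type u}
    [AddCommGroup Q] [Module R Q] [Module.Finite R Q] [Subsingleton (K ⊗[R] Q)] :
    ∃ f : R, algebraMap R K f ≠ 0 ∧ ∀ q : Q, f • q = 0 := by
  let p : PrimeSpectrum R := ⟨RingHom.ker (algebraMap R K), RingHom.ker_isPrime _⟩
  have := p.isPrime
  let φ : p.asIdeal.ResidueField →+* K :=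
    Ideal.ResidueField.lift p.asIdeal (algebraMap R K) le_rfl fun r hr =>
      Ne.isUnit fun h => hr h
  let : Algebra p.asIdeal.ResidueField K := φ.toAlgebra
  have : IsScalarTower R p.asIdeal.ResidueField K :=
    IsScalarTower.of_algebraMap_eq fun r => (Ideal.ResidueField.lift_algebraMap p.asIdeal
      (algebraMap R K) le_rfl
      (fun r hr => Ne.isUnit fun h => hr h) r).symm
  have : Subsingleton (K ⊗[p.asIdeal.ResidueField] (p.asIdeal.ResidueField ⊗[R] Q)) :=
    (AlgebraTensorModule.cancelBaseChange R p.asIdeal.ResidueField K K Q).toEquiv.subsingleton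
  have hs : Subsingleton (p.asIdeal.ResidueField ⊗[R] Q) :=
    (Module.FaithfullyFlat.subsingleton_tensorProduct_iff_right p.asIdeal.ResidueField K).mp this
  have hp : p ∉ Module.support R Q := by
    rw [Module.mem_support_iff_nontrivial_residueField_tensorProduct,
      not_nontrivial_iff_subsingleton]
    exact hs
  rw [Module.support_eq_zeroLocus, PrimeSpectrum.mem_zeroLocus, Set.not_subset] at hp
  obtain ⟨f, hf, hfp⟩ := hp
  exact ⟨f, hfp, fun q => Module.mem_annihilator.mp hf q⟩

variable {R' : Type u} [CommRing R'] [Algebra R R']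

/-- A module killed by an element that becomes a unit vanishes after base change. -/
theorem subsingleton_tensor_of_annihilator {Q : Type u} [AddCommGroup Q] [Module R Q] {f : R}
    (hf : ∀ q : Q, f • q = 0) (hu : IsUnit (algebraMap R R' f)) :
    Subsingleton (R' ⊗[R] Q) := by
  refine subsingleton_of_forall_eq 0 fun z => ?_
  induction z using TensorProduct.induction_on with
  | zero => rfl
  | tmul a q =>
    obtain ⟨v, hv⟩ := hu
    have e : a = f • (↑v⁻¹ * a) := by
      rw [Algebra.smul_def, ← hv, ← mul_assoc, Units.mul_inv, one_mul]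
    rw [e, TensorProduct.smul_tmul, hf, tmul_zero]
  | add x y hx hy => rw [hx, hy, add_zero]

end Linear

namespace Cover

variable (C : Cover k)

/-- The second chart modulo a power of the parameter has representatives in a finite subspace. -/
theorem exists_rep_B1 (m : ℕ) :
    ∃ W : Submodule k C.B1, W.FG ∧ ∀ b : C.B1, ∃ c : C.B1, b - C.t1 ^ m * c ∈ W := by
  have := C.finite_zeros
  let S : Submodule k C.B1 := (Ideal.span ({C.t1} : Set C.B1)).restrictScalars k
  have : Module.Finite k (C.B1 ⧸ S) :=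
    Module.Finite.equiv (Submodule.Quotient.restrictScalarsEquiv k _).symm
  obtain ⟨W, hW, hSW⟩ := exists_fg_sup_eq_top S
  induction m with
  | zero => exact ⟨⊥, Submodule.fg_bot, fun b => ⟨b, by simp⟩⟩
  | succ m ih =>
    obtain ⟨Wm, hWm, hb⟩ := ih
    refine ⟨Wm ⊔ W.map (LinearMap.mulLeft k (C.t1 ^ m)), hWm.sup (hW.map _), fun b => ?_⟩
    obtain ⟨c, hc⟩ := hb b
    obtain ⟨s, hs, w, hw, hsw⟩ := Submodule.mem_sup.mp (hSW.symm ▸ Submodule.mem_top : c ∈ S ⊔ W)
    obtain ⟨d, hd⟩ := Ideal.mem_span_singleton.mp hs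
    refine ⟨d, ?_⟩
    have e : b - C.t1 ^ (m + 1) * d = (b - C.t1 ^ m * c) + C.t1 ^ m * w := by
      rw [← hsw, hd, pow_succ]; ring
    rw [e]
    exact add_mem (Submodule.mem_sup_left hc) (Submodule.mem_sup_right ⟨w, hw, rfl⟩)

/-- The classes of `O(-m)` have representatives in a finite subspace. -/
theorem exists_rep_B01 (m : ℕ) :
    ∃ U : Submodule k C.B01, U.FG ∧ ∀ z : C.B01, ∃ (u : C.B0) (w : C.B1),
      z - C.r0 C.t0 ^ m * C.r0 u - C.r1 w ∈ U := by
  have := C.finite_h1
  obtain ⟨V, hV, hSV⟩ := exists_fg_sup_eq_top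
    (LinearMap.range C.r0.toLinearMap ⊔ LinearMap.range C.r1.toLinearMap)
  obtain ⟨W, hW, hb⟩ := C.exists_rep_B1 m
  refine ⟨(V ⊔ W.map C.r1.toLinearMap).map (LinearMap.mulLeft k (C.r0 C.t0 ^ m)),
    (hV.sup (hW.map _)).map _, fun z => ?_⟩
  obtain ⟨s, hs, v, hv, hsv⟩ := Submodule.mem_sup.mp
    (hSV.symm ▸ Submodule.mem_top : C.r1 C.t1 ^ m * z ∈ _ ⊔ V)
  obtain ⟨_, ⟨u, rfl⟩, _, ⟨w, rfl⟩, rfl⟩ := Submodule.mem_sup.mp hs
  obtain ⟨c, hc⟩ := hb w
  refine ⟨u, c, v + C.r1 (w - C.t1 ^ m * c), add_mem (Submodule.mem_sup_left hv)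
    (Submodule.mem_sup_right ⟨_, hc, rfl⟩), ?_⟩
  have h1 : C.r0 C.t0 ^ m * C.r1 C.t1 ^ m = 1 := by rw [← mul_pow, C.mul_t, one_pow]
  simp only [AlgHom.toLinearMap_apply] at hsv
  rw [LinearMap.mulLeft_apply, map_sub, map_mul, map_pow]
  linear_combination (C.r0 C.t0 ^ m) * hsv + (z - C.r1 c) * h1

variable (R : Type u) [CommRing R] [Algebra k R]

/-- The classes of `O(-m)` over `R` have representatives in a finitely generated submodule. -/
theorem exists_rep_RB01 (m : ℕ) :
    ∃ U : Submodule R (C.RB01 R), U.FG ∧ ∀ z : C.RB01 R, ∃ (u : C.RB0 R) (w : C.RB1 R),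
      z - C.T R ^ m * C.ρ0 R u - C.ρ1 R w ∈ U := by
  obtain ⟨U, hU, hz⟩ := C.exists_rep_B01 m
  obtain ⟨s, rfl⟩ := hU
  classical
  refine ⟨Submodule.span R (s.image fun x => (1 : R) ⊗ₜ[k] x : Finset (C.RB01 R)), ⟨_, rfl⟩,
    fun z => ?_⟩
  induction z using TensorProduct.induction_on with
  | zero => exact ⟨0, 0, by simp⟩
  | tmul a z =>
    obtain ⟨u, w, h⟩ := hz z
    refine ⟨a ⊗ₜ u, a ⊗ₜ w, ?_⟩
    rw [ρ0_tmul, ρ1_tmul, Algebra.TensorProduct.tmul_pow, one_pow,
      Algebra.TensorProduct.tmul_mul_tmul, one_mul, ← tmul_sub, ← tmul_sub]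
    generalize z - C.r0 C.t0 ^ m * C.r0 u - C.r1 w = v at h
    induction h using Submodule.span_induction with
    | mem x hx =>
      have e : a ⊗ₜ[k] x = a • ((1 : R) ⊗ₜ[k] x) := by rw [smul_tmul', smul_eq_mul, mul_one]
      rw [e]
      exact Submodule.smul_mem _ a (Submodule.subset_span (by simpa using ⟨x, hx, rfl⟩))
    | zero => rw [tmul_zero]; exact zero_mem _
    | add x y _ _ hx hy => rw [tmul_add]; exact add_mem hx hy
    | smul c x _ hx =>
      rw [tmul_smul, ← algebraMap_smul R c (a ⊗ₜ[k] x)]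
      exact Submodule.smul_mem _ _ hx
  | add x y hx hy =>
    obtain ⟨u, w, h⟩ := hx
    obtain ⟨u', w', h'⟩ := hy
    refine ⟨u + u', w + w', ?_⟩
    convert add_mem h h' using 1
    rw [map_add, map_add]
    ring

end Cover

namespace Pre

variable {C : Cover k} {R : Type u} [CommRing R] [Algebra k R] (P : Pre C R)

theorem f0_smul_chart (u : C.RB0 R) (x : P.N0) : P.f0 (u • x) = C.ρ0 R u • P.f0 x :=
  map_smulₛₗ P.f0 u x

theorem f1_smul_chart (u : C.RB1 R) (y : P.N1) : P.f1 (u • y) = C.ρ1 R u • P.f1 y :=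
  map_smulₛₗ P.f1 u y

/-- `H¹` is finitely generated. -/
theorem finite_H1 [Module.Finite (C.RB0 R) P.N0] : Module.Finite R P.H1 := by
  obtain ⟨s, hs⟩ := Module.Finite.fg_top (R := C.RB0 R) (M := P.N0)
  choose n y hy using fun x : P.N0 => P.surj1 (P.f0 x)
  choose U hU hrep using fun m => C.exists_rep_RB01 R m
  let φ : P.N0 → C.RB01 R →ₗ[R] P.H1 := fun x => (LinearMap.range P.diff).mkQ ∘ₗ
    ((LinearMap.toSpanSingleton (C.RB01 R) P.N01 (P.f1 (y x))).restrictScalars R)
  let S : Submodule R P.H1 := s.sup fun x => (U (n x)).map (φ x)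
  have hφ : ∀ x ∈ s, ∀ c, φ x c ∈ S := fun x hx c => by
    obtain ⟨u, w, h⟩ := hrep (n x) c
    have e : φ x c = φ x (c - C.T R ^ n x * C.ρ0 R u - C.ρ1 R w) := by
      refine (Submodule.Quotient.eq _).mpr ?_
      show c • P.f1 (y x) - (c - C.T R ^ n x * C.ρ0 R u - C.ρ1 R w) • P.f1 (y x) ∈ _
      rw [← sub_smul, show c - (c - C.T R ^ n x * C.ρ0 R u - C.ρ1 R w) =
        C.T R ^ n x * C.ρ0 R u + C.ρ1 R w by ring, add_smul, ← f1_smul_chart, ← hy x,
        smul_smul, mul_right_comm, C.T_pow_mul_T'_pow, one_mul, ← f0_smul_chart]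
      exact add_mem (P.f0_mem_range _) (P.f1_mem_range _)
    rw [e]
    exact Finset.le_sup (f := fun x => (U (n x)).map (φ x)) hx ⟨_, h, rfl⟩
  have hfS : ∀ (x : P.N0) (c : C.RB01 R),
      (LinearMap.range P.diff).mkQ (c • P.f0 x) ∈ S := by
    intro x
    have hx : x ∈ Submodule.span (C.RB0 R) (s : Set P.N0) := hs ▸ Submodule.mem_top
    induction hx using Submodule.span_induction with
    | mem x hx =>
      intro c
      have e : c • P.f0 x = (c * C.T R ^ n x) • P.f1 (y x) := by
        rw [← hy x, smul_smul, mul_assoc, C.T_pow_mul_T'_pow, mul_one]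
      rw [e]
      exact hφ x hx _
    | zero => intro c; rw [map_zero, smul_zero, map_zero]; exact zero_mem _
    | add a b _ _ ha hb => intro c; rw [map_add, smul_add, map_add]; exact add_mem (ha c) (hb c)
    | smul r a _ ha => intro c; rw [f0_smul_chart, smul_smul]; exact ha _
  refine ⟨?_⟩
  have hSfg : S.FG := Finset.sup_induction Submodule.fg_bot (fun _ ha _ hb => ha.sup hb)
    fun x _ => (hU (n x)).map _
  convert hSfg
  refine (eq_top_iff.mpr ?_).symm
  rintro q -
  obtain ⟨z, rfl⟩ := Submodule.mkQ_surjective _ q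
  obtain ⟨m, x, hx⟩ := P.surj0 z
  have e : z = C.T' R ^ m • P.f0 x := by rw [← hx, smul_smul, C.T'_pow_mul_T_pow, one_smul]
  rw [e]
  exact hfS x _

theorem subsingleton_H1_iff : Subsingleton P.H1 ↔ Function.Surjective P.diff := by
  rw [Submodule.Quotient.subsingleton_iff, LinearMap.range_eq_top]

/-- A large twist kills `H¹`. -/
theorem exists_twist_surjective [Module.Finite (C.RB0 R) P.N0] :
    ∃ m₀ : ℕ, ∀ m, m₀ ≤ m → Function.Surjective (P.twist m).diff := by
  have := P.finite_H1
  obtain ⟨s, hs⟩ := Module.Finite.fg_top (R := R) (M := P.H1)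
  choose n y hy using P.surj1
  choose z hz using Submodule.mkQ_surjective (LinearMap.range P.diff)
  refine ⟨s.sup fun q => n (z q), fun m hm => ?_⟩
  have hf1 : ∀ (w : C.RB1 R) (v : P.N1),
      C.T R ^ m • C.ρ1 R w • P.f1 v ∈ LinearMap.range (P.twist m).diff := fun w v => by
    rw [← f1_smul_chart]
    exact (P.twist m).f1_mem_range (w • v : P.N1)
  have hle : LinearMap.range P.diff ≤ LinearMap.range (P.twist m).diff := by
    rintro _ ⟨q, rfl⟩
    rw [diff_apply]
    refine sub_mem ((P.twist m).f0_mem_range q.1) ?_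
    have h := hf1 (C.T1 R ^ m) q.2
    rwa [map_pow, C.ρ1_T1, smul_smul, C.T_pow_mul_T'_pow, one_smul] at h
  rw [← LinearMap.range_eq_top, eq_top_iff]
  rintro w -
  change P.N01 at w
  have hw : (LinearMap.range P.diff).mkQ w ∈ Submodule.span R (s : Set P.H1) :=
      hs ▸ Submodule.mem_top
  have hsle : Submodule.span R (s : Set P.H1) ≤
      (LinearMap.range (P.twist m).diff : Submodule R P.N01).map (LinearMap.range P.diff).mkQ := by
    rw [Submodule.span_le]
    intro q hq
    refine ⟨z q, ?_, hz q⟩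
    have hn : n (z q) ≤ m := (Finset.le_sup (f := fun q => n (z q)) hq).trans hm
    have h := hf1 (C.T1 R ^ (m - n (z q))) (y (z q))
    rw [map_pow, C.ρ1_T1, ← hy (z q), smul_smul, smul_smul, mul_assoc, ← pow_add,
      Nat.sub_add_cancel hn, C.T_pow_mul_T'_pow, one_smul] at h
    exact h
  obtain ⟨v, hv, hvw⟩ := hsle hw
  have h : v - w ∈ LinearMap.range P.diff := (Submodule.Quotient.eq _).mp hvw
  have := sub_mem hv (hle h)
  rwa [sub_sub_cancel] at this

variable {R' : Type u} [CommRing R'] [Algebra k R'] [Algebra R R'] [IsScalarTower k R R']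
  {P' : Pre C R'}

theorem _root_.Fermat.Agent.Pic.Cech.BaseChange.diff_surjective_iff {P : Pre C R}
    (h : BaseChange P P') : Function.Surjective P'.diff ↔ Subsingleton (R' ⊗[R] P.H1) := by
  rw [← subsingleton_H1_iff]
  exact h.h1Equiv.toEquiv.subsingleton_congr

theorem _root_.Fermat.Agent.Pic.Cech.BaseChange.diff_surjective {P : Pre C R}
    (h : BaseChange P P') (hP : Function.Surjective P.diff) : Function.Surjective P'.diff := by
  have : Subsingleton P.H1 := P.subsingleton_H1_iff.mpr hP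
  rw [h.diff_surjective_iff]
  infer_instance

end Pre

end Fermat.Agent.Pic.Cech

end
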