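import Fermat.Agent.Pic.Cech.Divisor

/-!
# Coordinates of functions on each chart

Every vector of coordinates at a point of the Hilbert scheme of the overlap is attained by a
function on either chart.
-/

noncomputable section

open TensorProduct

namespace Fermat.Agent.Pic.Cech

universe u

variable {k : Type u} [Field k] {C : Cover k} {ι : Type u} [Fintype ι] [DecidableEq ι]
  {e : ι → C.B01} {K : Type u} [Field K] [Algebra k K] (x : Hilb.Pt k e K)

/-- Every coordinate vector is that of a function on the first chart. -/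
theorem exists_πR_ρ0 (v : ι → K) : ∃ a : C.RB0 K, x.πR (C.ρ0 K a) = v := by
  let w := x.πR (C.T' K ^ C.exp0 e * Hilb.Pt.σ e K v)
  refine ⟨Hilb.Pt.σ (C.basis0 e) K w, ?_⟩
  rw [C.ρ0_σ e K]
  have h := Ideal.mul_mem_left _ (C.T K ^ C.exp0 e)
    (x.sub_σ_mem_ideal (C.T' K ^ C.exp0 e * Hilb.Pt.σ e K v))
  rw [mul_sub, ← mul_assoc, C.T_pow_mul_T'_pow, one_mul, Hilb.Pt.mem_ideal, map_sub, x.πR_σ,
    sub_eq_zero] at h
  exact h.symm

/-- Every coordinate vector is that of a function on the second chart. -/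
theorem exists_πR_ρ1 (v : ι → K) : ∃ b : C.RB1 K, x.πR (C.ρ1 K b) = v := by
  let w := x.πR (C.T K ^ C.exp1 e * Hilb.Pt.σ e K v)
  refine ⟨Hilb.Pt.σ (C.basis1 e) K w, ?_⟩
  rw [C.ρ1_σ e K]
  have h := Ideal.mul_mem_left _ (C.T' K ^ C.exp1 e)
    (x.sub_σ_mem_ideal (C.T K ^ C.exp1 e * Hilb.Pt.σ e K v))
  rw [mul_sub, ← mul_assoc, C.T'_pow_mul_T_pow, one_mul, Hilb.Pt.mem_ideal, map_sub, x.πR_σ,
    sub_eq_zero] at h
  exact h.symm

end Fermat.Agent.Pic.Cech

end
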