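import Fermat.Agent.Pic.Cech.ChiCuts

/-!
# Tensor products of invertible data

The tensor product on every chart, its coherence isomorphisms, inverses by duals, and its
compatibility with base change.
-/

noncomputable section

open TensorProduct

namespace Fermat.Agent.Pic.Cech

universe u

/-- A tensor of finite projective modules vanishes if all its values do. -/
theorem tensor_eq_zero_of_dual {S N M : Type u} [CommRing S] [AddCommGroup N] [Module S N]
    [AddCommGroup M] [Module S M] [Module.Finite S N] [Module.Projective S N] [Module.Finite S M]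
    [Module.Projective S M] {w : N ⊗[S] M}
    (h : ∀ (ψ : Module.Dual S N) (φ : Module.Dual S M),
      TensorProduct.lid S S (TensorProduct.map ψ φ w) = 0) : w = 0 := by
  obtain ⟨n, p, g, -, -, hpg⟩ := Module.Finite.exists_comp_eq_id_of_projective S N
  obtain ⟨m, q, g', -, -, hqg⟩ := Module.Finite.exists_comp_eq_id_of_projective S M
  have key : ∀ v : N ⊗[S] M, v = ∑ i, ∑ j,
      TensorProduct.lid S S (TensorProduct.map (LinearMap.proj i ∘ₗ g) (LinearMap.proj j ∘ₗ g') v) •
        (p (Pi.single i 1) ⊗ₜ[S] q (Pi.single j 1)) := by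
    intro v
    induction v using TensorProduct.induction_on with
    | zero => simp
    | tmul a b =>
      conv_lhs => rw [← LinearMap.id_apply (R := S) a, ← LinearMap.id_apply (R := S) b, ← hpg,
        ← hqg, LinearMap.comp_apply, LinearMap.comp_apply, pi_eq_sum_univ' (g a),
        pi_eq_sum_univ' (g' b)]
      simp only [map_sum, map_smul, sum_tmul, tmul_sum, smul_tmul', tmul_smul, Finset.smul_sum,
        TensorProduct.map_tmul, TensorProduct.lid_tmul, LinearMap.comp_apply, LinearMap.proj_apply,
        smul_eq_mul, mul_smul]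
      rw [Finset.sum_comm]
      exact Finset.sum_congr rfl fun i _ => Finset.sum_congr rfl fun j _ => by
        congr 1; exact smul_comm _ _ _
    | add u v hu hv =>
      simp only [map_add, add_smul, Finset.sum_add_distrib, ← hu, ← hv]
  rw [key w]
  exact Finset.sum_eq_zero fun i _ => Finset.sum_eq_zero fun j _ => by rw [h, zero_smul]

/-- A tensor of finite projective modules killed by localisations vanishes, if functionals extend
to the localisations. -/
theorem tensor_eq_zero_of_map {S S' : Type u} [CommRing S] [CommRing S'] {ρ : S →+* S'}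
    (hρ : Function.Injective ρ) {N M N' M' : Type u} [AddCommGroup N] [Module S N] [AddCommGroup M]
    [Module S M] [Module.Finite S N] [Module.Projective S N] [Module.Finite S M]
    [Module.Projective S M] [AddCommGroup N'] [Module S' N'] [AddCommGroup M'] [Module S' M']
    {f : N →ₛₗ[ρ] N'} {g : M →ₛₗ[ρ] M'}
    (hf : ∀ ψ : Module.Dual S N, ∃ χ : Module.Dual S' N', ∀ x, χ (f x) = ρ (ψ x))
    (hg : ∀ φ : Module.Dual S M, ∃ χ : Module.Dual S' M', ∀ x, χ (g x) = ρ (φ x)) {w : N ⊗[S] M}
    (hw : TensorProduct.map f g w = 0) : w = 0 := by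
  refine tensor_eq_zero_of_dual fun ψ φ => hρ ?_
  obtain ⟨χ, hχ⟩ := hf ψ
  obtain ⟨χ', hχ'⟩ := hg φ
  have key : ∀ v : N ⊗[S] M, ρ (TensorProduct.lid _ _ (TensorProduct.map ψ φ v)) =
      TensorProduct.lid _ _ (TensorProduct.map χ χ' (TensorProduct.map f g v)) := by
    intro v
    induction v using TensorProduct.induction_on with
    | zero => simp only [map_zero]
    | tmul a b =>
      simp only [TensorProduct.map_tmul, TensorProduct.lid_tmul, hχ, hχ', smul_eq_mul, map_mul]
    | add u v hu hv => simp only [map_add, hu, hv]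
  rw [key, hw, map_zero, map_zero, map_zero]

variable {k : Type u} [Field k] {C : Cover k} {R : Type u} [CommRing R] [Algebra k R]

instance Datum.invertible01 (L : Datum C R) : Module.Invertible (C.RB01 R) L.N01 := by
  refine Hilb.invertible_of_smul_comm L.smul_comm01 ?_
  obtain ⟨t, ht⟩ := ((Module.Invertible.linearEquiv (C.RB0 R) L.N0).symm 1).exists_finset
  have h1 : (1 : C.RB0 R) = ∑ i ∈ t, i.1 i.2 := by
    simpa [LinearEquiv.symm_apply_eq, Module.Invertible.linearEquiv] using ht
  refine ⟨∑ i ∈ t, L.toPre.dualF0 i.1 ⊗ₜ L.f0 i.2, ?_⟩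
  simp only [map_sum, contractLeft_apply, Pre.dualF0_apply]
  rw [← map_sum, ← h1, map_one]

/-- Up to a power of the parameter, tensors over the localisation come from the chart. -/
theorem exists_pow_smul_map {S S' : Type u} [CommRing S] [CommRing S'] {ρ : S →+* S'} {t : S}
    {t' : S'} (ht : ρ t = t') {N M N' M' : Type u} [AddCommGroup N] [Module S N] [AddCommGroup M]
    [Module S M] [AddCommGroup N'] [Module S' N'] [AddCommGroup M'] [Module S' M']
    (f : N →ₛₗ[ρ] N') (g : M →ₛₗ[ρ] M') (hf : ∀ z, ∃ (n : ℕ) (x : N), t' ^ n • z = f x)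
    (hg : ∀ z, ∃ (n : ℕ) (x : M), t' ^ n • z = g x) (z : N' ⊗[S'] M') :
    ∃ (n : ℕ) (x : N ⊗[S] M), t' ^ n • z = TensorProduct.map f g x := by
  induction z using TensorProduct.induction_on with
  | zero => exact ⟨0, 0, by rw [smul_zero, map_zero]⟩
  | tmul a b =>
    obtain ⟨n, x, hx⟩ := hf a
    obtain ⟨m, y, hy⟩ := hg b
    refine ⟨n + m, x ⊗ₜ y, ?_⟩
    rw [TensorProduct.map_tmul, ← hx, ← hy, tmul_smul, ← smul_tmul', smul_smul, pow_add, mul_comm]
  | add u v hu hv =>
    obtain ⟨n, x, hx⟩ := hu
    obtain ⟨m, y, hy⟩ := hv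
    refine ⟨n + m, t ^ m • x + t ^ n • y, ?_⟩
    rw [map_add, map_smulₛₗ, map_smulₛₗ, map_pow, map_pow, ht, ← hx, ← hy, smul_smul, smul_smul,
      ← pow_add, ← pow_add, add_comm m n, smul_add]

namespace Datum

/-- Tensors on the first chart dying on the overlap vanish. -/
theorem tensor_map_eq_zero0 (L M : Datum C R) {w : L.N0 ⊗[C.RB0 R] M.N0}
    (hw : TensorProduct.map L.f0 M.f0 w = 0) : w = 0 :=
  tensor_eq_zero_of_map (C.ρ0_injective R) L.toPre.exists_extend0 M.toPre.exists_extend0 hw

theorem tensor_map_eq_zero1 (L M : Datum C R) {w : L.N1 ⊗[C.RB1 R] M.N1}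
    (hw : TensorProduct.map L.f1 M.f1 w = 0) : w = 0 :=
  tensor_eq_zero_of_map (C.ρ1_injective R) L.toPre.exists_extend1 M.toPre.exists_extend1 hw

/-- The tensor product of invertible data. -/
def tensor (L M : Datum C R) : Datum C R where
  N0 := L.N0 ⊗[C.RB0 R] M.N0
  N1 := L.N1 ⊗[C.RB1 R] M.N1
  N01 := L.N01 ⊗[C.RB01 R] M.N01
  f0 := TensorProduct.map L.f0 M.f0
  f1 := TensorProduct.map L.f1 M.f1
  surj0 z := exists_pow_smul_map (C.ρ0_T0 R) L.f0 M.f0 L.surj0 M.surj0 z
  surj1 z := exists_pow_smul_map (C.ρ1_T1 R) L.f1 M.f1 L.surj1 M.surj1 z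
  ker0 x hx := ⟨0, by rw [pow_zero, one_smul, L.tensor_map_eq_zero0 M hx]⟩
  ker1 x hx := ⟨0, by rw [pow_zero, one_smul, L.tensor_map_eq_zero1 M hx]⟩
  invertible0 := inferInstance
  invertible1 := inferInstance

variable {L L' M M' N : Datum C R}

/-- Isomorphisms of the factors give one of the tensor products. -/
def tensorCongr (e : L.toPre.Equiv L'.toPre) (e' : M.toPre.Equiv M'.toPre) :
    (L.tensor M).toPre.Equiv (L'.tensor M').toPre where
  e0 := TensorProduct.congr e.e0 e'.e0
  e1 := TensorProduct.congr e.e1 e'.e1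
  e01 := TensorProduct.congr e.e01 e'.e01
  comm0 x := by
    change L.N0 ⊗[C.RB0 R] M.N0 at x
    show TensorProduct.congr e.e01 e'.e01 (TensorProduct.map L.f0 M.f0 x) =
      TensorProduct.map L'.f0 M'.f0 (TensorProduct.congr e.e0 e'.e0 x)
    induction x using TensorProduct.induction_on with
    | zero => simp only [map_zero]
    | tmul a b =>
      simp only [TensorProduct.map_tmul, TensorProduct.congr_tmul, e.comm0, e'.comm0]
    | add u v hu hv => simp only [map_add, hu, hv]
  comm1 x := by
    change L.N1 ⊗[C.RB1 R] M.N1 at x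
    show TensorProduct.congr e.e01 e'.e01 (TensorProduct.map L.f1 M.f1 x) =
      TensorProduct.map L'.f1 M'.f1 (TensorProduct.congr e.e1 e'.e1 x)
    induction x using TensorProduct.induction_on with
    | zero => simp only [map_zero]
    | tmul a b =>
      simp only [TensorProduct.map_tmul, TensorProduct.congr_tmul, e.comm1, e'.comm1]
    | add u v hu hv => simp only [map_add, hu, hv]

variable (L M N)

/-- The unit on the right. -/
def tensorUnit : (L.tensor (unitDatum C R)).toPre.Equiv L.toPre where
  e0 := TensorProduct.rid (C.RB0 R) L.N0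
  e1 := TensorProduct.rid (C.RB1 R) L.N1
  e01 := TensorProduct.rid (C.RB01 R) L.N01
  comm0 x := by
    change L.N0 ⊗[C.RB0 R] C.RB0 R at x
    show TensorProduct.rid (C.RB01 R) L.N01 (TensorProduct.map L.f0 (unitPre C R).f0 x) =
      L.f0 (TensorProduct.rid (C.RB0 R) L.N0 x)
    induction x using TensorProduct.induction_on with
    | zero =>
      exact (((congrArg _ (map_zero _)).trans (map_zero _)).trans (map_zero L.f0).symm).trans
        (congrArg L.f0 (map_zero _).symm)
    | tmul a b => exact (L.toPre.f0_smul_chart b a).symm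
    | add u v hu hv =>
      exact (((congrArg _ (map_add _ u v)).trans (map_add _ _ _)).trans
        (congr_arg₂ (· + ·) hu hv)).trans
        ((map_add L.f0 _ _).symm.trans (congrArg L.f0 (map_add _ u v).symm))
  comm1 x := by
    change L.N1 ⊗[C.RB1 R] C.RB1 R at x
    show TensorProduct.rid (C.RB01 R) L.N01 (TensorProduct.map L.f1 (unitPre C R).f1 x) =
      L.f1 (TensorProduct.rid (C.RB1 R) L.N1 x)
    induction x using TensorProduct.induction_on with
    | zero =>
      exact (((congrArg _ (map_zero _)).trans (map_zero _)).trans (map_zero L.f1).symm).trans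
        (congrArg L.f1 (map_zero _).symm)
    | tmul a b => exact (L.toPre.f1_smul_chart b a).symm
    | add u v hu hv =>
      exact (((congrArg _ (map_add _ u v)).trans (map_add _ _ _)).trans
        (congr_arg₂ (· + ·) hu hv)).trans
        ((map_add L.f1 _ _).symm.trans (congrArg L.f1 (map_add _ u v).symm))

/-- Commutativity. -/
def tensorComm : (L.tensor M).toPre.Equiv (M.tensor L).toPre where
  e0 := TensorProduct.comm (C.RB0 R) L.N0 M.N0
  e1 := TensorProduct.comm (C.RB1 R) L.N1 M.N1
  e01 := TensorProduct.comm (C.RB01 R) L.N01 M.N01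
  comm0 x := (TensorProduct.map_comm M.f0 L.f0 x).symm
  comm1 x := (TensorProduct.map_comm M.f1 L.f1 x).symm

/-- Associativity. -/
def tensorAssoc : ((L.tensor M).tensor N).toPre.Equiv (L.tensor (M.tensor N)).toPre where
  e0 := TensorProduct.assoc (C.RB0 R) L.N0 M.N0 N.N0
  e1 := TensorProduct.assoc (C.RB1 R) L.N1 M.N1 N.N1
  e01 := TensorProduct.assoc (C.RB01 R) L.N01 M.N01 N.N01
  comm0 x := by
    change (L.N0 ⊗[C.RB0 R] M.N0) ⊗[C.RB0 R] N.N0 at x
    show TensorProduct.assoc (C.RB01 R) L.N01 M.N01 N.N01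
        (TensorProduct.map (TensorProduct.map L.f0 M.f0) N.f0 x) =
      TensorProduct.map L.f0 (TensorProduct.map M.f0 N.f0)
        (TensorProduct.assoc (C.RB0 R) L.N0 M.N0 N.N0 x)
    induction x using TensorProduct.induction_on with
    | zero => simp only [map_zero]
    | tmul a c =>
      induction a using TensorProduct.induction_on with
      | zero => simp only [zero_tmul, map_zero]
      | tmul a b => simp only [TensorProduct.map_tmul, TensorProduct.assoc_tmul]
      | add u v hu hv => simp only [add_tmul, map_add, hu, hv]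
    | add u v hu hv => simp only [map_add, hu, hv]
  comm1 x := by
    change (L.N1 ⊗[C.RB1 R] M.N1) ⊗[C.RB1 R] N.N1 at x
    show TensorProduct.assoc (C.RB01 R) L.N01 M.N01 N.N01
        (TensorProduct.map (TensorProduct.map L.f1 M.f1) N.f1 x) =
      TensorProduct.map L.f1 (TensorProduct.map M.f1 N.f1)
        (TensorProduct.assoc (C.RB1 R) L.N1 M.N1 N.N1 x)
    induction x using TensorProduct.induction_on with
    | zero => simp only [map_zero]
    | tmul a c =>
      induction a using TensorProduct.induction_on with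
      | zero => simp only [zero_tmul, map_zero]
      | tmul a b => simp only [TensorProduct.map_tmul, TensorProduct.assoc_tmul]
      | add u v hu hv => simp only [add_tmul, map_add, hu, hv]
    | add u v hu hv => simp only [map_add, hu, hv]

/-- The dual is inverse. -/
def tensorDual : (L.dual.tensor L).toPre.Equiv (unitPre C R) where
  e0 := Module.Invertible.linearEquiv (C.RB0 R) L.N0
  e1 := Module.Invertible.linearEquiv (C.RB1 R) L.N1
  e01 := Module.Invertible.linearEquiv (C.RB01 R) L.N01
  comm0 x := by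
    change Module.Dual (C.RB0 R) L.N0 ⊗[C.RB0 R] L.N0 at x
    show contractLeft (C.RB01 R) L.N01 (TensorProduct.map L.toPre.dualF0 L.f0 x) =
      C.ρ0 R (contractLeft (C.RB0 R) L.N0 x)
    induction x using TensorProduct.induction_on with
    | zero => simp only [map_zero]
    | tmul a b => simp only [TensorProduct.map_tmul, contractLeft_apply, Pre.dualF0_apply]
    | add u v hu hv => simp only [map_add, hu, hv]
  comm1 x := by
    change Module.Dual (C.RB1 R) L.N1 ⊗[C.RB1 R] L.N1 at x
    show contractLeft (C.RB01 R) L.N01 (TensorProduct.map L.toPre.dualF1 L.f1 x) =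
      C.ρ1 R (contractLeft (C.RB1 R) L.N1 x)
    induction x using TensorProduct.induction_on with
    | zero => simp only [map_zero]
    | tmul a b => simp only [TensorProduct.map_tmul, contractLeft_apply, Pre.dualF1_apply]
    | add u v hu hv => simp only [map_add, hu, hv]

end Datum

section BaseChange

variable {R' : Type u} [CommRing R'] [Algebra k R'] [Algebra R R'] [IsScalarTower k R R']

/-- The images of a map inducing an isomorphism from a base change generate. -/
theorem span_range_eq_top_of_tmul_one {N N' : Type u} [AddCommGroup N] [Module R N]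
    [AddCommGroup N'] [Module R' N'] {b : N → N'}
    (hb : ∃ e : R' ⊗[R] N ≃ₗ[R'] N', ∀ x, e (1 ⊗ₜ x) = b x) :
    Submodule.span R' (Set.range b) = ⊤ := by
  obtain ⟨e, he⟩ := hb
  refine eq_top_iff.mpr fun y _ => ?_
  obtain ⟨w, rfl⟩ := e.surjective y
  induction w using TensorProduct.induction_on with
  | zero => rw [map_zero]; exact zero_mem _
  | tmul a x =>
    rw [← mul_one a, ← smul_eq_mul, ← smul_tmul', map_smul, he]
    exact Submodule.smul_mem _ _ (Submodule.subset_span ⟨x, rfl⟩)
  | add u v hu hv => rw [map_add]; exact add_mem (hu trivial) (hv trivial)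

/-- Tensor products of finite projective chart modules commute with base change. -/
theorem exists_tensorChart_equiv {B : Type u} [CommRing B] [Algebra k B] {N N' M M' : Type u}
    [AddCommGroup N] [Module R N] [Module (R ⊗[k] B) N] [IsScalarTower R (R ⊗[k] B) N]
    [AddCommGroup N'] [Module R' N'] [Module (R' ⊗[k] B) N'] [IsScalarTower R' (R' ⊗[k] B) N']
    [AddCommGroup M] [Module R M] [Module (R ⊗[k] B) M] [IsScalarTower R (R ⊗[k] B) M]
    [AddCommGroup M'] [Module R' M'] [Module (R' ⊗[k] B) M'] [IsScalarTower R' (R' ⊗[k] B) M']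
    [Module.Finite (R ⊗[k] B) N] [Module.Projective (R ⊗[k] B) N]
    [Module.Finite (R ⊗[k] B) M] [Module.Projective (R ⊗[k] B) M]
    (b : N →ₛₗ[(chartMap k R R' B).toRingHom] N') (c : M →ₛₗ[(chartMap k R R' B).toRingHom] M')
    (hb : ∃ e : R' ⊗[R] N ≃ₗ[R'] N', ∀ x, e (1 ⊗ₜ x) = b x)
    (hc : ∃ e : R' ⊗[R] M ≃ₗ[R'] M', ∀ x, e (1 ⊗ₜ x) = c x) :
    ∃ E : R' ⊗[R] (N ⊗[R ⊗[k] B] M) ≃ₗ[R'] N' ⊗[R' ⊗[k] B] M',
      ∀ w, E (1 ⊗ₜ w) = TensorProduct.map b c w := by
  obtain ⟨n, p, g, -, -, hpg⟩ := Module.Finite.exists_comp_eq_id_of_projective (R ⊗[k] B) N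
  obtain ⟨m, q, g', -, -, hqg⟩ := Module.Finite.exists_comp_eq_id_of_projective (R ⊗[k] B) M
  let D := TensorProduct.map b c
  let F : R' ⊗[R] (N ⊗[R ⊗[k] B] M) →ₗ[R'] N' ⊗[R' ⊗[k] B] M' := liftChart D
  have hF : ∀ (a : R') w, F (a ⊗ₜ w) = a • D w := fun a w => rfl
  let χ : Fin n → Module.Dual (R' ⊗[k] B) N' := fun i => dualChart b hb (LinearMap.proj i ∘ₗ g)
  let χ' : Fin m → Module.Dual (R' ⊗[k] B) M' := fun j => dualChart c hc (LinearMap.proj j ∘ₗ g')
  let val : Fin n → Fin m → (N' ⊗[R' ⊗[k] B] M' →ₗ[R' ⊗[k] B] R' ⊗[k] B) := fun i j =>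
    (TensorProduct.lid _ _).toLinearMap ∘ₗ TensorProduct.map (χ i) (χ' j)
  let Q : Fin n → Fin m → (R' ⊗[k] B →ₗ[R'] R' ⊗[R] (N ⊗[R ⊗[k] B] M)) := fun i j =>
    ((LinearMap.toSpanSingleton (R ⊗[k] B) _
      (p (Pi.single i 1) ⊗ₜ[R ⊗[k] B] q (Pi.single j 1))).restrictScalars R).baseChange R' ∘ₗ
      (AlgebraTensorModule.cancelBaseChange k R R' R' B).symm.toLinearMap
  let G : N' ⊗[R' ⊗[k] B] M' →ₗ[R'] R' ⊗[R] (N ⊗[R ⊗[k] B] M) :=
    ∑ i, ∑ j, Q i j ∘ₗ (val i j).restrictScalars R'
  have hQ : ∀ i j (a : R') (t : R ⊗[k] B),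
      Q i j (a • chartMap k R R' B t) =
        a ⊗ₜ (t • (p (Pi.single i 1) ⊗ₜ[R ⊗[k] B] q (Pi.single j 1))) := by
    intro i j a t
    rw [smul_eq_tmul_mul]
    show ((LinearMap.toSpanSingleton (R ⊗[k] B) _ _).restrictScalars R).baseChange R'
      ((AlgebraTensorModule.cancelBaseChange k R R' R' B).symm _) = _
    rw [← cancelBaseChange_tmul_eq, LinearEquiv.symm_apply_apply]
    rfl
  have hGD : ∀ w, G (D w) = (1 : R') ⊗ₜ[R] w := fun w => by
    induction w using TensorProduct.induction_on with
    | zero => rw [map_zero D, map_zero G, tmul_zero]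
    | tmul x y =>
      have hval : ∀ i j, val i j (D (x ⊗ₜ y)) = (1 : R') • chartMap k R R' B (g x i * g' y j) := by
        intro i j
        simp only [val, LinearMap.comp_apply, LinearEquiv.coe_coe, D, TensorProduct.map_tmul, χ, χ',
          dualChart_apply, TensorProduct.lid_tmul, smul_eq_mul, one_smul, map_mul,
          LinearMap.proj_apply]
      simp only [G, LinearMap.coe_sum, Finset.sum_apply, LinearMap.comp_apply,
        LinearMap.restrictScalars_apply, hval, hQ, ← tmul_sum]
      congr 1
      conv_rhs => rw [← LinearMap.id_apply (R := R ⊗[k] B) x,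
        ← LinearMap.id_apply (R := R ⊗[k] B) y, ← hpg, ← hqg, LinearMap.comp_apply,
        LinearMap.comp_apply, pi_eq_sum_univ' (g x), pi_eq_sum_univ' (g' y)]
      simp only [map_sum, map_smul, sum_tmul, tmul_sum, smul_tmul', tmul_smul, Finset.smul_sum,
        mul_smul]
      rw [Finset.sum_comm]
      exact Finset.sum_congr rfl fun i _ => Finset.sum_congr rfl fun j _ => by
        congr 1; exact smul_comm _ _ _
    | add u v hu hv => rw [map_add, map_add, hu, hv, tmul_add]
  have hGF : ∀ z, G (F z) = z := fun z => by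
    induction z using TensorProduct.induction_on with
    | zero => simp
    | tmul a w => rw [hF, map_smul, hGD, smul_tmul', smul_eq_mul, mul_one]
    | add u v hu hv => rw [map_add, map_add, hu, hv]
  have hs : Function.Surjective F := fun z => by
    refine LinearMap.mem_range.mp ?_
    induction z using TensorProduct.induction_on with
    | zero => exact zero_mem _
    | tmul x y =>
      have hx : x ∈ Submodule.span R' (Set.range b) :=
        (span_range_eq_top_of_tmul_one hb).ge trivial
      have hy : y ∈ Submodule.span R' (Set.range c) :=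
        (span_range_eq_top_of_tmul_one hc).ge trivial
      induction hx, hy using Submodule.span_induction₂ with
      | mem_mem x y hx hy =>
        obtain ⟨x, rfl⟩ := hx
        obtain ⟨y, rfl⟩ := hy
        exact ⟨1 ⊗ₜ (x ⊗ₜ y), (hF 1 _).trans (one_smul _ _)⟩
      | zero_left y hy => rw [zero_tmul]; exact zero_mem _
      | zero_right x hx => rw [tmul_zero]; exact zero_mem _
      | add_left x y z _ _ _ h1 h2 => rw [add_tmul]; exact add_mem h1 h2
      | add_right x y z _ _ _ h1 h2 => rw [tmul_add]; exact add_mem h1 h2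
      | smul_left r x y _ _ h => rw [← smul_tmul']; exact Submodule.smul_mem _ r h
      | smul_right r x y _ _ h => rw [tmul_smul]; exact Submodule.smul_mem _ r h
    | add u w hu hw => exact add_mem hu hw
  exact ⟨LinearEquiv.ofBijective F ⟨Function.LeftInverse.injective hGF, hs⟩,
    fun w => (hF 1 w).trans (one_smul _ _)⟩

/-- Base change passes to tensor products. -/
def BaseChange.tensor {L M : Datum C R} {L' M' : Datum C R'} (h : BaseChange L.toPre L'.toPre)
    (h' : BaseChange M.toPre M'.toPre) :
    BaseChange (L.tensor M).toPre (L'.tensor M').toPre where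
  b0 := TensorProduct.map h.b0 h'.b0
  b1 := TensorProduct.map h.b1 h'.b1
  b01 := TensorProduct.map h.b01 h'.b01
  comm0 x := by
    change L.N0 ⊗[C.RB0 R] M.N0 at x
    show TensorProduct.map h.b01 h'.b01 (TensorProduct.map L.f0 M.f0 x) =
      TensorProduct.map L'.f0 M'.f0 (TensorProduct.map h.b0 h'.b0 x)
    induction x using TensorProduct.induction_on with
    | zero => simp only [map_zero]
    | tmul a b => simp only [TensorProduct.map_tmul, h.comm0, h'.comm0]
    | add u v hu hv => simp only [map_add, hu, hv]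
  comm1 x := by
    change L.N1 ⊗[C.RB1 R] M.N1 at x
    show TensorProduct.map h.b01 h'.b01 (TensorProduct.map L.f1 M.f1 x) =
      TensorProduct.map L'.f1 M'.f1 (TensorProduct.map h.b1 h'.b1 x)
    induction x using TensorProduct.induction_on with
    | zero => simp only [map_zero]
    | tmul a b => simp only [TensorProduct.map_tmul, h.comm1, h'.comm1]
    | add u v hu hv => simp only [map_add, hu, hv]
  exists_e0 := exists_tensorChart_equiv h.b0 h'.b0 h.exists_e0 h'.exists_e0
  exists_e1 := exists_tensorChart_equiv h.b1 h'.b1 h.exists_e1 h'.exists_e1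
  exists_e01 := exists_tensorChart_equiv h.b01 h'.b01 h.exists_e01 h'.exists_e01

end BaseChange

end Fermat.Agent.Pic.Cech

end
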