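import Fermat.Agent.Pic.Cech.IdealChi
import Fermat.Agent.Pic.Cech.Tensor

/-!
# Products of divisors

Over a field the ideal datum of a product of ideals is the tensor product of the ideal data, and
the dual of a tensor product is the tensor product of the duals.
-/

noncomputable section

open TensorProduct

namespace Fermat.Agent.Pic.Cech

universe u

/-- Contraction along a localisation commutes with products of ideals prime to the element
inverted. -/
theorem comap_mul_of_coprime {A B : Type u} [CommRing A] [CommRing B] (f : A →+* B)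
    (hf : Function.Injective f) (t : A) (hloc : ∀ z : B, ∃ (n : ℕ) (a : A), f t ^ n * z = f a)
    (I J : Ideal B) (hI : I.comap f ⊔ Ideal.span {t} = ⊤) (hJ : J.comap f ⊔ Ideal.span {t} = ⊤) :
    (I * J).comap f = I.comap f * J.comap f := by
  refine le_antisymm (fun b hb => ?_) (Ideal.le_comap_mul f)
  have key : ∀ z ∈ I * J, ∃ (n : ℕ) (a : A), a ∈ I.comap f * J.comap f ∧ f t ^ n * z = f a := by
    intro z hz
    induction hz using Submodule.mul_induction_on' with
    | mem_mul_mem i hi j hj =>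
      obtain ⟨n, a, ha⟩ := hloc i
      obtain ⟨m, c, hc⟩ := hloc j
      refine ⟨n + m, a * c, Ideal.mul_mem_mul ?_ ?_, ?_⟩
      · rw [Ideal.mem_comap, ← ha]; exact Ideal.mul_mem_left _ _ hi
      · rw [Ideal.mem_comap, ← hc]; exact Ideal.mul_mem_left _ _ hj
      · rw [map_mul, ← ha, ← hc, pow_add]; ring
    | add x _ y _ hx hy =>
      obtain ⟨n, a, ha, hxa⟩ := hx
      obtain ⟨m, c, hc, hyc⟩ := hy
      refine ⟨n + m, t ^ m * a + t ^ n * c,
        add_mem (Ideal.mul_mem_left _ _ ha) (Ideal.mul_mem_left _ _ hc), ?_⟩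
      rw [map_add, map_mul, map_mul, map_pow, map_pow, ← hxa, ← hyc, pow_add]
      ring
  obtain ⟨n, a, ha, hab⟩ := key (f b) hb
  have hab' : t ^ n * b = a := hf (by rw [map_mul, map_pow]; exact hab)
  have h1 : I.comap f * J.comap f ⊔ Ideal.span {t} = ⊤ := by
    rw [eq_top_iff, ← Ideal.mul_top (⊤ : Ideal A)]
    nth_rewrite 1 [← hI]
    rw [← hJ, Ideal.sup_mul, Ideal.mul_sup]
    refine sup_le (sup_le le_sup_left (Ideal.mul_le_right.trans le_sup_right))
      (Ideal.mul_le_left.trans le_sup_right)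
  obtain ⟨q, hq, r, hr, hqr⟩ := Submodule.mem_sup.mp
    ((Ideal.sup_pow_eq_top (n := n) h1).symm ▸ Submodule.mem_top : (1 : A) ∈ _)
  rw [Ideal.span_singleton_pow, Ideal.mem_span_singleton'] at hr
  obtain ⟨c, rfl⟩ := hr
  have hb' : b = q * b + c * a := by
    rw [← hab', ← mul_assoc, ← add_mul, hqr, one_mul]
  rw [hb']
  exact add_mem (Ideal.mul_mem_right _ _ hq) (Ideal.mul_mem_left _ _ ha)

/-- Multiplication of invertible ideals. -/
theorem exists_mulEquiv {A : Type u} [CommRing A] (I J L : Ideal A) [Module.Flat A J]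
    (h : I * J = L) :
    ∃ E : ↥I ⊗[A] ↥J ≃ₗ[A] ↥L, ∀ i j, (E (i ⊗ₜ j) : A) = i * j := by
  let μ : ↥I ⊗[A] ↥J →ₗ[A] A :=
    (TensorProduct.lid A A).toLinearMap ∘ₗ TensorProduct.map I.subtype J.subtype
  have hμ : Function.Injective μ := by
    refine (TensorProduct.lid A A).injective.comp ?_
    have e : TensorProduct.map I.subtype J.subtype =
        (J.subtype.lTensor A) ∘ₗ (I.subtype.rTensor ↥J) := by
      ext i j; rfl
    rw [e]
    exact (Module.Flat.lTensor_preserves_injective_linearMap _ J.injective_subtype).comp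
      (Module.Flat.rTensor_preserves_injective_linearMap _ I.injective_subtype)
  have hrange : LinearMap.range μ = L := by
    rw [← h]
    refine le_antisymm ?_ (Ideal.mul_le.mpr fun i hi j hj => ⟨⟨i, hi⟩ ⊗ₜ ⟨j, hj⟩, rfl⟩)
    rintro _ ⟨w, rfl⟩
    induction w using TensorProduct.induction_on with
    | zero => rw [map_zero]; exact zero_mem _
    | tmul i j => exact Ideal.mul_mem_mul i.2 j.2
    | add u v hu hv => rw [map_add]; exact add_mem hu hv
  exact ⟨(LinearEquiv.ofInjective μ hμ).trans (LinearEquiv.ofEq _ _ hrange), fun i j => rfl⟩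

/-- Multiplications of ideals commute with restrictions. -/
theorem mulEquiv_comm {A B : Type u} [CommRing A] [CommRing B] (ρ : A →+* B) {I J L : Ideal A}
    {I' J' L' : Ideal B} (f : ↥I →ₛₗ[ρ] ↥I') (g : ↥J →ₛₗ[ρ] ↥J') (l : ↥L →ₛₗ[ρ] ↥L')
    (hf : ∀ i, (f i : B) = ρ i) (hg : ∀ j, (g j : B) = ρ j) (hl : ∀ a, (l a : B) = ρ a)
    {E0 : ↥I ⊗[A] ↥J ≃ₗ[A] ↥L} (hE0 : ∀ i j, (E0 (i ⊗ₜ j) : A) = i * j)
    {E : ↥I' ⊗[B] ↥J' ≃ₗ[B] ↥L'} (hE : ∀ i j, (E (i ⊗ₜ j) : B) = i * j) (w : ↥I ⊗[A] ↥J) :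
    E (TensorProduct.map f g w) = l (E0 w) := by
  induction w using TensorProduct.induction_on with
  | zero => simp only [map_zero]
  | tmul a b =>
    refine Subtype.ext ?_
    rw [TensorProduct.map_tmul, hE, hf, hg, hl, hE0, map_mul]
  | add u v hu hv => simp only [map_add, hu, hv]

variable {k : Type u} [Field k] [IsAlgClosed k] {C : Cover k}

omit [IsAlgClosed k] in
/-- The ideal on the first chart is prime to the parameter. -/
theorem ideal_pt0_sup {ι : Type u} [Fintype ι] [DecidableEq ι] {e : ι → C.B01}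
    (x : Hilb.Pt k e k) : x.ideal.comap (C.ρ0 k).toRingHom ⊔ Ideal.span {C.T0 k} = ⊤ := by
  obtain ⟨a, ha⟩ := exists_πR_ρ0 x (x.πR (C.T' k))
  have h : C.ρ0 k a - C.T' k ∈ x.ideal := by rw [Hilb.Pt.mem_ideal, map_sub, ha, sub_self]
  rw [Ideal.eq_top_iff_one, Submodule.mem_sup]
  refine ⟨1 - a * C.T0 k, ?_, a * C.T0 k, Ideal.mem_span_singleton'.mpr ⟨a, rfl⟩, by ring⟩
  show C.ρ0 k (1 - a * C.T0 k) ∈ x.ideal
  rw [map_sub, map_one, map_mul, C.ρ0_T0, ← C.T'_mul_T k, ← sub_mul]
  exact Ideal.mul_mem_right _ _ (by rw [← neg_sub]; exact neg_mem h)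

omit [IsAlgClosed k] in
theorem ideal_pt1_sup {ι : Type u} [Fintype ι] [DecidableEq ι] {e : ι → C.B01}
    (x : Hilb.Pt k e k) : x.ideal.comap (C.ρ1 k).toRingHom ⊔ Ideal.span {C.T1 k} = ⊤ := by
  obtain ⟨a, ha⟩ := exists_πR_ρ1 x (x.πR (C.T k))
  have h : C.ρ1 k a - C.T k ∈ x.ideal := by rw [Hilb.Pt.mem_ideal, map_sub, ha, sub_self]
  rw [Ideal.eq_top_iff_one, Submodule.mem_sup]
  refine ⟨1 - a * C.T1 k, ?_, a * C.T1 k, Ideal.mem_span_singleton'.mpr ⟨a, rfl⟩, by ring⟩
  show C.ρ1 k (1 - a * C.T1 k) ∈ x.ideal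
  rw [map_sub, map_one, map_mul, C.ρ1_T1, ← C.T_mul_T' k, ← sub_mul]
  exact Ideal.mul_mem_right _ _ (by rw [← neg_sub]; exact neg_mem h)

variable [C.SmoothCharts]

/-- The ideal datum of a product is the tensor product. -/
theorem nonempty_idealDatum_tensor {ι ι' ι'' : Type u} [Fintype ι] [DecidableEq ι] [Fintype ι']
    [DecidableEq ι'] [Fintype ι''] [DecidableEq ι''] {e : ι → C.B01} {e' : ι' → C.B01}
    {e'' : ι'' → C.B01} (x : Hilb.Pt k e k) (y : Hilb.Pt k e' k) (z : Hilb.Pt k e'' k)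
    (h : x.ideal * y.ideal = z.ideal) :
    Nonempty (((idealDatum x).tensor (idealDatum y)).toPre.Equiv (idealDatum z).toPre) := by
  have : Module.Invertible (C.RB0 k) ↥(pt0 y).ideal := (idealDatum y).invertible0
  have : Module.Invertible (C.RB1 k) ↥(pt1 y).ideal := (idealDatum y).invertible1
  have : Module.Invertible (C.RB01 k) ↥y.ideal :=
    inferInstanceAs (Module.Invertible (C.RB01 k) (idealDatum y).N01)
  have h0 : (pt0 x).ideal * (pt0 y).ideal = (pt0 z).ideal := by
    rw [ideal_pt0, ideal_pt0, ideal_pt0, ← h]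
    exact (comap_mul_of_coprime (C.ρ0 k).toRingHom (C.ρ0_injective k) (C.T0 k)
      (C.exists_T_pow_mul k) _ _ (ideal_pt0_sup x) (ideal_pt0_sup y)).symm
  have h1 : (pt1 x).ideal * (pt1 y).ideal = (pt1 z).ideal := by
    rw [ideal_pt1, ideal_pt1, ideal_pt1, ← h]
    exact (comap_mul_of_coprime (C.ρ1 k).toRingHom (C.ρ1_injective k) (C.T1 k)
      (C.exists_T'_pow_mul k) _ _ (ideal_pt1_sup x) (ideal_pt1_sup y)).symm
  obtain ⟨E0, hE0⟩ := exists_mulEquiv _ _ _ h0
  obtain ⟨E1, hE1⟩ := exists_mulEquiv _ _ _ h1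
  obtain ⟨E, hE⟩ := exists_mulEquiv _ _ _ h
  exact ⟨{ e0 := E0
           e1 := E1
           e01 := E
           comm0 := fun w => mulEquiv_comm (C.ρ0 k).toRingHom (idealPre x).f0 (idealPre y).f0
             (idealPre z).f0 (fun _ => rfl) (fun _ => rfl) (fun _ => rfl) hE0 hE w
           comm1 := fun w => mulEquiv_comm (C.ρ1 k).toRingHom (idealPre x).f1 (idealPre y).f1
             (idealPre z).f1 (fun _ => rfl) (fun _ => rfl) (fun _ => rfl) hE1 hE w }⟩

namespace Datum

variable {R : Type u} [CommRing R] [Algebra k R]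

omit [IsAlgClosed k] [C.SmoothCharts] in
/-- The dual of a tensor product is the tensor product of the duals. -/
theorem nonempty_dual_tensor (L M : Datum C R) :
    Nonempty ((L.tensor M).dual.toPre.Equiv (L.dual.tensor M.dual).toPre) := by
  let D := (L.tensor M).dual
  let E := L.dual.tensor M.dual
  let T := L.tensor M
  -- `E ⊗ T` is trivial
  let a : (E.tensor T).toPre.Equiv (unitPre C R) :=
    ((tensorAssoc L.dual M.dual T).trans
      (tensorCongr (Pre.Equiv.refl L.dual.toPre)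
        (((tensorCongr (Pre.Equiv.refl M.dual.toPre) (tensorComm L M)).trans
          (tensorAssoc M.dual M L).symm).trans
          ((tensorCongr (M' := L) (L' := unitDatum C R) (tensorDual M)
            (Pre.Equiv.refl L.toPre)).trans
            ((tensorComm (unitDatum C R) L).trans (tensorUnit L)))))).trans
      (tensorDual L)
  exact ⟨((((tensorUnit D).symm.trans
    (tensorCongr (M' := E.tensor T) (L' := D) (Pre.Equiv.refl D.toPre) a.symm)).trans
      ((tensorAssoc D E T).symm.trans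
        ((tensorCongr (tensorComm D E) (Pre.Equiv.refl T.toPre)).trans (tensorAssoc E D T)))).trans
      (tensorCongr (M' := unitDatum C R) (L' := E) (Pre.Equiv.refl E.toPre) (tensorDual T))).trans
      (tensorUnit E)⟩

end Datum

end Fermat.Agent.Pic.Cech

end
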