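import Fermat.Agent.Pic.Cech.Chart
import Fermat.Agent.Pic.Cech.Tensor

/-!
# Openness of the chart

The locus where a datum has no first cohomology and a section cutting out the family is a
neighbourhood of each field-valued point having these properties; on it the datum is the divisor
of a quotient.
-/

noncomputable section

open TensorProduct

namespace Fermat.Agent.Pic.Cech

universe u

section Linear

variable {R : Type u} [CommRing R]

variable {R' : Type u} [CommRing R'] [Algebra R R']

/-- A base changed map is surjective iff its cokernel vanishes after base change. -/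
theorem baseChange_surjective_iff {A Z : Type u} [AddCommGroup A] [Module R A] [AddCommGroup Z]
    [Module R Z] (g : A →ₗ[R] Z) :
    Function.Surjective (g.baseChange R') ↔ Subsingleton (R' ⊗[R] (Z ⧸ LinearMap.range g)) := by
  have hex : Function.Exact (g.baseChange R') ((LinearMap.range g).mkQ.baseChange R') :=
    lTensor_exact R' (LinearMap.exact_map_mkQ_range g) (Submodule.mkQ_surjective _)
  have hs : Function.Surjective ((LinearMap.range g).mkQ.baseChange R') :=
    LinearMap.lTensor_surjective R' (Submodule.mkQ_surjective _)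
  constructor
  · intro h
    refine subsingleton_of_forall_eq 0 fun w => ?_
    obtain ⟨z, rfl⟩ := hs w
    obtain ⟨a, rfl⟩ := h z
    exact hex.apply_apply_eq_zero a
  · intro h z
    exact (hex z).mp (Subsingleton.elim _ _)

/-- A projective module with vanishing fibres vanishes. -/
theorem subsingleton_of_fibres {P : Type u} [AddCommGroup P] [Module R P] [Module.Projective R P]
    (h : ∀ p : PrimeSpectrum R, Subsingleton (p.asIdeal.ResidueField ⊗[R] P)) :
    Subsingleton P := by
  classical
  obtain ⟨s, hs⟩ := Module.projective_def'.mp ‹Module.Projective R P›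
  have hnil : ∀ (a : P) (i : P), s a i ∈ nilradical R := fun a i => by
    rw [nilradical_eq_sInf]
    refine Ideal.mem_sInf.mpr fun {J} hJ => ?_
    let p : PrimeSpectrum R := ⟨J, hJ⟩
    have := p.isPrime
    have := h p
    have h0 : (1 : p.asIdeal.ResidueField) ⊗ₜ[R] a = 0 := Subsingleton.elim _ _
    have h1 := congrArg (TensorProduct.rid R p.asIdeal.ResidueField ∘
      (Finsupp.lapply i ∘ₗ s).lTensor p.asIdeal.ResidueField) h0
    simp only [Function.comp, LinearMap.lTensor_tmul, map_zero, TensorProduct.rid_tmul] at h1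
    rw [Algebra.smul_def, mul_one, Ideal.algebraMap_residueField_eq_zero] at h1
    exact h1
  refine subsingleton_of_forall_eq 0 fun x => ?_
  let S : Finset P := (s x).support
  have hx : ∀ a, a = Finsupp.linearCombination R id (s a) :=
      fun a => (LinearMap.congr_fun hs a).symm
  let I : Ideal R := Ideal.span ↑((S ×ˢ S).image fun q => s q.1 q.2)
  obtain ⟨m, hm⟩ : IsNilpotent I := by
    refine Ideal.FG.isNilpotent_iff_le_nilradical ⟨_, rfl⟩ |>.mpr (Ideal.span_le.mpr ?_)
    intro a ha
    obtain ⟨q, -, rfl⟩ := Finset.mem_image.mp ha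
    exact hnil q.1 q.2
  have key : ∀ j : ℕ, ∀ i ∈ S, s x i ∈ I ^ j := by
    intro j
    induction j with
    | zero => intro i _; rw [pow_zero, Ideal.one_eq_top]; trivial
    | succ j ih =>
      intro i hi
      have e : s x i = ∑ l ∈ S, s x l * s l i := by
        conv_lhs => rw [hx x, Finsupp.linearCombination_apply, Finsupp.sum, map_sum,
          Finsupp.finsetSum_apply]
        simp only [map_smul, Finsupp.smul_apply, smul_eq_mul, id_eq]
        rfl
      rw [e, pow_succ]
      exact Ideal.sum_mem _ fun l hl => Ideal.mul_mem_mul (ih l hl)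
        (Ideal.subset_span (Finset.mem_image.mpr ⟨(l, i), Finset.mem_product.mpr ⟨hl, hi⟩, rfl⟩))
  have hzero : s x = 0 := Finsupp.ext fun i => by
    by_contra hi
    have := key m i (Finsupp.mem_support_iff.mpr hi)
    rw [hm] at this
    exact hi this
  rw [hx x, hzero, map_zero]

/-- A finite projective module over a projective algebra is projective over the base. -/
theorem projective_trans {S M : Type u} [CommRing S] [Algebra R S] [AddCommGroup M] [Module R M]
    [Module S M] [IsScalarTower R S M] [Module.Projective R S] [Module.Finite S M]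
    [Module.Projective S M] : Module.Projective R M := by
  obtain ⟨n, p, g, -, -, hpg⟩ := Module.Finite.exists_comp_eq_id_of_projective S M
  have : Module.Projective R (Fin n → S) :=
    Module.Projective.of_equiv
      (DFinsupp.linearEquivFunOnFintype (R := R) (M := fun _ : Fin n => S))
  exact Module.Projective.of_split (g.restrictScalars R) (p.restrictScalars R)
    (LinearMap.ext fun x => LinearMap.congr_fun hpg x)

end Linear

variable {k : Type u} [Field k] {C : Cover k} {R : Type u} [CommRing R] [Algebra k R]
  {ι : Type u} [Fintype ι] {e : ι → C.B01}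

variable (e) in
/-- No first cohomology and a section cutting out the family. -/
def Pre.IsChartable (P : Pre C R) : Prop := Function.Surjective P.diff ∧ ∃ s, P.Cuts e s

/-- Chartability is stable under base change. -/
theorem Pre.IsChartable.baseChange {R' : Type u} [CommRing R'] [Algebra k R'] [Algebra R R']
    [IsScalarTower k R R'] {L : Datum C R} {M : Datum C R'} (hL : L.toPre.IsChartable e)
    (h : BaseChange L.toPre M.toPre) : M.toPre.IsChartable e :=
  ⟨h.diff_surjective hL.1, hL.2.elim fun s hs => ⟨_, h.cuts s e hs⟩⟩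

section Away

variable {R' : Type u} [CommRing R'] [Algebra k R'] [Algebra R R'] [IsScalarTower k R R']
  {K : Type u} [CommRing K] [Algebra k K] [Algebra R K] [IsScalarTower k R K]

/-- A field where the element is invertible is an algebra over the localisation. -/
theorem exists_away_algebra {f : R} [IsLocalization.Away f R'] (hf : IsUnit (algebraMap R K f)) :
    ∃ _ : Algebra R' K, IsScalarTower R R' K ∧ IsScalarTower k R' K := by
  let := (IsLocalization.Away.lift (S := R') f hf).toAlgebra
  have h1 : IsScalarTower R R' K :=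
    IsScalarTower.of_algebraMap_eq fun r => (IsLocalization.Away.lift_eq f hf r).symm
  exact ⟨this, h1, IsScalarTower.of_algebraMap_eq fun a => by
    rw [IsScalarTower.algebraMap_apply k R R', ← IsScalarTower.algebraMap_apply R R' K,
      ← IsScalarTower.algebraMap_apply k R K]⟩

omit [Algebra k K] [IsScalarTower k R K] in
/-- Neighbourhoods in a neighbourhood are neighbourhoods. -/
theorem Datum.exists_away_trans (L : Datum C R) [NoZeroDivisors K] (f : R)
    (hfK : algebraMap R K f ≠ 0) [Algebra (Localization.Away f) K]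
    [IsScalarTower R (Localization.Away f) K] (f' : Localization.Away f)
    (hf' : algebraMap (Localization.Away f) K f' ≠ 0)
    (h : ((L.baseChange (Localization.Away f)).baseChange
      (Localization.Away f')).toPre.IsChartable e) :
    ∃ g : R, algebraMap R K g ≠ 0 ∧
      (L.baseChange (Localization.Away g)).toPre.IsChartable e := by
  obtain ⟨n, a, ha⟩ := IsLocalization.Away.surj f f'
  have haK : algebraMap R K a ≠ 0 := by
    rw [IsScalarTower.algebraMap_apply R (Localization.Away f) K, ← ha, map_mul, map_pow,
      ← IsScalarTower.algebraMap_apply]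
    exact mul_ne_zero hf' (pow_ne_zero _ hfK)
  refine ⟨f * a, by rw [map_mul]; exact mul_ne_zero hfK haK, ?_⟩
  let R3 := Localization.Away (f * a)
  have hu := IsLocalization.Away.algebraMap_isUnit (S := R3) (f * a)
  rw [map_mul, IsUnit.mul_iff] at hu
  obtain ⟨_, _, _⟩ := exists_away_algebra (k := k) (R' := Localization.Away f) (K := R3) hu.1
  have hu' : IsUnit (algebraMap (Localization.Away f) R3 f') := by
    have h2 : IsUnit (algebraMap (Localization.Away f) R3
        (algebraMap R (Localization.Away f) a)) := by
      rw [← IsScalarTower.algebraMap_apply]; exact hu.2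
    rw [← ha, map_mul] at h2
    exact (IsUnit.mul_iff.mp h2).1
  obtain ⟨_, _, _⟩ := exists_away_algebra (k := k) (R := Localization.Away f)
    (R' := Localization.Away f') (K := R3) hu'
  let h1 : BaseChange (L.baseChange (Localization.Away f)).toPre (L.baseChange R3).toPre :=
    BaseChange.restrict (L.toPre.toBaseChange (Localization.Away f)) (L.toPre.toBaseChange R3)
  exact h.baseChange
    (BaseChange.restrict ((L.baseChange (Localization.Away f)).toPre.toBaseChange _) h1)

end Away

section Field

variable [IsAlgClosed k] [C.SmoothCharts] {K : Type u} [Field K] [Algebra k K]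

/-- Over a field a section without zeros on the zeros of the parameters whose zeros are spanned by
the family cuts it out when the Euler characteristic is right. -/
theorem Datum.cuts_of_surjective (M : Datum C K) (s : M.toPre.H0)
    (h0 : Function.Surjective (M.toPre.cut0 s.1.1)) (h1 : Function.Surjective (M.toPre.cut1 s.1.2))
    (h01 : Function.Surjective (M.toPre.cut01 e (M.f0 s.1.1)))
    (hchi : M.toPre.chi = (unitPre C K).chi + Fintype.card ι) : M.toPre.Cuts e s := by
  classical
  refine ⟨h0, h1, ?_, h01⟩
  have := C.isDomain_RB01 K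
  let z : M.N01 := M.f0 s.1.1
  obtain ⟨χ₀, hχ₀⟩ := M.exists_dual_ne_zero (z := z) h01
  have hinj : ∀ χ : Module.Dual (C.RB01 K) M.N01, χ z = 0 → χ = 0 := fun χ hχ =>
    LinearMap.ext fun m => by
      have h := congrArg χ₀ (M.smul_comm01 χ m z)
      rw [map_smul, map_smul, hχ, smul_eq_mul, smul_eq_mul, zero_mul, mul_eq_zero] at h
      exact h.resolve_right hχ₀
  let J : Submodule K (C.RB01 K) := (M.toPre.zeroIdeal s.1.1).restrictScalars K
  let v : ι → C.RB01 K ⧸ J := fun i => J.mkQ ((1 : K) ⊗ₜ[k] e i)
  have hσ : ∀ {κ : Type u} [Fintype κ] (a : κ → ι) (w : κ → K),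
      J.mkQ (Hilb.Pt.σ (e ∘ a) K w) = ∑ j, w j • (v ∘ a) j := fun a w => by
    rw [Hilb.Pt.σ, Fintype.linearCombination_apply, map_sum]
    exact Finset.sum_congr rfl fun j _ => map_smul J.mkQ _ _
  have hspan : Submodule.span K (Set.range v) = ⊤ := by
    refine eq_top_iff.mpr fun q _ => ?_
    obtain ⟨y, rfl⟩ := J.mkQ_surjective q
    obtain ⟨⟨χ, w⟩, rfl⟩ := h01 y
    rw [Pre.cut01_apply, map_add, show J.mkQ (χ z) = 0 from
      (Submodule.Quotient.mk_eq_zero _).mpr ⟨χ, rfl⟩, zero_add,
      show J.mkQ (Hilb.Pt.σ e K w) = _ from hσ id w]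
    exact Submodule.sum_mem _ fun j _ => Submodule.smul_mem _ _ (Submodule.subset_span ⟨j, rfl⟩)
  have hbij : ∀ {κ : Type u} [Fintype κ] (a : κ → ι),
      Submodule.span K (Set.range (v ∘ a)) = ⊤ → LinearIndependent K (v ∘ a) →
        Function.Bijective (M.toPre.cut01 (e ∘ a) z) := by
    intro κ _ a hsp hli
    refine ⟨(injective_iff_map_eq_zero _).mpr fun q hq => ?_, fun y => ?_⟩
    · rw [Pre.cut01_apply] at hq
      have h := congrArg J.mkQ hq
      rw [map_add, show J.mkQ (q.1 z) = 0 from (Submodule.Quotient.mk_eq_zero _).mpr ⟨q.1, rfl⟩,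
        zero_add, hσ, map_zero] at h
      have hw : q.2 = 0 := funext (Fintype.linearIndependent_iff.mp hli q.2 h)
      rw [hw, map_zero, add_zero] at hq
      exact Prod.ext (hinj q.1 hq) hw
    · obtain ⟨w, hw⟩ := (Submodule.mem_span_range_iff_exists_fun K).mp
        (hsp ▸ Submodule.mem_top : J.mkQ y ∈ Submodule.span K (Set.range (v ∘ a)))
      rw [← hσ] at hw
      obtain ⟨χ, hχ⟩ := (Submodule.Quotient.eq _).mp hw.symm
      refine ⟨(χ, w), ?_⟩
      rw [Pre.cut01_apply, show χ z = y - Hilb.Pt.σ (e ∘ a) K w from hχ, sub_add_cancel]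
  obtain ⟨κ, a, ha, hsp, hli⟩ := exists_linearIndependent' K v
  have : Finite κ := Finite.of_injective a ha
  let : Fintype κ := Fintype.ofFinite κ
  rw [hspan] at hsp
  have hs' : M.toPre.Cuts (e ∘ a) s := by
    refine ⟨h0, h1, ?_⟩
    exact hbij a hsp hli
  have hcard : Fintype.card κ = Fintype.card ι := by
    have h := M.chi_of_cuts _ s hs'
    rw [hchi] at h
    omega
  have hab : Function.Bijective a :=
    (Fintype.bijective_iff_injective_and_card a).mpr ⟨ha, hcard⟩
  have hli' : LinearIndependent K (v ∘ (id : ι → ι)) := by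
    have h := (linearIndependent_equiv (Equiv.ofBijective a hab)).mp hli
    exact h
  exact (hbij id (by simpa using hspan) hli').1

end Field

section Near

variable [IsAlgClosed k] [C.SmoothCharts] {K : Type u} [Field K] [Algebra k K] [Algebra R K]
  [IsScalarTower k R K] (L : Datum C R)

/-- A section without zeros on the zeros of the parameters which cuts out the family at a point
does so near the point. -/
theorem Datum.exists_near_of_section (hL : Function.Surjective L.toPre.diff) (s : L.toPre.H0)
    (h0 : Function.Surjective (L.toPre.cut0 s.1.1)) (h1 : Function.Surjective (L.toPre.cut1 s.1.2))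
    (M : Datum C K) (h : BaseChange L.toPre M.toPre) (hM : M.toPre.Cuts e (h.sectionMap s)) :
    ∃ f : R, algebraMap R K f ≠ 0 ∧
      (L.baseChange (Localization.Away f)).toPre.IsChartable e := by
  have := L.finite_coker_cut01 s e h0 h1
  have := (baseChange_surjective_iff _).mp ((h.cut01_iff s e).1.mp hM.bij01.2)
  obtain ⟨f₁, hf₁, hkill⟩ := exists_annihilator_of_field (R := R) (K := K)
    (Q := C.RB01 R ⧸ LinearMap.range (L.toPre.cut01 e (L.f0 s.1.1)))
  obtain ⟨r, hr, hchi⟩ := L.exists_chi
  let p : PrimeSpectrum R := (⊥ : PrimeSpectrum K).comap (algebraMap R K)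
  have hrp : r p = 1 - C.genus + Fintype.card ι := by
    rw [← chi_unit (C := C) (K := K), ← M.chi_of_cuts e _ hM]
    exact (hchi K M h ⊥).symm
  obtain ⟨U, hU, hpU, hUr⟩ := (IsLocallyConstant.iff_exists_open r).mp hr p
  obtain ⟨_, ⟨g, rfl⟩, hpg, hgU⟩ :=
    PrimeSpectrum.isTopologicalBasis_basic_opens.exists_subset_of_mem_open hpU hU
  have hg : algebraMap R K g ≠ 0 := fun h0 => hpg (by
    show algebraMap R K g ∈ (⊥ : PrimeSpectrum K).asIdeal
    rw [h0]; exact zero_mem _)
  refine ⟨f₁ * g, by rw [map_mul]; exact mul_ne_zero hf₁ hg, ?_⟩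
  let R' := Localization.Away (f₁ * g)
  have hu := IsLocalization.Away.algebraMap_isUnit (S := R') (f₁ * g)
  rw [map_mul, IsUnit.mul_iff] at hu
  let h' : BaseChange L.toPre (L.baseChange R').toPre := L.toPre.toBaseChange R'
  let L' := L.baseChange R'
  refine ⟨h'.diff_surjective hL, h'.sectionMap s,
    (h'.surjective_cut0_iff s).mpr (LinearMap.lTensor_surjective R' h0),
    (h'.surjective_cut1_iff s).mpr (LinearMap.lTensor_surjective R' h1), ?_⟩
  let Φ := L'.toPre.cut01 e (L'.f0 (h'.sectionMap s).1.1)
  have hΦ : Function.Surjective Φ := (h'.cut01_iff s e).1.mpr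
    ((baseChange_surjective_iff _).mpr (subsingleton_tensor_of_annihilator hkill hu.1))
  refine ⟨?_, hΦ⟩
  have : Module.Projective R' (Module.Dual (C.RB01 R') L'.N01) := projective_trans (S := C.RB01 R')
  obtain ⟨t, ht⟩ := Module.projective_lifting_property Φ LinearMap.id hΦ
  let ret : (Module.Dual (C.RB01 R') L'.N01 × (ι → R')) →ₗ[R'] LinearMap.ker Φ :=
    (LinearMap.id - t ∘ₗ Φ).codRestrict _ fun q => by
      rw [LinearMap.mem_ker, LinearMap.sub_apply, map_sub]
      exact sub_eq_zero.mpr (LinearMap.congr_fun ht (Φ q)).symm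
  have hret : ∀ q : LinearMap.ker Φ, ret q.1 = q := fun q => Subtype.ext <| by
    show q.1 - t (Φ q.1) = q.1
    rw [LinearMap.mem_ker.mp q.2, map_zero, sub_zero]
  have : Module.Projective R' (LinearMap.ker Φ) :=
    Module.Projective.of_split (R := R') (P := LinearMap.ker Φ)
      (M := Module.Dual (C.RB01 R') L'.N01 × (ι → R')) (LinearMap.ker Φ).subtype ret
      (LinearMap.ext hret)
  have hker : Subsingleton (LinearMap.ker Φ) := by
    refine subsingleton_of_fibres (R := R') (P := LinearMap.ker Φ) fun q => ?_
    let κ := q.asIdeal.ResidueField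
    let hL' : BaseChange L'.toPre (L'.baseChange κ).toPre := L'.toPre.toBaseChange κ
    have hs0 := (hL'.surjective_cut0_iff (h'.sectionMap s)).mpr
      (LinearMap.lTensor_surjective κ
        ((h'.surjective_cut0_iff s).mpr (LinearMap.lTensor_surjective R' h0)))
    have hs1 := (hL'.surjective_cut1_iff (h'.sectionMap s)).mpr
      (LinearMap.lTensor_surjective κ
        ((h'.surjective_cut1_iff s).mpr (LinearMap.lTensor_surjective R' h1)))
    have hs01 := (hL'.cut01_iff (h'.sectionMap s) e).1.mpr (LinearMap.lTensor_surjective κ hΦ)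
    have hq : (⊥ : PrimeSpectrum κ).comap (algebraMap R κ) ∈ PrimeSpectrum.basicOpen g := by
      show algebraMap R κ g ∉ (⊥ : PrimeSpectrum κ).asIdeal
      rw [IsScalarTower.algebraMap_apply R R' κ]
      exact fun hmem => (⊥ : PrimeSpectrum κ).isPrime.ne_top
        (Ideal.eq_top_of_isUnit_mem _ hmem (hu.2.map _))
    have hcuts := (L'.baseChange κ).cuts_of_surjective _ hs0 hs1 hs01 (by
      rw [hchi κ _ (h'.comp hL') ⊥, hUr _ (hgU hq), hrp, chi_unit])
    have hbij := (hL'.cut01_iff (h'.sectionMap s) e).2.mp hcuts.bij01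
    refine subsingleton_of_forall_eq 0 fun w => ?_
    have hinc : Function.LeftInverse (ret.baseChange κ) ((LinearMap.ker Φ).subtype.baseChange κ) :=
      fun w => by
        induction w using TensorProduct.induction_on with
        | zero => simp
        | tmul a x => simp [hret]
        | add u v hu hv => simp only [map_add, hu, hv]
    refine hinc.injective (hbij.1 ?_)
    rw [map_zero, map_zero]
    induction w using TensorProduct.induction_on with
    | zero => simp
    | tmul a x =>
      rw [LinearMap.baseChange_tmul, LinearMap.baseChange_tmul, Submodule.subtype_apply,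
        LinearMap.mem_ker.mp x.2, tmul_zero]
    | add u v hu hv => rw [map_add, map_add, hu, hv, add_zero]
  exact LinearMap.ker_eq_bot.mp (Submodule.eq_bot_of_subsingleton (p := LinearMap.ker Φ))

/-- A datum without cohomology near a chartable point is chartable near it. -/
theorem Datum.exists_near_of_surjective (hg : Fintype.card ι = C.genus)
    (hL : Function.Surjective L.toPre.diff) (M : Datum C K) (h : BaseChange L.toPre M.toPre)
    (hM : M.toPre.IsChartable e) :
    ∃ f : R, algebraMap R K f ≠ 0 ∧
      (L.baseChange (Localization.Away f)).toPre.IsChartable e := by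
  obtain ⟨hMd, t, ht⟩ := hM
  have hrank := finrank_H0_of_cuts M hg hMd ht
  obtain ⟨E, hE⟩ := h.exists_h0Equiv hL
  obtain ⟨q, hq⟩ : ∃ q : L.toPre.H0, (1 : K) ⊗ₜ[R] q ≠ 0 := by
    by_contra hcon
    push Not at hcon
    have hall : ∀ w : K ⊗[R] L.toPre.H0, w = 0 := fun w => by
      induction w using TensorProduct.induction_on with
      | zero => rfl
      | tmul a x =>
        rw [show a ⊗ₜ[R] x = a • ((1 : K) ⊗ₜ[R] x) by rw [smul_tmul', smul_eq_mul, mul_one],
          hcon, smul_zero]
      | add u v hu hv => rw [hu, hv, add_zero]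
    refine Pre.Cuts.ne_zero _ ht ?_
    rw [← E.apply_symm_apply t, hall (E.symm t), map_zero]
  have hEq : E (1 ⊗ₜ q) = h.sectionMap q :=
    Subtype.ext ((hE 1 q).trans (Prod.ext (one_smul _ _) (one_smul _ _)))
  have hne : h.sectionMap q ≠ 0 := by
    rw [← hEq]; exact fun h0 => hq (E.map_eq_zero_iff.mp h0)
  obtain ⟨c, hc⟩ := (finrank_eq_one_iff_of_nonzero' _ hne).mp hrank t
  have hc0 : c ≠ 0 := by
    rintro rfl
    exact Pre.Cuts.ne_zero _ ht (by rw [← hc, zero_smul])
  have hqc : M.toPre.Cuts e (h.sectionMap q) := by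
    have h2 := ht.smul e (inv_ne_zero hc0).isUnit
    rwa [← hc, smul_smul, inv_mul_cancel₀ hc0, one_smul] at h2
  have := L.toPre.finite_coker_cut0 q.1.1
  have := L.toPre.finite_coker_cut1 q.1.2
  have := (baseChange_surjective_iff _).mp ((h.surjective_cut0_iff q).mp hqc.surj0)
  have := (baseChange_surjective_iff _).mp ((h.surjective_cut1_iff q).mp hqc.surj1)
  obtain ⟨f0, hf0, hk0⟩ := exists_annihilator_of_field (R := R) (K := K)
    (Q := C.RB0 R ⧸ LinearMap.range (L.toPre.cut0 q.1.1))
  obtain ⟨f1, hf1, hk1⟩ := exists_annihilator_of_field (R := R) (K := K)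
    (Q := C.RB1 R ⧸ LinearMap.range (L.toPre.cut1 q.1.2))
  have hf : algebraMap R K (f0 * f1) ≠ 0 := by rw [map_mul]; exact mul_ne_zero hf0 hf1
  let R1 := Localization.Away (f0 * f1)
  have hu := IsLocalization.Away.algebraMap_isUnit (S := R1) (f0 * f1)
  rw [map_mul, IsUnit.mul_iff] at hu
  obtain ⟨_, _, _⟩ := exists_away_algebra (k := k) (R' := R1) (K := K) hf.isUnit
  let h1 : BaseChange L.toPre (L.baseChange R1).toPre := L.toPre.toBaseChange R1
  let h2 : BaseChange (L.baseChange R1).toPre M.toPre := h1.restrict h
  have hsec : h2.sectionMap (h1.sectionMap q) = h.sectionMap q :=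
    Subtype.ext (Prod.ext (BaseChange.restrict_b0 h1 h _) (BaseChange.restrict_b1 h1 h _))
  obtain ⟨f', hf', hchart⟩ := (L.baseChange R1).exists_near_of_section (h1.diff_surjective hL)
    (h1.sectionMap q)
    ((h1.surjective_cut0_iff q).mpr
      ((baseChange_surjective_iff _).mpr (subsingleton_tensor_of_annihilator hk0 hu.1)))
    ((h1.surjective_cut1_iff q).mpr
      ((baseChange_surjective_iff _).mpr (subsingleton_tensor_of_annihilator hk1 hu.2)))
    M h2 (hsec ▸ hqc)
  exact L.exists_away_trans _ hf f' hf' hchart

/-- A datum chartable at a field-valued point is chartable near it. -/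
theorem Datum.exists_near (hg : Fintype.card ι = C.genus) (M : Datum C K)
    (h : BaseChange L.toPre M.toPre) (hM : M.toPre.IsChartable e) :
    ∃ f : R, algebraMap R K f ≠ 0 ∧
      (L.baseChange (Localization.Away f)).toPre.IsChartable e := by
  have := L.toPre.finite_H1
  have := h.diff_surjective_iff.mp hM.1
  obtain ⟨f, hf, hkill⟩ := exists_annihilator_of_field (R := R) (K := K) (Q := L.toPre.H1)
  let R1 := Localization.Away f
  obtain ⟨_, _, _⟩ := exists_away_algebra (k := k) (R' := R1) (K := K) hf.isUnit
  let h1 : BaseChange L.toPre (L.baseChange R1).toPre := L.toPre.toBaseChange R1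
  have hd : Function.Surjective (L.baseChange R1).toPre.diff :=
    h1.diff_surjective_iff.mpr (subsingleton_tensor_of_annihilator hkill
      (IsLocalization.Away.algebraMap_isUnit f))
  obtain ⟨f', hf', hchart⟩ :=
    (L.baseChange R1).exists_near_of_surjective hg hd M (h1.restrict h) hM
  exact L.exists_away_trans _ hf f' hf' hchart

variable [DecidableEq ι]

/-- A datum chartable at a field-valued point is near it the divisor of a quotient. -/
theorem Datum.exists_chart (hg : Fintype.card ι = C.genus) (M : Datum C K)
    (h : BaseChange L.toPre M.toPre) (hM : M.toPre.IsChartable e) :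
    ∃ f : R, algebraMap R K f ≠ 0 ∧ ∃ x : Hilb.Pt k e (Localization.Away f),
      IsGood x ∧ Nonempty ((divisorDatum x).toPre.Equiv
        (L.baseChange (Localization.Away f)).toPre) := by
  obtain ⟨f, hf, hd, s, hs⟩ := L.exists_near hg M h hM
  obtain ⟨x, -, ⟨E⟩⟩ := exists_pt_of_cuts _ e s hs
  exact ⟨f, hf, x, E.symm.diff_surjective hd, ⟨E⟩⟩

end Near

end Fermat.Agent.Pic.Cech

end
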