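import Fermat.Agent.Pic.Cech.Generators

/-!
# Global sections when `H¹` vanishes

`H⁰` is then finitely generated projective and commutes with base change.
-/

noncomputable section

open TensorProduct

namespace Fermat.Agent.Pic.Cech

universe u

variable {k : Type u} [Field k] {C : Cover k} {R : Type u} [CommRing R] [Algebra k R]

namespace Gens

variable {P : Pre C R} (G : Gens P)

/-- The sections of a sum of twists are finitely generated. -/
theorem fg_ker_dF : (LinearMap.ker G.dF).FG := by
  classical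
  let j : G.ι → (C.RB0 R × C.RB1 R →ₗ[R] (G.ι → C.RB0 R) × (G.ι → C.RB1 R)) := fun i =>
    (LinearMap.single R (fun _ : G.ι => C.RB0 R) i).prodMap
      (LinearMap.single R (fun _ : G.ι => C.RB1 R) i)
  have heq : LinearMap.ker G.dF =
      Finset.univ.sup fun i => (LinearMap.ker (C.dR G.m R)).map (j i) := by
    refine le_antisymm (fun q hq => ?_) (Finset.sup_le fun i _ => ?_)
    · have hi : ∀ i, (q.1 i, q.2 i) ∈ LinearMap.ker (C.dR G.m R) := fun i => by
        rw [LinearMap.mem_ker, C.dR_apply, ← G.dF_apply, LinearMap.mem_ker.mp hq]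
        rfl
      have e : q = ∑ i, j i (q.1 i, q.2 i) := by
        refine Prod.ext ?_ ?_
        · simp only [j, Prod.fst_sum, LinearMap.prodMap_apply, LinearMap.coe_single,
            Finset.univ_sum_single]
        · simp only [j, Prod.snd_sum, LinearMap.prodMap_apply, LinearMap.coe_single,
            Finset.univ_sum_single]
      rw [e]
      exact Submodule.sum_mem _ fun i hiu =>
        Finset.le_sup (f := fun i => (LinearMap.ker (C.dR G.m R)).map (j i)) hiu ⟨_, hi i, rfl⟩
    · rintro _ ⟨q, hq, rfl⟩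
      refine LinearMap.mem_ker.mpr (funext fun l => ?_)
      rw [G.dF_apply]
      rcases eq_or_ne l i with rfl | hl
      · simp only [j, LinearMap.prodMap_apply, LinearMap.coe_single, Pi.single_eq_same,
          ← C.dR_apply, LinearMap.mem_ker.mp hq]
        rfl
      · simp [j, hl]
  rw [heq]
  exact Finset.sup_induction Submodule.fg_bot (fun _ ha _ hb => ha.sup hb)
    fun i _ => (C.fg_ker_dR G.m R).map _

/-- The kernel of the surjection. -/
def kerPre : Pre C R where
  N0 := LinearMap.ker G.φ0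
  N1 := LinearMap.ker G.φ1
  N01 := LinearMap.ker G.φ01
  f0 :=
    { toFun := fun a => ⟨fun i => C.ρ0 R (a.1 i), by
        rw [LinearMap.mem_ker, ← G.f0_φ0, a.2, map_zero]⟩
      map_add' := fun a b => Subtype.ext (funext fun i => map_add (C.ρ0 R) _ _)
      map_smul' := fun r a => Subtype.ext (funext fun i => map_mul (C.ρ0 R) r (a.1 i)) }
  f1 :=
    { toFun := fun b => ⟨fun i => C.T' R ^ G.m * C.ρ1 R (b.1 i), by
        rw [LinearMap.mem_ker, ← G.f1_φ1, b.2, map_zero]⟩
      map_add' := fun a b => Subtype.ext (funext fun i => by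
        show C.T' R ^ G.m * C.ρ1 R (a.1 i + b.1 i) =
          C.T' R ^ G.m * C.ρ1 R (a.1 i) + C.T' R ^ G.m * C.ρ1 R (b.1 i)
        rw [map_add, mul_add])
      map_smul' := fun r b => Subtype.ext (funext fun i => by
        show C.T' R ^ G.m * C.ρ1 R (r * b.1 i) = C.ρ1 R r * (C.T' R ^ G.m * C.ρ1 R (b.1 i))
        rw [map_mul]; ring) }
  surj0 z := by
    obtain ⟨n, a, ha⟩ := exists_pow_mul_forall (C.ρ0 R) (C.ρ0_T0 R)
      (C.exists_T_pow_mul R) z.1
    have h0 : P.f0 (G.φ0 a) = 0 := by
      rw [G.f0_φ0, show (fun i => C.ρ0 R (a i)) = C.T R ^ n • z.1 from funext fun i => (ha i).symm,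
        map_smul, z.2, smul_zero]
    obtain ⟨j, hj⟩ := P.ker0 _ h0
    refine ⟨n + j, ⟨C.T0 R ^ j • a, by rw [LinearMap.mem_ker, map_smul, hj]⟩,
      Subtype.ext (funext fun i => ?_)⟩
    show C.T R ^ (n + j) * z.1 i = C.ρ0 R (C.T0 R ^ j * a i)
    rw [map_mul, map_pow, C.ρ0_T0, ← ha i, ← mul_assoc, ← pow_add, add_comm]
  surj1 z := by
    obtain ⟨n, b, hb⟩ := exists_pow_mul_forall (C.ρ1 R) (C.ρ1_T1 R)
      (C.exists_T'_pow_mul R) z.1
    have h0 : P.f1 (G.φ1 b) = 0 := by
      rw [G.f1_φ1, show (fun i => C.T' R ^ G.m * C.ρ1 R (b i)) = C.T' R ^ (G.m + n) • z.1 from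
        funext fun i => by rw [← hb i, ← mul_assoc, ← pow_add]; rfl,
        map_smul, z.2, smul_zero]
    obtain ⟨j, hj⟩ := P.ker1 _ h0
    refine ⟨G.m + n + j, ⟨C.T1 R ^ j • b, by rw [LinearMap.mem_ker, map_smul, hj]⟩,
      Subtype.ext (funext fun i => ?_)⟩
    show C.T' R ^ (G.m + n + j) * z.1 i = C.T' R ^ G.m * C.ρ1 R (C.T1 R ^ j * b i)
    rw [map_mul, map_pow, C.ρ1_T1, ← hb i, pow_add, pow_add]
    ring
  ker0 a ha := ⟨0, by
    rw [pow_zero, one_smul]
    refine Subtype.ext (funext fun i => C.ρ0_injective R ?_)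
    rw [show C.ρ0 R (a.1 i) = 0 from congrFun (congrArg Subtype.val ha) i]
    exact (map_zero _).symm⟩
  ker1 b hb := ⟨0, by
    rw [pow_zero, one_smul]
    refine Subtype.ext (funext fun i => C.ρ1_injective R ?_)
    have h : C.T' R ^ G.m * C.ρ1 R (b.1 i) = 0 := congrFun (congrArg Subtype.val hb) i
    have h' := congrArg (C.T R ^ G.m * ·) h
    simp only [← mul_assoc, C.T_pow_mul_T'_pow, one_mul, mul_zero] at h'
    rw [h']
    exact (map_zero _).symm⟩

/-- The cochains of the kernel inside those of the sum of twists. -/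
def kerIncl : G.kerPre.N0 × G.kerPre.N1 →ₗ[R] (G.ι → C.RB0 R) × (G.ι → C.RB1 R) :=
  ((LinearMap.ker G.φ0).subtype.restrictScalars R).prodMap
    ((LinearMap.ker G.φ1).subtype.restrictScalars R)

theorem dF_kerIncl (q : G.kerPre.N0 × G.kerPre.N1) :
    G.dF (G.kerIncl q) = (G.kerPre.diff q).1 := by
  funext i
  rw [G.dF_apply, G.kerPre.diff_apply]
  rfl

/-- The classes in the sum of twists. -/
def classF : (G.ι → C.RB01 R) →ₗ[R] (G.ι → R ⊗[k] C.h1k G.m) :=
  LinearMap.pi fun i => C.classR G.m R ∘ₗ LinearMap.proj i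

/-- The classes of a sum of twists compute its `H¹`. -/
theorem exact_dF : Function.Exact G.dF G.classF := by
  intro z
  constructor
  · intro hz
    choose w hw using fun i => (C.exact_dR G.m R (z i)).mp (congrFun hz i)
    refine ⟨(fun i => (w i).1, fun i => (w i).2), funext fun i => ?_⟩
    rw [G.dF_apply, ← hw i, C.dR_apply]
  · rintro ⟨q, rfl⟩
    funext i
    show C.classR G.m R (G.dF q i) = 0
    rw [G.dF_apply, ← C.dR_apply G.m R (q.1 i, q.2 i)]
    exact (C.exact_dR G.m R).apply_apply_eq_zero _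

include G in
/-- Global sections are finitely generated when `H¹` vanishes. -/
theorem fg_H0 [Module.Projective (C.RB0 R) P.N0] (hP : Function.Surjective P.diff) : P.H0.FG := by
  classical
  have : Module.Finite (C.RB0 R) G.kerPre.N0 := G.finite_ker_φ0
  have hfin : Module.Finite R G.kerPre.H1 := G.kerPre.finite_H1
  let incl : G.kerPre.N01 →ₗ[R] (G.ι → C.RB01 R) :=
    (LinearMap.ker G.φ01).subtype.restrictScalars R
  have hcl : Function.Surjective G.classF := fun w => by
    choose v hv using fun i => C.classR_surjective G.m R (w i)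
    exact ⟨v, funext hv⟩
  let E : ((G.ι → C.RB01 R) ⧸ LinearMap.range G.dF) ≃ₗ[R] (G.ι → R ⊗[k] C.h1k G.m) :=
    Submodule.quotEquivOfEq _ _ G.exact_dF.linearMap_ker_eq.symm ≪≫ₗ
      G.classF.quotKerEquivOfSurjective hcl
  have : Module.Finite R ((G.ι → C.RB01 R) ⧸ LinearMap.range G.dF) := Module.Finite.equiv E.symm
  have : Module.Projective R ((G.ι → C.RB01 R) ⧸ LinearMap.range G.dF) :=
    Module.Projective.of_equiv E.symm
  have : Module.FinitePresentation R ((G.ι → C.RB01 R) ⧸ LinearMap.range G.dF) :=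
    Module.finitePresentation_of_projective R _
  obtain ⟨U, hU, hUmem, hlift⟩ := exists_fg_lift G.kerPre.diff G.dF incl
    (fun q => ⟨G.kerIncl q, G.dF_kerIncl q⟩) fun z => by
      obtain ⟨q, hq⟩ := hP (G.φ01 z)
      obtain ⟨q, rfl⟩ := G.Φ_surjective q
      exact ⟨⟨z - G.dF q, by rw [LinearMap.mem_ker, map_sub, ← G.diff_Φ, hq, sub_self]⟩, q,
        sub_add_cancel z (G.dF q)⟩
  suffices P.H0 = (LinearMap.ker G.dF ⊔ U).map G.Φ by
    rw [this]; exact (G.fg_ker_dF.sup hU).map _
  refine le_antisymm (fun h hh => ?_) ?_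
  · obtain ⟨w, rfl⟩ := G.Φ_surjective h
    have hw : G.dF w ∈ LinearMap.ker G.φ01 := by
      rw [LinearMap.mem_ker, ← G.diff_Φ]
      exact hh
    obtain ⟨κ, u, hu, huv⟩ := hlift ⟨_, hw⟩ ⟨w, rfl⟩
    have hdiff : w - u - G.kerIncl κ ∈ LinearMap.ker G.dF := by
      rw [LinearMap.mem_ker, map_sub, map_sub, G.dF_kerIncl, huv]
      show G.dF w - (G.dF w - (G.kerPre.diff κ).1) - (G.kerPre.diff κ).1 = 0
      abel
    have hΦκ : G.Φ (G.kerIncl κ) = 0 := Prod.ext κ.1.2 κ.2.2
    refine ⟨w - u - G.kerIncl κ + u, add_mem (Submodule.mem_sup_left hdiff)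
      (Submodule.mem_sup_right hu), ?_⟩
    rw [map_add, map_sub, map_sub, hΦκ, sub_zero, sub_add_cancel]
  · rw [Submodule.map_le_iff_le_comap]
    refine sup_le (fun w hw => ?_) fun u hu => ?_
    · show P.diff (G.Φ w) = 0
      rw [G.diff_Φ, LinearMap.mem_ker.mp hw, map_zero]
    · obtain ⟨z, hz⟩ := hUmem u hu
      show P.diff (G.Φ u) = 0
      rw [G.diff_Φ, ← hz]
      exact z.2

include G in
theorem projective_N0 [Module.Projective (C.RB0 R) P.N0] : Module.Projective R P.N0 :=
  Module.Projective.of_split (G.s0.restrictScalars R) (G.φ0.restrictScalars R)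
    (LinearMap.ext G.φ0_s0)

include G in
theorem projective_N1 [Module.Projective (C.RB1 R) P.N1] : Module.Projective R P.N1 := by
  obtain ⟨s, hs⟩ := Module.projective_lifting_property G.φ1 LinearMap.id G.φ1_surjective
  exact Module.Projective.of_split (s.restrictScalars R) (G.φ1.restrictScalars R)
    (LinearMap.ext fun x => LinearMap.congr_fun hs x)

include G in
theorem projective_N01 [Module.Projective (C.RB0 R) P.N0] : Module.Projective R P.N01 := by
  obtain ⟨s, hs⟩ := G.exists_section_φ01
  exact Module.Projective.of_split s (G.φ01.restrictScalars R) (LinearMap.ext hs)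

end Gens

namespace Pre

variable (P : Pre C R) [Module.Finite (C.RB0 R) P.N0] [Module.Finite (C.RB1 R) P.N1]
  [Module.Projective (C.RB0 R) P.N0] [Module.Projective (C.RB1 R) P.N1]

omit [Module.Projective (C.RB1 R) P.N1] in
theorem projective_N01 : Module.Projective R P.N01 :=
  (exists_gens P).some.projective_N01

omit [Module.Projective (C.RB1 R) P.N1] in
theorem finite_H0 (hP : Function.Surjective P.diff) : Module.Finite R P.H0 :=
  Module.Finite.iff_fg.mpr ((exists_gens P).some.fg_H0 hP)

theorem projective_cochains : Module.Projective R (P.N0 × P.N1) := by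
  have := (exists_gens P).some.projective_N0
  have := (exists_gens P).some.projective_N1
  infer_instance

omit [Module.Projective (C.RB1 R) P.N1] in
/-- Global sections are a direct summand of the cochains when `H¹` vanishes. -/
theorem exists_retraction (hP : Function.Surjective P.diff) :
    ∃ π : P.N0 × P.N1 →ₗ[R] P.H0, ∀ q : P.H0, π q = q := by
  have := P.projective_N01
  obtain ⟨s, hs⟩ := Module.projective_lifting_property P.diff LinearMap.id hP
  refine ⟨(LinearMap.id - s ∘ₗ P.diff).codRestrict _ fun q => ?_, fun q => Subtype.ext ?_⟩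
  · show q.1 - s (P.diff q.1) = q.1
    rw [LinearMap.mem_ker.mp q.2, map_zero, sub_zero]
  · rw [LinearMap.mem_ker, LinearMap.sub_apply, map_sub]
    exact sub_eq_zero.mpr (LinearMap.congr_fun hs (P.diff q)).symm

/-- Global sections are projective when `H¹` vanishes. -/
theorem projective_H0 (hP : Function.Surjective P.diff) : Module.Projective R P.H0 := by
  have := P.projective_cochains
  obtain ⟨π, hπ⟩ := P.exists_retraction hP
  exact Module.Projective.of_split P.H0.subtype π (LinearMap.ext hπ)

variable {R' : Type u} [CommRing R'] [Algebra k R'] [Algebra R R'] [IsScalarTower k R R']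

/-- Global sections commute with base change when `H¹` vanishes. -/
theorem _root_.Fermat.Agent.Pic.Cech.BaseChange.exists_h0Equiv {P : Pre C R} {P' : Pre C R'}
    [Module.Finite (C.RB0 R) P.N0] [Module.Finite (C.RB1 R) P.N1]
    [Module.Projective (C.RB0 R) P.N0]
    (h : BaseChange P P') (hP : Function.Surjective P.diff) :
    ∃ e : R' ⊗[R] P.H0 ≃ₗ[R'] P'.H0,
      ∀ (a : R') (q : P.H0), (e (a ⊗ₜ q) : P'.N0 × P'.N1) = (a • h.b0 q.1.1, a • h.b1 q.1.2) := by
  obtain ⟨π, hπ⟩ := P.exists_retraction hP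
  have hex : Function.Exact (P.H0.subtype.baseChange R') (P.diff.baseChange R') :=
    lTensor_exact R' P.diff.exact_subtype_ker_map hP
  have hinj : Function.Injective (P.H0.subtype.baseChange R') := by
    refine Function.LeftInverse.injective (g := π.baseChange R') fun z => ?_
    induction z using TensorProduct.induction_on with
    | zero => simp
    | tmul a q => simp only [LinearMap.baseChange_tmul, Submodule.subtype_apply, hπ]
    | add x y hx hy => simp only [map_add, hx, hy]
  let f : R' ⊗[R] P.H0 →ₗ[R'] P'.H0 :=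
    (h.eProd.toLinearMap ∘ₗ P.H0.subtype.baseChange R').codRestrict _ fun z => by
      rw [LinearMap.mem_ker, LinearMap.comp_apply]
      erw [h.diff_eProd]
      rw [hex.apply_apply_eq_zero, map_zero]
  have hf : Function.Bijective f := by
    refine ⟨fun x y e => hinj (h.eProd.injective (congrArg Subtype.val e)), fun q => ?_⟩
    obtain ⟨w, hw⟩ := h.eProd.surjective q.1
    have hw0 : P.diff.baseChange R' w = 0 := by
      refine h.e01.injective ?_
      rw [← h.diff_eProd, hw, map_zero, LinearMap.mem_ker.mp q.2]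
    obtain ⟨v, hv⟩ := (hex w).mp hw0
    exact ⟨v, Subtype.ext (by rw [← hw, ← hv]; rfl)⟩
  exact ⟨LinearEquiv.ofBijective f hf, fun a q => h.eProd_tmul a q.1⟩

end Pre

end Fermat.Agent.Pic.Cech

end
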