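import Fermat.Agent.Pic.Cech.Tensor

/-!
# Tensor products of finite families of data

The product of finitely many data, invariant under isomorphisms and compatible with base change.
-/

noncomputable section

open TensorProduct

namespace Fermat.Agent.Pic.Cech

universe u

variable {k : Type u} [Field k] {C : Cover k} {R : Type u} [CommRing R] [Algebra k R]

/-- The tensor product of a finite family of data. -/
def tensorFin : ∀ {n : ℕ}, (Fin n → Datum C R) → Datum C R
  | 0, _ => unitDatum C R
  | _ + 1, L => (tensorFin fun i => L i.castSucc).tensor (L (Fin.last _))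

/-- Equal data are isomorphic. -/
def equivOfEq {L L' : Datum C R} (h : L = L') : L.toPre.Equiv L'.toPre := h ▸ Pre.Equiv.refl _

/-- Isomorphic families have isomorphic products. -/
def tensorFinCongr : ∀ {n : ℕ} {L L' : Fin n → Datum C R},
    (∀ i, (L i).toPre.Equiv (L' i).toPre) → (tensorFin L).toPre.Equiv (tensorFin L').toPre
  | 0, _, _, _ => Pre.Equiv.refl _
  | _ + 1, L, L', e =>
    Datum.tensorCongr (L := tensorFin fun i => L i.castSucc) (L' := tensorFin fun i =>
      L' i.castSucc)
      (tensorFinCongr fun i => e i.castSucc) (e (Fin.last _))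

/-- Products commute with base change. -/
def tensorFinBaseChange {R' : Type u} [CommRing R'] [Algebra k R'] [Algebra R R']
    [IsScalarTower k R R'] : ∀ {n : ℕ} {L : Fin n → Datum C R} {L' : Fin n → Datum C R'},
    (∀ i, BaseChange (L i).toPre (L' i).toPre) →
      BaseChange (tensorFin L).toPre (tensorFin L').toPre
  | 0, _, _, _ => unitBaseChange C R R'
  | _ + 1, L, L', h =>
    BaseChange.tensor (L := tensorFin fun i => L i.castSucc) (L' := tensorFin fun i =>
      L' i.castSucc)
      (tensorFinBaseChange fun i => h i.castSucc) (h (Fin.last _))

end Fermat.Agent.Pic.Cech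

end
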